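/-
M1 (row 38, S44), chapter OLD (= T4), brick T4-G DESCENT (helper45):
**a `p`-th root in `k((q))` of an element of `range red` lies in `range red`**, as soon as
`range red` is the image of `κ_{k₀}(M) = modularFunctionFieldFullC k₀ M` under the coefficient
extension `k₀ → k`, `k₀` a perfect field of characteristic `p` (the finite residue field of `A ∩ L`).

Proof: `coeffMap ι y₀ = W ^ p` forces `y₀` to be supported on the multiples of `p`
(`ι` is injective), hence `y₀ = G ^ p` with `G ∈ κ_{k₀}(M)` (`ThetaKer41.exists_pow_eq_of_mem_fullC`,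
LK9), and `(coeffMap ι G) ^ p = W ^ p` gives `coeffMap ι G = W` (Frobenius is injective).

This is the hypothesis `hdesc` of `Old/T4Abs45.hcore1_of_bricks` / `Old/T4Main45.t4_of_bricks`;
`hrange` is the literal statement `range_red1S` of `Old/RedMap8` (helper8).
-/
import Mathlib
import Fermat.Agent.M1.Link.ThetaKer41

set_option autoImplicit false

open HahnSeries ModularCurve

namespace Fermat.Agent.M1.Old.Descent45

open Fermat.Agent.M1.Link.PthPower41 Fermat.Agent.M1.Link.ThetaKer41

/-- **DESCENT.** -/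
theorem hdesc_of_range {p : ℕ} [Fact p.Prime] {k₀ k : Type} [Field k₀] [Field k] [CharP k₀ p]
    [CharP k p] [PerfectField k₀] (ι : k₀ →+* k) (M : ℕ) [NeZero M] {S : Type*}
    (red : S → LaurentSeries k)
    (hrange : ∀ y : LaurentSeries k, (∃ x : S, red x = y) ↔
      ∃ y₀ ∈ modularFunctionFieldFullC k₀ M, coeffMap ι y₀ = y)
    (W : LaurentSeries k) (hW : ∃ x : S, red x = W ^ p) : ∃ y : S, red y = W := by
  obtain ⟨y₀, hy₀, e⟩ := (hrange _).mp hW
  have hps : ∀ n : ℤ, ¬ (p : ℤ) ∣ n → y₀.coeff n = 0 := by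
    intro n hn
    have h1 : (coeffMap ι y₀).coeff n = 0 := by
      rw [e]
      exact isPSupp_pow (p := p) W n hn
    rw [coeffMap_coeff] at h1
    exact (map_eq_zero ι).mp h1
  obtain ⟨G, hG, hGp⟩ := exists_pow_eq_of_mem_fullC p M k₀ hy₀ hps
  have hpow : (coeffMap ι G) ^ p = W ^ p := by rw [← map_pow, hGp, e]
  haveI : CharP (LaurentSeries k) p := charP_laurentSeries (p := p) (k := k)
  have hinj := frobenius_inj (LaurentSeries k) p
  have hGW : coeffMap ι G = W := hinj (by simpa [frobenius_def] using hpow)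
  exact (hrange W).mpr ⟨G, hG, hGW⟩

end Fermat.Agent.M1.Old.Descent45
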