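/-
M1 (row 38, S44), chapter OLD (= T4, depth zero), brick **T4-G DESCENT** (helper67; released by
helper54 in #1969, proof cut of #1969).

The hypothesis `(D) hdesc` of `T4Abs45.hcore1_of_bricks`:

  `∀ W ∈ κ'', (∃ x : ↥O1, red x = W ^ p) → ∃ y : ↥O1, red y = W`

for `κ'' = modularFunctionFieldFullC k M` and a map `red` whose range is the image of
`modularFunctionFieldFullC k₀ M` under the coefficientwise base change `coeffMap ι`, `ι : k₀ →+* k`
(`k₀` perfect of characteristic `p`, `k` algebraic over `k₀`).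

* `mem_range_of_isSeparable_of_pow_mem` : **(G1)** an element separable over a subfield one of whose
  `p^n`-th powers lies in the subfield lies in the subfield (ring-hom form; Mathlib only);
* `cmp`, `mem_range_cmp_iff`, `gen_mem_range_cmp` : the comparison map `κ_{k₀}(M) → k((q))`;
* `isSeparable_const`, `isSeparable_of_mem_fullC` : **(G2)** every element of `κ_k(M)` is separable over
  the image of `κ_{k₀}(M)`;
* `hdesc_of_range` : **(G3)** the descent statement in the literal shape of `T4Abs45`.

The instantiation at the residue fields of `A ∩ K ⊆ A` is in `DescentInst67`.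
-/
import Mathlib
import Fermat.Prelude.Def_ModularCurve_X0ModL
import Fermat.Prelude.Thm_ModularCurve_coeffMap_qExpand

set_option autoImplicit false
set_option linter.style.haveILetI false
set_option linter.unusedSectionVars false

open HahnSeries ModularCurve Polynomial

noncomputable section

namespace Fermat.Agent.M1.Old.Descent67

section G1

variable {F L : Type*} [Field F] [Field L]

/-- **(G1)** an element separable over a subfield, one of whose `p^n`-th powers lies in the subfield,
lies in the subfield (ring-hom form). -/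
theorem mem_range_of_isSeparable_of_pow_mem (φ : F →+* L) (p : ℕ) [ExpChar F p] (w : L)
    (hsep : letI := φ.toAlgebra; IsSeparable F w) (n : ℕ) (hw : w ^ p ^ n ∈ φ.range) :
    w ∈ φ.range := by
  letI := φ.toAlgebra
  have h1 : w ∈ separableClosure F L := mem_separableClosure_iff.mpr hsep
  have h2 : w ∈ perfectClosure F L := (mem_perfectClosure_iff_pow_mem p).mpr ⟨n, hw⟩
  have h3 : w ∈ (⊥ : IntermediateField F L) := by
    rw [← separableClosure_inf_perfectClosure]
    exact ⟨h1, h2⟩
  exact IntermediateField.mem_bot.mp h3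

/-- **(G1)**, subfield form: `w` separable over the subfield `E` with `w ^ p ∈ E` lies in `E`. -/
theorem mem_subfield_of_isSeparable_of_pow_mem (E : Subfield L) (p : ℕ) [ExpChar L p] (w : L)
    (hsep : IsSeparable E w) (hw : w ^ p ∈ E) : w ∈ E := by
  haveI : ExpChar E p := RingHom.expChar E.subtype E.subtype_injective p
  have h := mem_range_of_isSeparable_of_pow_mem E.subtype p w hsep 1
    (by rw [pow_one]; exact ⟨⟨_, hw⟩, rfl⟩)
  obtain ⟨y, rfl⟩ := h
  exact y.2

end G1

section G2

variable {k₀ k : Type*} [Field k₀] [Field k] (ι : k₀ →+* k) (M : ℕ) [NeZero M]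

/-- the comparison map `κ_{k₀}(M) → k((q))`: coefficientwise base change along `ι`. -/
def cmp : ↥(modularFunctionFieldFullC k₀ M) →+* LaurentSeries k :=
  (coeffMap ι).comp (algebraMap ↥(modularFunctionFieldFullC k₀ M) (LaurentSeries k₀))

theorem cmp_apply (y : ↥(modularFunctionFieldFullC k₀ M)) :
    cmp ι M y = coeffMap ι (y : LaurentSeries k₀) := rfl

theorem mem_range_cmp_iff (y : LaurentSeries k) :
    y ∈ (cmp ι M).range ↔ ∃ y₀ ∈ modularFunctionFieldFullC k₀ M, coeffMap ι y₀ = y := by
  constructor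
  · rintro ⟨y₀, rfl⟩
    exact ⟨y₀, y₀.2, rfl⟩
  · rintro ⟨y₀, h, rfl⟩
    exact ⟨⟨y₀, h⟩, rfl⟩

/-- the generators of `κ_k(M)` come from `κ_{k₀}(M)`. -/
theorem gen_mem_range_cmp {x : LaurentSeries k} (hx : x ∈ divisorExpansionsC k M) :
    x ∈ (cmp ι M).range := by
  obtain ⟨d, hd, hdM, rfl⟩ := hx
  refine (mem_range_cmp_iff ι M _).mpr ⟨qExpand k₀ d (jqModC k₀), jqModCd_mem_full k₀ M hdM, ?_⟩
  rw [ModularCurve.coeffMap_qExpand, coeffMap_jqModC]

/-- a constant of `k` algebraic over the perfect field `k₀` is separable over `κ_{k₀}(M)`. -/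
theorem isSeparable_const [PerfectField k₀] (c : k)
    (hc : ∃ P : k₀[X], P ≠ 0 ∧ Polynomial.eval₂ ι c P = 0) :
    letI := (cmp ι M).toAlgebra
    IsSeparable ↥(modularFunctionFieldFullC k₀ M) (algebraMap k (LaurentSeries k) c) := by
  letI := (cmp ι M).toAlgebra
  letI : Algebra k₀ k := ι.toAlgebra
  obtain ⟨P, hP0, hP⟩ := hc
  have halg : IsAlgebraic k₀ c := ⟨P, hP0, hP⟩
  have hsep : (minpoly k₀ c).Separable :=
    PerfectField.separable_of_irreducible (minpoly.irreducible halg.isIntegral)
  -- the minimal polynomial of `c` over `k₀`, viewed over `κ_{k₀}(M)`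
  set m := minpoly k₀ c with hm
  have hm0 : Polynomial.eval₂ ι c m = 0 := minpoly.aeval k₀ c
  have hroot : Polynomial.aeval (algebraMap k (LaurentSeries k) c)
      (m.map (algebraMap k₀ ↥(modularFunctionFieldFullC k₀ M))) = 0 := by
    rw [Polynomial.aeval_def, Polynomial.eval₂_map]
    have h1 : (algebraMap ↥(modularFunctionFieldFullC k₀ M) (LaurentSeries k)).comp
        (algebraMap k₀ ↥(modularFunctionFieldFullC k₀ M)) =
        (algebraMap k (LaurentSeries k)).comp ι := by
      ext a : 1
      change coeffMap ι (algebraMap k₀ (LaurentSeries k₀) a) = algebraMap k (LaurentSeries k) (ι a)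
      rw [algebraMap_laurentSeries_eq_single, algebraMap_laurentSeries_eq_single, coeffMap_single]
    rw [h1, ← Polynomial.hom_eval₂, hm0, map_zero]
  have hsepm : (m.map (algebraMap k₀ ↥(modularFunctionFieldFullC k₀ M))).Separable :=
    Polynomial.Separable.map hsep
  exact hsepm.of_dvd (minpoly.dvd _ _ hroot)

/-- **(G2)** every element of `κ_k(M)` is separable over (the image of) `κ_{k₀}(M)`, for `k₀` perfect
and `k` algebraic over `k₀`. -/
theorem isSeparable_of_mem_fullC [PerfectField k₀]
    (halg : ∀ c : k, ∃ P : k₀[X], P ≠ 0 ∧ Polynomial.eval₂ ι c P = 0)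
    {W : LaurentSeries k} (hW : W ∈ modularFunctionFieldFullC k M) :
    letI := (cmp ι M).toAlgebra
    IsSeparable ↥(modularFunctionFieldFullC k₀ M) W := by
  letI := (cmp ι M).toAlgebra
  have hle : (modularFunctionFieldFullC k M).toSubfield ≤
      (separableClosure ↥(modularFunctionFieldFullC k₀ M) (LaurentSeries k)).toSubfield := by
    rw [modularFunctionFieldFullC, IntermediateField.adjoin_toSubfield, Subfield.closure_le]
    rintro x (⟨c, rfl⟩ | hx)
    · exact mem_separableClosure_iff.mpr (isSeparable_const ι M c (halg c))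
    · obtain ⟨y, rfl⟩ := gen_mem_range_cmp ι M hx
      exact (separableClosure ↥(modularFunctionFieldFullC k₀ M) (LaurentSeries k)).algebraMap_mem y
  exact mem_separableClosure_iff.mp (hle hW)

end G2

section G3

variable {k₀ k : Type*} [Field k₀] [Field k] (ι : k₀ →+* k) (M : ℕ) [NeZero M]

/-- **(G3), set form**: a `p`-th root in `κ_k(M)` of an element of the image of `κ_{k₀}(M)` lies in
the image of `κ_{k₀}(M)`. -/
theorem exists_coeffMap_eq_of_pow {p : ℕ} (hp : p.Prime) [CharP k₀ p] [PerfectField k₀]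
    (halg : ∀ c : k, ∃ P : k₀[X], P ≠ 0 ∧ Polynomial.eval₂ ι c P = 0)
    {W : LaurentSeries k} (hW : W ∈ modularFunctionFieldFullC k M)
    (hWp : ∃ y₀ ∈ modularFunctionFieldFullC k₀ M, coeffMap ι y₀ = W ^ p) :
    ∃ y₁ ∈ modularFunctionFieldFullC k₀ M, coeffMap ι y₁ = W := by
  haveI : Fact p.Prime := ⟨hp⟩
  haveI : ExpChar ↥(modularFunctionFieldFullC k₀ M) p :=
    expChar_of_injective_ringHom
      (algebraMap k₀ ↥(modularFunctionFieldFullC k₀ M)).injective p
  have h1 : W ^ p ^ 1 ∈ (cmp ι M).range := by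
    rw [pow_one]
    exact (mem_range_cmp_iff ι M _).mpr hWp
  exact (mem_range_cmp_iff ι M W).mp
    (mem_range_of_isSeparable_of_pow_mem (cmp ι M) p W (isSeparable_of_mem_fullC ι M halg hW) 1 h1)

/-- **(G3) DESCENT** in the literal shape `hdesc` of `T4Abs45.hcore1_of_bricks`: `red` is ANY map
whose range is the image of `κ_{k₀}(M)` under `coeffMap ι` (helper8's `range_red1S`). -/
theorem hdesc_of_range {X : Type*} {p : ℕ} (hp : p.Prime) [CharP k₀ p] [PerfectField k₀]
    (halg : ∀ c : k, ∃ P : k₀[X], P ≠ 0 ∧ Polynomial.eval₂ ι c P = 0)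
    (red : X → LaurentSeries k)
    (hrange : ∀ y, (∃ x, red x = y) ↔ ∃ y₀ ∈ modularFunctionFieldFullC k₀ M, coeffMap ι y₀ = y) :
    ∀ W ∈ modularFunctionFieldFullC k M, (∃ x : X, red x = W ^ p) → ∃ y : X, red y = W :=
  fun W hW hx =>
    (hrange W).mpr (exists_coeffMap_eq_of_pow ι M hp halg hW ((hrange _).mp hx))

end G3

end Fermat.Agent.M1.Old.Descent67
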