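/-
M1 (row 38, S44), chapter OLD (= T4), brick **T4-G DESCENT**, instantiation (helper67).

`Descent67.hdesc_of_range` at `k₀ := ResidueField (A ∩ K)` (finite, hence perfect), `k := ResidueField A`
(algebraic over `k₀`), `ι := NumberFieldDVR27.resMap A K`: the hypothesis `(D) hdesc` of
`T4Abs45.hcore1_of_bricks` from helper8's `range_red1S` (taken as the hypothesis `hrange`, literal
shape of #1682 (c)).

* `exists_poly_residue` : every element of the residue field of a valuation subring `A` of `ℚ̄` over a
  prime `ℓ` is algebraic over the residue field of `A ∩ K`;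
* `hdesc_resMap` : the descent statement.
-/
import Mathlib
import Fermat.Agent.RED.DESC.NumberFieldDVR27
import Fermat.Agent.M1.Old.Descent67

set_option autoImplicit false
set_option linter.style.haveILetI false
set_option linter.unusedSectionVars false

open HahnSeries ModularCurve Polynomial
open Fermat.Agent.RED.Interface4 Fermat.Agent.RED.DESC.NumberFieldDVR27

noncomputable section

namespace Fermat.Agent.M1.Old.DescentInst67

variable (A : ValuationSubring Qbar) (K : IntermediateField ℚ Qbar)

/-- every element of the residue field of `A` is a root of a nonzero polynomial over the residue field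
of `A ∩ K` (via `resMap`), for `A` over a prime `ℓ`. -/
theorem exists_poly_residue {ℓ : ℕ} (hℓ : ℓ.Prime) (hA : A.LiesOverPrime ℓ)
    (c : IsLocalRing.ResidueField A) :
    ∃ P : (IsLocalRing.ResidueField (AK A K))[X], P ≠ 0 ∧
      Polynomial.eval₂ (resMap A K) c P = 0 := by
  haveI := charP_residueField_AK A K hℓ hA
  obtain ⟨a, rfl⟩ := IsLocalRing.residue_surjective c
  -- an integer polynomial killing `a`
  have halgQ : IsAlgebraic ℚ (a : Qbar) := (isAlgebraic_Qbar).isAlgebraic _
  have halgZ : IsAlgebraic ℤ (a : Qbar) := (IsFractionRing.isAlgebraic_iff ℤ ℚ Qbar).mpr halgQ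
  obtain ⟨P, hP0, hPa⟩ := halgZ
  have hprim : P.primPart.IsPrimitive := P.isPrimitive_primPart
  have hPa' : Polynomial.aeval (a : Qbar) P.primPart = 0 :=
    Polynomial.aeval_primPart_eq_zero hP0 hPa
  refine ⟨P.primPart.map (Int.castRingHom (IsLocalRing.ResidueField (AK A K))), ?_, ?_⟩
  · -- primitive polynomials do not vanish mod `ℓ`
    intro h0
    have hdvd : Polynomial.C (ℓ : ℤ) ∣ P.primPart := by
      rw [Polynomial.C_dvd_iff_dvd_coeff]
      intro i
      have h1 : (Int.castRingHom (IsLocalRing.ResidueField (AK A K))) (P.primPart.coeff i) = 0 := by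
        rw [← Polynomial.coeff_map, h0, Polynomial.coeff_zero]
      exact (CharP.intCast_eq_zero_iff (IsLocalRing.ResidueField (AK A K)) ℓ _).mp h1
    have hu : IsUnit (ℓ : ℤ) := hprim _ hdvd
    have h2 : ((ℓ : ℤ)).natAbs = 1 := Int.isUnit_iff_natAbs_eq.mp hu
    rw [Int.natAbs_natCast] at h2
    exact hℓ.one_lt.ne' h2
  · -- it kills the residue class of `a`
    rw [Polynomial.eval₂_map]
    have h1 : (resMap A K).comp (Int.castRingHom (IsLocalRing.ResidueField (AK A K))) =
        (IsLocalRing.residue A).comp (Int.castRingHom A) := RingHom.ext_int _ _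
    rw [h1, ← Polynomial.hom_eval₂]
    have h2 : Polynomial.eval₂ (Int.castRingHom A) a P.primPart = 0 := by
      apply Subtype.ext
      have h3 := Polynomial.hom_eval₂ P.primPart (Int.castRingHom A) A.subtype a
      have h4 : (A.subtype : A →+* Qbar).comp (Int.castRingHom A) = algebraMap ℤ Qbar :=
        RingHom.ext_int _ _
      rw [h4] at h3
      exact h3.trans hPa'
    rw [h2, map_zero]

/-- **T4-G DESCENT at the residue fields**: the hypothesis `hdesc` of `T4Abs45.hcore1_of_bricks` for any
map `red` whose range is the image of `κ_{k_K}(M)` under `coeffMap (resMap A K)`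
(`range_red1S`), `k_K` the residue field of `A ∩ K`, `K` a number field. -/
theorem hdesc_resMap [FiniteDimensional ℚ K] {ℓ : ℕ} (hℓ : ℓ.Prime) (hA : A.LiesOverPrime ℓ)
    (M : ℕ) [NeZero M] {X : Type*} (red : X → LaurentSeries (IsLocalRing.ResidueField A))
    (hrange : ∀ y, (∃ x, red x = y) ↔
      ∃ y₀ ∈ modularFunctionFieldFullC (IsLocalRing.ResidueField (AK A K)) M,
        coeffMap (resMap A K) y₀ = y) :
    ∀ W ∈ modularFunctionFieldFullC (IsLocalRing.ResidueField A) M,
      (∃ x : X, red x = W ^ ℓ) → ∃ y : X, red y = W := by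
  haveI := charP_residueField_AK A K hℓ hA
  haveI : Finite (IsLocalRing.ResidueField (AK A K)) := finite_residueField_AK A K hℓ.ne_zero hA
  exact Descent67.hdesc_of_range (resMap A K) M hℓ (exists_poly_residue A K hℓ hA) red hrange

end Fermat.Agent.M1.Old.DescentInst67
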