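/-
M1 (S44), chapter OLD = T4, brick T4-A FRAME-ASSEMBLY (helper58).

**A `p`-torsion class of level `0` lies in `Cart 1` as soon as**
* (NODE-TERM) `e p ∣ v₂(f)` for the function `f` with `div f = p D`, `v₁(f) = 0`;
* (CORE, both components) every function `f'` with `div f' = p D'` (`D'` a level-`0` representative
  of the class) which is a unit of `O_1` and `O_2` is a `p`-th power times a constant modulo
  `π O_j`.

Chain: normalise `v₁(f) = 0` → NODE-TERM → b-shift (`RedTrivial58.exists_unit_rep`) → CORE on both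
components → (WD-2) `RedTrivial58.hred_of_pth_power` on both components →
(D0-core) `DepthZero58.mem_cart_one_of_red_trivial`.

* `mem_cart_one_of_pth_powers` : abstract frame version;
* `mem_cart_one_of_pth_powers_numData` : for a `NodalNumData` with `(AC_1)`, `(AC_2)`, thick nodes of
  thickness `e` and at least one node: all frame hypotheses are supplied.
-/
import Mathlib
import Fermat.Agent.M1.Car.DepthZeroInst58
import Fermat.Agent.M1.Car.RedTrivial58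
import Fermat.Agent.M1.Car.NodeFrame58
import Fermat.Agent.M1.Fib.BranchVal58
import Fermat.Agent.M1.Fib.SemiLocal98
import Fermat.Agent.M1.Fib.FrameInst98

set_option autoImplicit false
set_option linter.unusedSectionVars false

namespace Fermat.Agent.M1.Old.FrameAssembly58

open AlgebraicCurve Fermat.Agent.ES.N34.NodalCore13 Fermat.Agent.ES.N34.NumData13
  Fermat.Agent.M1.Car.Defs43 Fermat.Agent.M1.Node.Thick25 Fermat.Agent.M1.Mon.WildPL43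
  Fermat.Agent.M1.Car.Slope43 Fermat.Agent.M1.Car.DepthZero58 Fermat.Agent.M1.Car.DepthZeroInst58
  Fermat.Agent.M1.Car.RedTrivial58 Fermat.Agent.M1.Car.NodeFrame58
  Fermat.Agent.M1.Fib.BranchVal58 Fermat.Agent.M1.Fib.Constants98

variable {R K F : Type*} [CommRing R] [Field K] [Field F] [Algebra R K] [Algebra K F]
  [Algebra R F] [IsScalarTower R K F]
  {π : R} {t : F} {B0 B1 : Subalgebra R F} {O1 O2 : ValuationSubring F} {e : ℕ}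

/-- **T4-A (frame version).** -/
theorem mem_cart_one_of_pth_powers [HasPrincipalDivisors K F]
    (SF : SlopeFrame (K := K) π B0 B1 O1 O2 e) (M : Frame (K := K) π B0 B1 O1 O2)
    {hπ1 : algebraMap R F π ∈ O1} {hπ2 : algebraMap R F π ∈ O2}
    (hvert : ∀ P : Place K F, P.ord (algebraMap R F π) = 0) {p : ℕ} (hp : p.Prime)
    (hchar : π ∣ (p : R)) (hperf : ∀ r : R, ∃ s : R, π ∣ s ^ p - r)
    (semi : ∀ B : Subalgebra R F, B = B0 ∨ B = B1 → ∀ 𝔪 : Ideal B,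
      IsNode π B0 B1 O1 O2 B 𝔪 → ∀ z w1 w2 : F, InLocal B 𝔪 w1 → InLocal B 𝔪 w2 →
      (∃ c ∈ O1, z - w1 = algebraMap R F π * c) → (∃ c ∈ O2, z - w2 = algebraMap R F π * c) →
      (∃ a d : B, a ∈ 𝔪 ∧ d ∉ 𝔪 ∧ (w1 - w2) * (d : F) = (a : F)) →
      ∃ w, InLocal B 𝔪 w ∧ (∃ c ∈ O1, z - w = algebraMap R F π * c) ∧
        (∃ c ∈ O2, z - w = algebraMap R F π * c))
    (approx2 : ∀ φ1 φ2 : F, φ1 ∈ O1 → φ2 ∈ O2 →
      ∃ φ, (∃ c ∈ O1, φ - φ1 = algebraMap R F π * c) ∧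
        (∃ c ∈ O2, φ - φ2 = algebraMap R F π * c))
    (approx : ∀ m : ℤ, ∃ g : F, g ≠ 0 ∧ O1.valuation g = 1 ∧
      O2.valuation g = O2.valuation (algebraMap R F π) ^ m)
    (hnorm1 : ∀ B : Subalgebra R F, B = B0 ∨ B = B1 → ∀ 𝔪 : Ideal B, 𝔪.IsMaximal →
      algebraMap R B π ∈ 𝔪 → ¬ OffBranch π B O1 𝔪 → ∀ η : F, η ∈ O1 →
      (∃ b, InLocal B 𝔪 b ∧ ∃ c ∈ O1, η ^ p - b = algebraMap R F π * c) →
      ∃ b', InLocal B 𝔪 b' ∧ ∃ c ∈ O1, η - b' = algebraMap R F π * c)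
    (hnorm2 : ∀ B : Subalgebra R F, B = B0 ∨ B = B1 → ∀ 𝔪 : Ideal B, 𝔪.IsMaximal →
      algebraMap R B π ∈ 𝔪 → ¬ OffBranch π B O2 𝔪 → ∀ η : F, η ∈ O2 →
      (∃ b, InLocal B 𝔪 b ∧ ∃ c ∈ O2, η ^ p - b = algebraMap R F π * c) →
      ∃ b', InLocal B 𝔪 b' ∧ ∃ c ∈ O2, η - b' = algebraMap R F π * c)
    (D : Divisor.degZero (K := K) (F := F)) (hpD : p • Pic0.mk D = 0)
    (hlev0 : HasLevel π B0 B1 O1 O2 0 (D : Divisor K F))
    (hnode : ∀ f : F, f ≠ 0 → (∀ P : Place K F, (p • (D : Divisor K F)) P = P.ord f) →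
      O1.valuation f = 1 →
      ∃ b' : ℤ, O2.valuation f = O2.valuation (algebraMap R F π) ^ ((e : ℤ) * p * b'))
    (hcore1 : ∀ D' : Divisor.degZero (K := K) (F := F), Pic0.mk D' = Pic0.mk D →
      HasLevel π B0 B1 O1 O2 0 (D' : Divisor K F) → ∀ f : F, f ≠ 0 →
      (∀ P : Place K F, (p • (D' : Divisor K F)) P = P.ord f) →
      f ∈ O1 → f⁻¹ ∈ O1 → f ∈ O2 → f⁻¹ ∈ O2 →
      ∃ φ1 : F, φ1 ∈ O1 ∧ φ1⁻¹ ∈ O1 ∧
        ∃ r : R, ∃ c ∈ O1, f - algebraMap R F r * φ1 ^ p = algebraMap R F π * c)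
    (hcore2 : ∀ D' : Divisor.degZero (K := K) (F := F), Pic0.mk D' = Pic0.mk D →
      HasLevel π B0 B1 O1 O2 0 (D' : Divisor K F) → ∀ f : F, f ≠ 0 →
      (∀ P : Place K F, (p • (D' : Divisor K F)) P = P.ord f) →
      f ∈ O1 → f⁻¹ ∈ O1 → f ∈ O2 → f⁻¹ ∈ O2 →
      ∃ φ2 : F, φ2 ∈ O2 ∧ φ2⁻¹ ∈ O2 ∧
        ∃ r : R, ∃ c ∈ O2, f - algebraMap R F r * φ2 ^ p = algebraMap R F π * c) :
    Pic0.mk D ∈ Cart π B0 B1 O1 O2 hπ1 hπ2 1 := by
  have hp0 : algebraMap R F π ≠ 0 := M.unif1.ne_zero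
  -- the function `f` with `div f = p D`, normalised on the component `1`
  obtain ⟨f0, hf0, hdiv0⟩ := exists_principal_of_nsmul_eq_zero D hpD
  obtain ⟨m1, f, hf1, hf1', hff⟩ := M.vals1 f0 hf0
  have hf_0 : f ≠ 0 := by
    rintro rfl
    exact hf0 (by rw [hff, mul_zero])
  have hdiv : ∀ P : Place K F, (p • (D : Divisor K F)) P = P.ord f := by
    intro P
    rw [hdiv0 P, hff, P.ord_mul (zpow_ne_zero m1 hp0) hf_0, P.ord_zpow, hvert, mul_zero, zero_add]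
  have hv1 : O1.valuation f = 1 := val_eq_one_of_unit hf_0 hf1 hf1'
  -- NODE-TERM and the b-shift
  obtain ⟨b', hv2⟩ := hnode f hf_0 hdiv hv1
  obtain ⟨D', hD', hlev0', f', hf'0, hdiv', hv1', hv2'⟩ :=
    exists_unit_rep SF hπ1 hπ2 hvert approx D hlev0 hf_0 hdiv hv1 hv2
  obtain ⟨-, hf'1, hf'1'⟩ := unit_of_val_eq_one hv1'
  obtain ⟨-, hf'2, hf'2'⟩ := unit_of_val_eq_one hv2'
  -- CORE on both components
  obtain ⟨φ1, hφ1, hφ1', r1, c1, hc1, hpow1⟩ :=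
    hcore1 D' hD' hlev0' f' hf'0 hdiv' hf'1 hf'1' hf'2 hf'2'
  obtain ⟨φ2, hφ2, hφ2', r2, c2, hc2, hpow2⟩ :=
    hcore2 D' hD' hlev0' f' hf'0 hdiv' hf'1 hf'1' hf'2 hf'2'
  -- (WD-2) on both components
  have hred1 := hred_of_pth_power M hp.pos (D' : Divisor K F) hf'0 hdiv' ⟨hf'1, hf'1'⟩
    (fun _ => ⟨hf'2, hf'2'⟩) ⟨hφ1, hφ1'⟩ ⟨r1, c1, hc1, hpow1⟩ hnorm1
  have hred2 := hred_of_pth_power (frame_swap M) hp.pos (D' : Divisor K F) hf'0 hdiv'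
    ⟨hf'2, hf'2'⟩ (fun _ => ⟨hf'1, hf'1'⟩) ⟨hφ2, hφ2'⟩ ⟨r2, c2, hc2, hpow2⟩ hnorm2
  -- (D0-core)
  have hpD' : p • Pic0.mk D' = 0 := by rw [hD']; exact hpD
  have := mem_cart_one_of_red_trivial (hπ1 := hπ1) (hπ2 := hπ2) M hvert hp hchar hperf semi approx2
    D' hpD' hlev0' φ1 φ2 ⟨hφ1, hφ1'⟩ ⟨hφ2, hφ2'⟩ hred1
    (fun B hB 𝔪 h𝔪 hπ𝔪 hon h hh hs1 hs2 => hred2 B hB 𝔪 h𝔪 hπ𝔪 hon h hh hs2 hs1)
  rw [hD'] at this
  exact this

/-- **T4-A for a `NodalNumData`** with `(AC_1)`, `(AC_2)`, thick nodes of thickness `e` and at least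
one node: only NODE-TERM and CORE (both components) are left as hypotheses. -/
theorem mem_cart_one_of_pth_powers_numData [HasPrincipalDivisors K F]
    (N : NodalNumData R K F π t B0 B1 O1 O2)
    (hac1 : ResidueAlgClosed π O1) (hac2 : ResidueAlgClosed π O2)
    (hth : ThickNodes π B0 B1 O1 O2 e)
    (hnodeEx : ∃ (B : Subalgebra R F) (𝔪 : Ideal B), IsNode π B0 B1 O1 O2 B 𝔪)
    {hπ1 : algebraMap R F π ∈ O1} {hπ2 : algebraMap R F π ∈ O2}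
    {p : ℕ} (hp : p.Prime) (hchar : π ∣ (p : R)) (hperf : ∀ r : R, ∃ s : R, π ∣ s ^ p - r)
    (D : Divisor.degZero (K := K) (F := F)) (hpD : p • Pic0.mk D = 0)
    (hlev0 : HasLevel π B0 B1 O1 O2 0 (D : Divisor K F))
    (hnode : ∀ f : F, f ≠ 0 → (∀ P : Place K F, (p • (D : Divisor K F)) P = P.ord f) →
      O1.valuation f = 1 →
      ∃ b' : ℤ, O2.valuation f = O2.valuation (algebraMap R F π) ^ ((e : ℤ) * p * b'))
    (hcore1 : ∀ D' : Divisor.degZero (K := K) (F := F), Pic0.mk D' = Pic0.mk D →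
      HasLevel π B0 B1 O1 O2 0 (D' : Divisor K F) → ∀ f : F, f ≠ 0 →
      (∀ P : Place K F, (p • (D' : Divisor K F)) P = P.ord f) →
      f ∈ O1 → f⁻¹ ∈ O1 → f ∈ O2 → f⁻¹ ∈ O2 →
      ∃ φ1 : F, φ1 ∈ O1 ∧ φ1⁻¹ ∈ O1 ∧
        ∃ r : R, ∃ c ∈ O1, f - algebraMap R F r * φ1 ^ p = algebraMap R F π * c)
    (hcore2 : ∀ D' : Divisor.degZero (K := K) (F := F), Pic0.mk D' = Pic0.mk D →
      HasLevel π B0 B1 O1 O2 0 (D' : Divisor K F) → ∀ f : F, f ≠ 0 →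
      (∀ P : Place K F, (p • (D' : Divisor K F)) P = P.ord f) →
      f ∈ O1 → f⁻¹ ∈ O1 → f ∈ O2 → f⁻¹ ∈ O2 →
      ∃ φ2 : F, φ2 ∈ O2 ∧ φ2⁻¹ ∈ O2 ∧
        ∃ r : R, ∃ c ∈ O2, f - algebraMap R F r * φ2 ^ p = algebraMap R F π * c) :
    Pic0.mk D ∈ Cart π B0 B1 O1 O2 hπ1 hπ2 1 := by
  have M : Frame (K := K) π B0 B1 O1 O2 :=
    Fermat.Agent.M1.Fib.FrameInst98.frame_of_numData N hac1 hac2
  have SF : SlopeFrame (K := K) π B0 B1 O1 O2 e := slopeFrame_of_thickNodes N hth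
  obtain ⟨-, ⟨z, hzB, hz1, hz2⟩⟩ := exists_z_of_thickNodes N hth hnodeEx
  have hz2' : z⁻¹ ∈ O2 := by
    by_contra h
    exact hz2 (M.unif2.unif _ (N.model.le_O2_0 _ hzB) h)
  have hz0 : z ≠ 0 := by
    rintro rfl
    exact hz2 ⟨0, O2.zero_mem, by simp⟩
  obtain ⟨hnorm1, hnorm2⟩ := hnorm_of_thickNodes N M hth hnodeEx hp.pos
  exact mem_cart_one_of_pth_powers SF M (hvert_of_tower M.unif1.ne_zero) hp hchar hperf
    (Fermat.Agent.M1.Fib.SemiLocal98.semi_of_thickNodes N.model hth)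
    (fun ψ1 ψ2 _ _ => approx2_of_z M.unif1 M.unif2 M.pi_mem1 M.pi_mem2 M.vals1 M.vals2 hz1 hz2'
      hz0 ψ1 ψ2)
    (approx_of_thickNodes hth hnodeEx) hnorm1 hnorm2 D hpD hlev0 hnode hcore1 hcore2

/-- **T4-A for a `NodalNumData`, `hcore2` derived from `hcore1` by a swap principle** (the output
shape of `SideTwo60.hpow_other_side` / `NormSwap88`): CORE is needed on the component `1` only. -/
theorem mem_cart_one_of_pth_powers_swap [HasPrincipalDivisors K F]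
    (N : NodalNumData R K F π t B0 B1 O1 O2)
    (hac1 : ResidueAlgClosed π O1) (hac2 : ResidueAlgClosed π O2)
    (hth : ThickNodes π B0 B1 O1 O2 e)
    (hnodeEx : ∃ (B : Subalgebra R F) (𝔪 : Ideal B), IsNode π B0 B1 O1 O2 B 𝔪)
    {hπ1 : algebraMap R F π ∈ O1} {hπ2 : algebraMap R F π ∈ O2}
    {p : ℕ} (hp : p.Prime) (hchar : π ∣ (p : R)) (hperf : ∀ r : R, ∃ s : R, π ∣ s ^ p - r)
    (D : Divisor.degZero (K := K) (F := F)) (hpD : p • Pic0.mk D = 0)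
    (hlev0 : HasLevel π B0 B1 O1 O2 0 (D : Divisor K F))
    (hnode : ∀ f : F, f ≠ 0 → (∀ P : Place K F, (p • (D : Divisor K F)) P = P.ord f) →
      O1.valuation f = 1 →
      ∃ b' : ℤ, O2.valuation f = O2.valuation (algebraMap R F π) ^ ((e : ℤ) * p * b'))
    (hcore1 : ∀ D' : Divisor.degZero (K := K) (F := F), Pic0.mk D' = Pic0.mk D →
      HasLevel π B0 B1 O1 O2 0 (D' : Divisor K F) → ∀ f : F, f ≠ 0 →
      (∀ P : Place K F, (p • (D' : Divisor K F)) P = P.ord f) →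
      f ∈ O1 → f⁻¹ ∈ O1 → f ∈ O2 → f⁻¹ ∈ O2 →
      ∃ φ1 : F, φ1 ∈ O1 ∧ φ1⁻¹ ∈ O1 ∧
        ∃ r : R, ∃ c ∈ O1, f - algebraMap R F r * φ1 ^ p = algebraMap R F π * c)
    (hswap : ∀ D' : Divisor.degZero (K := K) (F := F), Pic0.mk D' = Pic0.mk D →
      HasLevel π B0 B1 O1 O2 0 (D' : Divisor K F) → ∀ f : F, f ≠ 0 →
      (∀ P : Place K F, (p • (D' : Divisor K F)) P = P.ord f) →
      f ∈ O1 → f⁻¹ ∈ O1 → f ∈ O2 → f⁻¹ ∈ O2 → ∀ φ1 : F, φ1 ∈ O1 → φ1⁻¹ ∈ O1 →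
      (∃ r : R, ∃ c ∈ O1, f - algebraMap R F r * φ1 ^ p = algebraMap R F π * c) →
      ∃ φ2 : F, φ2 ∈ O2 ∧ φ2⁻¹ ∈ O2 ∧
        ∃ r : R, ∃ c ∈ O2, f - algebraMap R F r * φ2 ^ p = algebraMap R F π * c) :
    Pic0.mk D ∈ Cart π B0 B1 O1 O2 hπ1 hπ2 1 := by
  refine mem_cart_one_of_pth_powers_numData N hac1 hac2 hth hnodeEx hp hchar hperf D hpD hlev0
    hnode hcore1 ?_
  intro D' hD' hlev0' f hf0 hdiv hf1 hf1' hf2 hf2'
  obtain ⟨φ1, hφ1, hφ1', hpow1⟩ := hcore1 D' hD' hlev0' f hf0 hdiv hf1 hf1' hf2 hf2'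
  exact hswap D' hD' hlev0' f hf0 hdiv hf1 hf1' hf2 hf2' φ1 hφ1 hφ1' hpow1

end Fermat.Agent.M1.Old.FrameAssembly58
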