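/-
M1 (S44), chapter OLD = T4 (helper60): **T4-A with CORE on the component `1` only.**

`Old/FrameAssembly58.mem_cart_one_of_pth_powers_swap` with its hypothesis `hswap` discharged by
`Car/SideTwoPush60.hswap_of_branch`: the `O2`-side of (T4) follows from the `O1`-side and the
push-forward data along the second degeneracy map `β` (`NRM/ToricLead88.Branch` with `O2` as the
étale branch, `NRM/PushReg88.PushData` for every level-`0` representative of the class) — the same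
data that (T5) consumes.

So the mathematical inputs of (T4) over `L` are: NODE-TERM (`hnode`), LINK-CORE on the `∞`-component
(`hcore1`), and `β_* v = 0` (`hpush`).
-/
import Mathlib
import Fermat.Agent.M1.Old.FrameAssembly58
import Fermat.Agent.M1.Car.SideTwoPush60

set_option autoImplicit false
set_option linter.unusedSectionVars false

namespace Fermat.Agent.M1.Old.FrameAssemblyPush60

open AlgebraicCurve Module Fermat.Agent.ES.N34.NodalCore13 Fermat.Agent.ES.N34.NumData13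
  Fermat.Agent.M1.Car.Defs43 Fermat.Agent.M1.Node.Thick25 Fermat.Agent.M1.Mon.WildPL43
  Fermat.Agent.M1.Car.Slope43 Fermat.Agent.M1.Car.DepthZero58 Fermat.Agent.M1.Car.DepthZeroInst58
  Fermat.Agent.M1.Car.RedTrivial58 Fermat.Agent.M1.Car.NodeFrame58
  Fermat.Agent.M1.Fib.BranchVal58 Fermat.Agent.M1.Fib.Constants98
  Fermat.Agent.M1.NRM.ToricLead88 Fermat.Agent.M1.NRM.PushReg88
  Fermat.Agent.M1.Old.FrameAssembly58 Fermat.Agent.M1.Car.SideTwoPush60

variable {R K F : Type*} [CommRing R] [Field K] [Field F] [Algebra R K] [Algebra K F]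
  [Algebra R F] [IsScalarTower R K F]
  {π : R} {t : F} {B0 B1 : Subalgebra R F} {O1 O2 : ValuationSubring F} {e : ℕ}

/-- **T4-A for a `NodalNumData`, with CORE on the component `1` only**: `hcore2` is derived from
`hcore1`, the branch data `hβ` of the second degeneracy map `E → F` (for which `O2` is the étale
branch; `[F : E] = p + 1`) and `β_* D' = - div f₂` for the level-`0` representatives `D'` of the
class (`hpush`). -/
theorem mem_cart_one_of_core_push [HasPrincipalDivisors K F]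
    (N : NodalNumData R K F π t B0 B1 O1 O2)
    (hac1 : ResidueAlgClosed π O1) (hac2 : ResidueAlgClosed π O2)
    (hth : ThickNodes π B0 B1 O1 O2 e)
    (hnodeEx : ∃ (B : Subalgebra R F) (𝔪 : Ideal B), IsNode π B0 B1 O1 O2 B 𝔪)
    {hπ1 : algebraMap R F π ∈ O1} {hπ2 : algebraMap R F π ∈ O2}
    {p : ℕ} [Fact p.Prime] (hchar : π ∣ (p : R)) (hperf : ∀ r : R, ∃ s : R, π ∣ s ^ p - r)
    (D : Divisor.degZero (K := K) (F := F)) (hpD : p • Pic0.mk D = 0)
    (hlev0 : HasLevel π B0 B1 O1 O2 0 (D : Divisor K F))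
    (hnode : ∀ f : F, f ≠ 0 → (∀ P : Place K F, (p • (D : Divisor K F)) P = P.ord f) →
      O1.valuation f = 1 →
      ∃ b' : ℤ, O2.valuation f = O2.valuation (algebraMap R F π) ^ ((e : ℤ) * p * b'))
    (hcore1 : ∀ D' : Divisor.degZero (K := K) (F := F), Pic0.mk D' = Pic0.mk D →
      HasLevel π B0 B1 O1 O2 0 (D' : Divisor K F) → ∀ f : F, f ≠ 0 →
      (∀ P : Place K F, (p • (D' : Divisor K F)) P = P.ord f) →
      f ∈ O1 → f⁻¹ ∈ O1 → f ∈ O2 → f⁻¹ ∈ O2 →
      ∃ φ1 : F, φ1 ∈ O1 ∧ φ1⁻¹ ∈ O1 ∧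
        ∃ r : R, ∃ c ∈ O1, f - algebraMap R F r * φ1 ^ p = algebraMap R F π * c)
    {E : Type*} [Field E] [Algebra K E] [Algebra E F] [IsScalarTower K E F]
    [FiniteDimensional E F] [Algebra.IsSeparable E F] [Algebra R E] [IsScalarTower R E F]
    {C0 C1 C01 : Subalgebra R E} {O' : ValuationSubring E} {B01 : Subalgebra R F}
    (hβ : Branch π p C0 C1 C01 O' O2 O1 B0 B1 B01) (hrank : finrank E F = p + 1)
    (hpush : ∀ D' : Divisor.degZero (K := K) (F := F), Pic0.mk D' = Pic0.mk D →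
      HasLevel π B0 B1 O1 O2 0 (D' : Divisor K F) →
      ∃ f₂ : E, PushData C0 C1 O' B0 B1 (D' : Divisor K F) f₂) :
    Pic0.mk D ∈ Cart π B0 B1 O1 O2 hπ1 hπ2 1 := by
  have hp : p.Prime := Fact.out
  have M : Frame (K := K) π B0 B1 O1 O2 :=
    Fermat.Agent.M1.Fib.FrameInst98.frame_of_numData N hac1 hac2
  obtain ⟨-, ⟨z, hzB, hz1, hz2⟩⟩ := exists_z_of_thickNodes N hth hnodeEx
  have hz2' : z⁻¹ ∈ O2 := by
    by_contra h
    exact hz2 (M.unif2.unif _ (N.model.le_O2_0 _ hzB) h)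
  have hz0 : z ≠ 0 := by
    rintro rfl
    exact hz2 ⟨0, O2.zero_mem, by simp⟩
  have approx2 : ∀ φ1 φ2 : F, φ1 ∈ O1 → φ2 ∈ O2 →
      ∃ φ, (∃ c ∈ O1, φ - φ1 = algebraMap R F π * c) ∧
        (∃ c ∈ O2, φ - φ2 = algebraMap R F π * c) :=
    fun ψ1 ψ2 _ _ => approx2_of_z M.unif1 M.unif2 M.pi_mem1 M.pi_mem2 M.vals1 M.vals2 hz1 hz2'
      hz0 ψ1 ψ2
  refine mem_cart_one_of_pth_powers_swap N hac1 hac2 hth hnodeEx hp hchar hperf D hpD hlev0
    hnode hcore1 ?_
  intro D' hD' hlev0' f hf0 hdiv hf1 hf1' hf2 _ φ1 hφ1 hφ1' hpow1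
  obtain ⟨f₂, hD2⟩ := hpush D' hD' hlev0'
  exact hswap_of_branch hβ hrank approx2 hD2 hf0 hdiv hf1 hf1' hf2 φ1 hφ1 hφ1' hpow1

end Fermat.Agent.M1.Old.FrameAssemblyPush60
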