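/-
M1 (row 38, S44), chapter OLD (= T4), brick T4-E HECKE (`hecke_main`, helper45):
**the Gauss reduction of `g'` (`div g' = p D'`, `[D']` a Hecke eigenclass at the bad level `M' p`)
lies in `κ(M')` and its `θ`-logarithmic derivative is a `Tform`-eigenvector with the same
eigenvalues.**

Composition of `NRM/GaussFrac18.exists_gaussFrac_mem` (Gauss normalisation along the `∞`-branch,
reductions in `κ(M')`) with `Link/HeckeDlog88.hecke_dlog_eigen` ((hii) for one prime).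
This is input (44) of `Old/PullbackRed93.hPH_of_redTo` (helper93), i.e. the HECKE half of the
hypothesis `hPH` of `Old/T4Main45.t4_of_bricks`.
-/
import Mathlib
import Fermat.Agent.M1.Link.HeckeDlog88
import Fermat.Agent.M1.Link.HeckeRed41
import Fermat.Agent.M1.NRM.GaussFrac18

set_option autoImplicit false
set_option synthInstance.maxHeartbeats 400000
set_option maxHeartbeats 1000000
set_option linter.unusedSectionVars false
set_option linter.style.haveILetI false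

noncomputable section

open HahnSeries ModularCurve AlgebraicCurve

namespace Fermat.Agent.M1.Old.HeckeMain45

open Fermat.Agent.X0 Fermat.Agent.RED.Interface4
open Fermat.Agent.M1.Link.ThetaLog88 Fermat.Agent.M1.Link.HeckeRed41
  Fermat.Agent.M1.Link.HeckeDlog88 Fermat.Agent.M1.NRM.GaussFrac18

/-- **HECKE (`hecke_main`).** -/
theorem hecke_main {p : ℕ} (hp : p.Prime) {M' : ℕ} [NeZero M'] [NeZero p] (hpM' : ¬ p ∣ M')
    (A : ValuationSubring Kbar) (hA : A.LiesOverPrime p)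
    {σ : Type*} (ℓ : σ → Nat.Primes) (hℓN : ∀ i, ¬ ((ℓ i : ℕ) ∣ M' * p)) (a : σ → ℤ)
    (D' : Divisor.degZero (K := Kbar) (F := FF (M' * p)))
    (heig : ∀ i, heckeOperatorBar (M' * p) (ℓ i) (Pic0.mk D') = a i • Pic0.mk D')
    {g' : FF (M' * p)} (hg' : g' ≠ 0)
    (hg'D : ∀ v : Place Kbar (FF (M' * p)),
      (p : ℤ) * (D' : Divisor Kbar (FF (M' * p))) v = v.ord g') :
    ∃ (lam : Kbar) (u' : LaurentSeries (IsLocalRing.ResidueField ↥A)), lam ≠ 0 ∧
      RedTo A (HahnSeries.C lam * (g' : LaurentSeries Kbar)) u' ∧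
      u' ∈ modularFunctionFieldFullC (IsLocalRing.ResidueField ↥A) M' ∧ u' ≠ 0 ∧
      ∀ i, haveI : NeZero ((ℓ i : ℕ)) := ⟨(ℓ i).2.ne_zero⟩
        Tform ((ℓ i : ℕ)) (dlog u') = a i • dlog u' := by
  have hg0 : (g' : LaurentSeries Kbar) ≠ 0 := fun h0 => hg' (Subtype.ext h0)
  obtain ⟨lam, y₁, y₂, hlam, h1, h2, hr1, hr2, heq, hm1, hm2⟩ :=
    exists_gaussFrac_mem (A := A) hp hpM' hA (g' : LaurentSeries Kbar) g'.2 hg0
  -- the normalised function `g = lam⁻¹ g'`
  set g : FF (M' * p) := algebraMap Kbar (FF (M' * p)) lam⁻¹ * g' with hgdef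
  have hlam' : lam⁻¹ ≠ 0 := inv_ne_zero hlam
  have hc0 : algebraMap Kbar (FF (M' * p)) lam⁻¹ ≠ 0 := by
    rw [Ne, map_eq_zero]; exact hlam'
  have hgne : g ≠ 0 := mul_ne_zero hc0 hg'
  have hgcoe : (g : LaurentSeries Kbar) = HahnSeries.C lam⁻¹ * (g' : LaurentSeries Kbar) := by
    show ((algebraMap Kbar (FF (M' * p)) lam⁻¹ : FF (M' * p)) : LaurentSeries Kbar) *
      (g' : LaurentSeries Kbar) = _
    rw [coe_algebraMap_FF]
  have hgD : ∀ v : Place Kbar (FF (M' * p)),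
      (p : ℤ) * (D' : Divisor Kbar (FF (M' * p))) v = v.ord g := by
    intro v
    rw [hg'D v, hgdef, v.ord_mul hc0 hg', Fermat.Agent.X0.FF.ord_algebraMap, zero_add]
  have hCC : (HahnSeries.C lam⁻¹ : LaurentSeries Kbar) * HahnSeries.C lam = 1 := by
    rw [← map_mul, inv_mul_cancel₀ hlam, map_one]
  have hab : (g : LaurentSeries Kbar) * coeffMap A.subtype y₂ = coeffMap A.subtype y₁ := by
    rw [hgcoe, mul_assoc, heq, ← mul_assoc, hCC, one_mul]
  refine ⟨lam⁻¹, coeffMap (IsLocalRing.residue ↥A) y₁ / coeffMap (IsLocalRing.residue ↥A) y₂,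
    hlam', ?_, ?_, div_ne_zero hr1 hr2, ?_⟩
  · refine ⟨y₁, y₂, hr1, hr2, ?_, div_mul_cancel₀ _ hr2⟩
    rw [← hgcoe]; exact hab
  · exact div_mem hm1 hm2
  · intro i
    have hlN : ¬ ((ℓ i : ℕ) ∣ M' * p) := hℓN i
    have hlp : ((ℓ i : ℕ)) ≠ p := by
      intro h
      exact hlN (h ▸ dvd_mul_left _ _)
    exact hecke_dlog_eigen (N := M' * p) (ℓ i) hlN hp hlp A hA (a i) D' (heig i) hgne hgD y₁ y₂ h1 h2
      hr1 hr2 hab

end Fermat.Agent.M1.Old.HeckeMain45
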