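/-
Program M1 (S44), chapter OLD (T4), brick T4-C RED-MAP (helper8; assignment #1613/#1622 of helper45).

`q` prime, `q ∤ M'`, `A ≤ ℚ̄` a valuation subring over `q`, `K ⊂ ℚ̄` a number field, `R = AK A K = A ∩ K`,
`F = FK (M' q) K` the bad-level function field, `O1 = ModelDefs9.O1 M' q hπ hE` the Gauss valuation ring
of the expansion at `∞` (branch `1` of the model of record), `k = ResidueField A` (algebraically closed),
`κ(M') = modularFunctionFieldFullC k M' ⊆ k((𝐪))` the good-level special-fibre field.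

* `red1S hπ hE : ↥O1 →+* k((𝐪))` — the Gauss reduction along the `∞`-branch followed by the base change
  of the coefficients `Res (AK A K) → k`; `red1 : ↥O1 →+* ↥κ(M')` its co-restriction
  (`red1S_mem`, from helper18's `GaussFrac18.resField_FK_mul_eq`);
* `red1S_mul_of_rep`, `red1S_eq_of_int`, `redTo_red1S`, `redTo_unique_red1S` : `red1S x` IS the Gauss
  reduction of the `ℚ̄`-series of `x` in the sense of `HeckeRed41.RedTo` (and the coefficientwise
  reduction when the `ℚ̄`-series of `x` is `A`-integral);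
* `red1S_algebraMap`, `red1S_pi`, `red1S_eq_zero_iff` (`ker red1 = π O1`), `red1S_ne_zero_of_unit`;
* `range_red1S` : the range of `red1S` is the image of `κ_{k_K}(M')` (`k_K = Res (AK A K)`) under the
  coefficient base change.
-/
import Mathlib
import Fermat.Agent.M1.NRM.GaussFrac18
import Fermat.Agent.M1.Link.HeckeRed41

set_option autoImplicit false
set_option synthInstance.maxHeartbeats 400000
set_option linter.unusedSectionVars false
set_option linter.style.haveILetI false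

noncomputable section

open HahnSeries ModularCurve IntermediateField

namespace Fermat.Agent.M1.Old.RedMap8

open Fermat.Agent.RED.Interface4 Fermat.Agent.RED.DESC Fermat.Agent.RED.DESC.NumberFieldDVR27
open Fermat.Agent.RED.PUR.GaussGen8 Fermat.Agent.RED.PUR.GaussBridge10
open Fermat.Agent.ES.N34.ModelDefs9 Fermat.Agent.ES.N34
open Fermat.Agent.M1.Link.HeckeRed41

variable {q M' : ℕ} [NeZero M'] [NeZero q] {A : ValuationSubring Qbar}
  {K : IntermediateField ℚ Qbar} {π : ↥(AK A K)}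

/-! ### Base change of coefficients `K → ℚ̄`, `AK A K → A`, `Res (AK A K) → ResidueField A` -/

/-- injectivity of the residue base change on Laurent series. -/
theorem coeffMap_resMap_injective :
    Function.Injective (coeffMap (resMap A K)) :=
  CoeffDescent1.coeffMap_injective_of_injective (resMap A K) (resMap_injective A K)

theorem coeffMap_resMap_eq_zero_iff (y : LaurentSeries (Res (AK A K))) :
    coeffMap (resMap A K) y = 0 ↔ y = 0 :=
  ⟨fun h => coeffMap_resMap_injective (A := A) (K := K) (h.trans (map_zero _).symm),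
    fun h => by rw [h, map_zero]⟩

/-! ### The reduction map -/

/-- **The Gauss reduction along the `∞`-branch**, with values in `k((𝐪))`, `k = ResidueField A`. -/
def red1S (hπ : IsUnif (AK A K) π) (hE : FK (M' * q) K ≤ fracField (AK A K)) :
    ↥(O1 M' q hπ hE) →+* LaurentSeries (IsLocalRing.ResidueField ↥A) :=
  (coeffMap (resMap A K)).comp (gaussVSRed hπ (FK (M' * q) K) hE)

theorem red1S_apply (hπ : IsUnif (AK A K) π) (hE : FK (M' * q) K ≤ fracField (AK A K))
    (x : ↥(O1 M' q hπ hE)) :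
    red1S hπ hE x = coeffMap (resMap A K)
      (gaussRed (AK A K) ⟨((x : FK (M' * q) K) : LaurentSeries K), x.2⟩) := rfl

/-- the value of `red1S` on a Gauss representation `x · s = a`. -/
theorem red1S_eq_div (hπ : IsUnif (AK A K) π) (hE : FK (M' * q) K ≤ fracField (AK A K))
    (x : ↥(O1 M' q hπ hE)) {a s : LaurentSeries ↥(AK A K)}
    (h : IsRep (AK A K) ((x : FK (M' * q) K) : LaurentSeries K) a s) :
    red1S hπ hE x =
      coeffMap (IsLocalRing.residue ↥A) (coeffMap (incl A K) a) /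
        coeffMap (IsLocalRing.residue ↥A) (coeffMap (incl A K) s) := by
  rw [red1S_apply,
    gaussRed_eq (AK A K) (f := ⟨((x : FK (M' * q) K) : LaurentSeries K), x.2⟩) h, map_div₀,
    ES.RED.GaussUnit25.coeffMap_residue_incl, ES.RED.GaussUnit25.coeffMap_residue_incl]

theorem red_incl_ne_zero {s : LaurentSeries ↥(AK A K)} (hs : redL (AK A K) s ≠ 0) :
    coeffMap (IsLocalRing.residue ↥A) (coeffMap (incl A K) s) ≠ 0 := by
  rw [ES.RED.GaussUnit25.coeffMap_residue_incl]
  exact fun h => hs ((coeffMap_resMap_eq_zero_iff _).mp h)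

/-- **(a1)** `red1S x · s̄ = ā` for every Gauss representation `x · s = a`. -/
theorem red1S_mul_of_rep (hπ : IsUnif (AK A K) π) (hE : FK (M' * q) K ≤ fracField (AK A K))
    (x : ↥(O1 M' q hπ hE)) {a s : LaurentSeries ↥(AK A K)}
    (h : IsRep (AK A K) ((x : FK (M' * q) K) : LaurentSeries K) a s) :
    red1S hπ hE x * coeffMap (IsLocalRing.residue ↥A) (coeffMap (incl A K) s) =
      coeffMap (IsLocalRing.residue ↥A) (coeffMap (incl A K) a) := by
  rw [red1S_eq_div hπ hE x h, div_mul_cancel₀ _ (red_incl_ne_zero h.1)]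

/-- the `ℚ̄`-series of a Gauss representation. -/
theorem bc_mul_of_rep {f : LaurentSeries K} {a s : LaurentSeries ↥(AK A K)}
    (h : IsRep (AK A K) f a s) :
    coeffMap (algebraMap K Qbar) f * coeffMap A.subtype (coeffMap (incl A K) s) =
      coeffMap A.subtype (coeffMap (incl A K) a) := by
  rw [ES.RED.GaussUnit25.coeffMap_subtype_incl, ES.RED.GaussUnit25.coeffMap_subtype_incl,
    ← map_mul, h.2]

/-- **(a3)** `red1S x` is the Gauss reduction (in the sense of `HeckeRed41.RedTo`) of the `ℚ̄`-series of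
`x`, for `x ∈ O1` of nonzero reduction (e.g. a unit of `O1`). -/
theorem redTo_red1S (hπ : IsUnif (AK A K) π) (hE : FK (M' * q) K ≤ fracField (AK A K))
    (x : ↥(O1 M' q hπ hE)) (hx : red1S hπ hE x ≠ 0) :
    RedTo A (coeffMap (algebraMap K Qbar) ((x : FK (M' * q) K) : LaurentSeries K))
      (red1S hπ hE x) := by
  obtain ⟨a, s, h⟩ := x.2
  have hs := red_incl_ne_zero (A := A) (K := K) h.1
  have hmul := red1S_mul_of_rep hπ hE x h
  refine ⟨coeffMap (incl A K) a, coeffMap (incl A K) s, ?_, hs, bc_mul_of_rep h, hmul⟩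
  intro h0
  rw [h0] at hmul
  rcases mul_eq_zero.mp hmul with h1 | h1
  · exact hx h1
  · exact hs h1

/-- **(a2)** if the `ℚ̄`-series of `x ∈ O1` is `A`-integral, `= inc Y`, then `red1S x` is the
coefficientwise reduction of `Y`. -/
theorem red1S_eq_of_int (hπ : IsUnif (AK A K) π) (hE : FK (M' * q) K ≤ fracField (AK A K))
    (x : ↥(O1 M' q hπ hE)) (Y : LaurentSeries ↥A)
    (hY : coeffMap A.subtype Y =
      coeffMap (algebraMap K Qbar) ((x : FK (M' * q) K) : LaurentSeries K)) :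
    red1S hπ hE x = coeffMap (IsLocalRing.residue ↥A) Y := by
  obtain ⟨a, s, h⟩ := x.2
  have hs := red_incl_ne_zero (A := A) (K := K) h.1
  have hmul := red1S_mul_of_rep hπ hE x h
  have hbc := bc_mul_of_rep (A := A) h
  rw [← hY, ← map_mul] at hbc
  have hYs : Y * coeffMap (incl A K) s = coeffMap (incl A K) a := inc_injective A hbc
  have h2 := congrArg (coeffMap (IsLocalRing.residue ↥A)) hYs
  rw [map_mul] at h2
  exact mul_right_cancel₀ hs (hmul.trans h2.symm)

/-- **(a4)** ANY Gauss fraction of the `ℚ̄`-series of `x ∈ O1` computes `red1S x`. -/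
theorem redTo_unique_red1S (hπ : IsUnif (AK A K) π) (hE : FK (M' * q) K ≤ fracField (AK A K))
    (x : ↥(O1 M' q hπ hE)) {y : LaurentSeries (IsLocalRing.ResidueField ↥A)}
    (hy : RedTo A (coeffMap (algebraMap K Qbar) ((x : FK (M' * q) K) : LaurentSeries K)) y) :
    y = red1S hπ hE x := by
  have hx : red1S hπ hE x ≠ 0 := by
    obtain ⟨y₁, y₂, h1, h2, h3, -⟩ := hy
    obtain ⟨a, s, h⟩ := x.2
    have hs := red_incl_ne_zero (A := A) (K := K) h.1
    have hmul := red1S_mul_of_rep hπ hE x h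
    have hbc := bc_mul_of_rep (A := A) h
    intro h0
    rw [h0, zero_mul] at hmul
    -- `y₁ · s = a · y₂` over `A`
    have h4 : coeffMap A.subtype (y₁ * coeffMap (incl A K) s) =
        coeffMap A.subtype (coeffMap (incl A K) a * y₂) := by
      rw [map_mul, map_mul, ← h3, ← hbc]
      ring
    have h5 := congrArg (coeffMap (IsLocalRing.residue ↥A)) (inc_injective A h4)
    rw [map_mul, map_mul, ← hmul, zero_mul] at h5
    rcases mul_eq_zero.mp h5 with h6 | h6
    · exact h1 h6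
    · exact hs h6
  exact RedTo.unique (redTo_red1S hπ hE x hx) hy

/-! ### Constants, the uniformiser, the kernel -/

/-- the `K`-series of a constant of `R`. -/
theorem coe_algebraMap_AK (r : ↥(AK A K)) :
    ((algebraMap ↥(AK A K) ↥(FK (M' * q) K) r : FK (M' * q) K) : LaurentSeries K) =
      HahnSeries.C ((r : ↥(AK A K)) : ↥K) :=
  Fermat.Agent.RED.NumInst4.coe_algebraMap_OE _ _ r

/-- **(b)** constants reduce to constants. -/
theorem red1S_algebraMap (hπ : IsUnif (AK A K) π) (hE : FK (M' * q) K ≤ fracField (AK A K))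
    (x : ↥(O1 M' q hπ hE)) (r : ↥(AK A K))
    (hx : (x : FK (M' * q) K) = algebraMap ↥(AK A K) ↥(FK (M' * q) K) r) :
    red1S hπ hE x =
      HahnSeries.C (resMap A K (IsLocalRing.residue ↥(AK A K) r)) := by
  have h1 : (⟨((x : FK (M' * q) K) : LaurentSeries K), x.2⟩ : ↥(gaussRing (AK A K))) =
      constG (AK A K) r := by
    apply Subtype.ext
    show ((x : FK (M' * q) K) : LaurentSeries K) = HahnSeries.C ((r : ↥(AK A K)) : ↥K)
    rw [hx, coe_algebraMap_AK]
  rw [red1S_apply, h1, gaussRed_constG, Fermat.Agent.RED.PUR.GaussGen8.coeffMap_C]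

/-- the constants of `R` lie in `O1`. -/
theorem algebraMap_mem_O1 (hπ : IsUnif (AK A K) π) (hE : FK (M' * q) K ≤ fracField (AK A K))
    (r : ↥(AK A K)) :
    algebraMap ↥(AK A K) ↥(FK (M' * q) K) r ∈ O1 M' q hπ hE := by
  rw [mem_O1_iff, coe_algebraMap_AK]
  exact C_mem (AK A K) r

/-- **(b)** `red1S π = 0`. -/
theorem red1S_pi (hπ : IsUnif (AK A K) π) (hE : FK (M' * q) K ≤ fracField (AK A K))
    (x : ↥(O1 M' q hπ hE))
    (hx : (x : FK (M' * q) K) = algebraMap ↥(AK A K) ↥(FK (M' * q) K) π) :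
    red1S hπ hE x = 0 := by
  rw [red1S_algebraMap hπ hE x π hx]
  have : IsLocalRing.residue ↥(AK A K) π = 0 := res0_unif hπ
  rw [this, map_zero, map_zero]

/-- **(b')** `ker red1 = π O1`. -/
theorem red1S_eq_zero_iff (hπ : IsUnif (AK A K) π) (hE : FK (M' * q) K ≤ fracField (AK A K))
    (x : ↥(O1 M' q hπ hE)) :
    red1S hπ hE x = 0 ↔ ∃ c ∈ O1 M' q hπ hE,
      (x : FK (M' * q) K) = algebraMap ↥(AK A K) ↥(FK (M' * q) K) π * c := by
  rw [red1S_apply, coeffMap_resMap_eq_zero_iff, gaussRed_eq_zero_iff hπ]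
  constructor
  · rintro ⟨g, hg⟩
    have hgx : ((x : FK (M' * q) K) : LaurentSeries K) =
        HahnSeries.C ((π : ↥(AK A K)) : ↥K) * (g : LaurentSeries K) :=
      congrArg (fun z : ↥(gaussRing (AK A K)) => (z : LaurentSeries K)) hg
    have hCmem : (HahnSeries.C ((π : ↥(AK A K)) : ↥K) : LaurentSeries K) ∈ FK (M' * q) K := by
      rw [← algebraMap_eq_C]
      exact (FK (M' * q) K).algebraMap_mem _
    have hgE : (g : LaurentSeries K) ∈ FK (M' * q) K := by
      have h1 : (g : LaurentSeries K) = (HahnSeries.C ((π : ↥(AK A K)) : ↥K))⁻¹ *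
          ((x : FK (M' * q) K) : LaurentSeries K) := by
        rw [hgx, ← mul_assoc, inv_mul_cancel₀ (piK_ne_zero hπ), one_mul]
      rw [h1]
      exact mul_mem (inv_mem hCmem) (x : FK (M' * q) K).2
    refine ⟨⟨(g : LaurentSeries K), hgE⟩, g.2, Subtype.ext ?_⟩
    rw [MulMemClass.coe_mul, coe_algebraMap_AK]
    exact hgx
  · rintro ⟨c, hc, hxc⟩
    refine ⟨⟨((c : FK (M' * q) K) : LaurentSeries K), hc⟩, Subtype.ext ?_⟩
    have h1 := congrArg (fun z : FK (M' * q) K => (z : LaurentSeries K)) hxc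
    simp only [MulMemClass.coe_mul, coe_algebraMap_AK] at h1
    exact h1

/-- **(b'')** units of `O1` have nonzero reduction. -/
theorem red1S_ne_zero_of_unit (hπ : IsUnif (AK A K) π) (hE : FK (M' * q) K ≤ fracField (AK A K))
    {f : FK (M' * q) K} (hf0 : f ≠ 0) (hf : f ∈ O1 M' q hπ hE) (hf' : f⁻¹ ∈ O1 M' q hπ hE) :
    red1S hπ hE ⟨f, hf⟩ ≠ 0 := by
  intro h0
  have h1 : red1S hπ hE (⟨f, hf⟩ * ⟨f⁻¹, hf'⟩) = 0 := by rw [map_mul, h0, zero_mul]
  have h2 : (⟨f, hf⟩ * ⟨f⁻¹, hf'⟩ : ↥(O1 M' q hπ hE)) = 1 :=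
    Subtype.ext (mul_inv_cancel₀ hf0)
  rw [h2, map_one] at h1
  exact one_ne_zero h1

/-- **(R) `hred_unit`** of `T4Abs45.hcore1_of_bricks`: elements of nonzero reduction are units of
`O1`. -/
theorem inv_mem_of_red1S_ne_zero (hπ : IsUnif (AK A K) π)
    (hE : FK (M' * q) K ≤ fracField (AK A K)) (x : ↥(O1 M' q hπ hE)) (hx : red1S hπ hE x ≠ 0) :
    ((x : FK (M' * q) K))⁻¹ ∈ O1 M' q hπ hE := by
  rw [mem_O1_iff]
  have h1 : gaussRed (AK A K) ⟨((x : FK (M' * q) K) : LaurentSeries K), x.2⟩ ≠ 0 := by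
    intro h0
    apply hx
    rw [red1S_apply, h0, map_zero]
  exact inv_mem_of_gaussRed_ne_zero (AK A K) ⟨((x : FK (M' * q) K) : LaurentSeries K), x.2⟩ h1

/-- **(R) `hred_ker`** of `T4Abs45.hcore1_of_bricks`. -/
theorem exists_eq_pi_mul_of_red1S_eq_zero (hπ : IsUnif (AK A K) π)
    (hE : FK (M' * q) K ≤ fracField (AK A K)) (x : ↥(O1 M' q hπ hE)) (hx : red1S hπ hE x = 0) :
    ∃ c ∈ O1 M' q hπ hE,
      (x : FK (M' * q) K) = algebraMap ↥(AK A K) ↥(FK (M' * q) K) π * c :=
  (red1S_eq_zero_iff hπ hE x).mp hx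

/-- `red1S` of an inverse. -/
theorem red1S_inv (hπ : IsUnif (AK A K) π) (hE : FK (M' * q) K ≤ fracField (AK A K))
    {f : FK (M' * q) K} (hf0 : f ≠ 0) (hf : f ∈ O1 M' q hπ hE) (hf' : f⁻¹ ∈ O1 M' q hπ hE) :
    red1S hπ hE ⟨f⁻¹, hf'⟩ = (red1S hπ hE ⟨f, hf⟩)⁻¹ := by
  apply eq_inv_of_mul_eq_one_left
  rw [← map_mul]
  have h2 : (⟨f⁻¹, hf'⟩ * ⟨f, hf⟩ : ↥(O1 M' q hπ hE)) = 1 :=
    Subtype.ext (inv_mul_cancel₀ hf0)
  rw [h2, map_one]

/-! ### The range: `κ(O1) = κ_{k_K}(M')` -/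

/-- **(c)** the range of `red1S` is the image of the good-level special-fibre field over the FINITE
residue field `k_K = Res (AK A K)`. -/
theorem range_red1S (hq : q.Prime) (hqM : ¬ q ∣ M') (hA : A.LiesOverPrime q)
    [FiniteDimensional ℚ K] (hπ : IsUnif (AK A K) π) (hE : FK (M' * q) K ≤ fracField (AK A K))
    (y : LaurentSeries (IsLocalRing.ResidueField ↥A)) :
    (∃ x : ↥(O1 M' q hπ hE), red1S hπ hE x = y) ↔
      ∃ y₀ ∈ modularFunctionFieldFullC (Res (AK A K)) M', coeffMap (resMap A K) y₀ = y := by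
  have hres := Fermat.Agent.M1.NRM.GaussFrac18.resField_FK_mul_eq (M' := M') hq hqM hA K
  constructor
  · rintro ⟨x, rfl⟩
    refine ⟨gaussRed (AK A K) ⟨((x : FK (M' * q) K) : LaurentSeries K), x.2⟩, ?_, rfl⟩
    rw [← hres]
    exact ⟨((x : FK (M' * q) K) : LaurentSeries K), x.2, (x : FK (M' * q) K).2, rfl⟩
  · rintro ⟨y₀, hy₀, rfl⟩
    rw [← hres] at hy₀
    obtain ⟨f, hf, hfE, hfy⟩ := hy₀
    exact ⟨⟨⟨f, hfE⟩, hf⟩, by rw [red1S_apply]; exact congrArg _ hfy⟩

/-- `red1S` takes its values in `κ(M') = modularFunctionFieldFullC k M'`. -/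
theorem red1S_mem (hq : q.Prime) (hqM : ¬ q ∣ M') (hA : A.LiesOverPrime q)
    [FiniteDimensional ℚ K] (hπ : IsUnif (AK A K) π) (hE : FK (M' * q) K ≤ fracField (AK A K))
    (x : ↥(O1 M' q hπ hE)) :
    red1S hπ hE x ∈ modularFunctionFieldFullC (IsLocalRing.ResidueField ↥A) M' := by
  obtain ⟨y₀, hy₀, h⟩ := (range_red1S hq hqM hA hπ hE _).mp ⟨x, rfl⟩
  rw [← h]
  exact ES.RED.GaussUnit25.coeffMap_mem_fullC (resMap A K) M' hy₀

/-- **RED-MAP**: `red1 : ↥O1 →+* ↥κ(M')`. -/
def red1 (hq : q.Prime) (hqM : ¬ q ∣ M') (hA : A.LiesOverPrime q)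
    [FiniteDimensional ℚ K] (hπ : IsUnif (AK A K) π) (hE : FK (M' * q) K ≤ fracField (AK A K)) :
    ↥(O1 M' q hπ hE) →+* ↥(modularFunctionFieldFullC (IsLocalRing.ResidueField ↥A) M') :=
  RingHom.codRestrict (red1S hπ hE) (modularFunctionFieldFullC (IsLocalRing.ResidueField ↥A) M')
    (red1S_mem hq hqM hA hπ hE)

@[simp] theorem coe_red1 (hq : q.Prime) (hqM : ¬ q ∣ M') (hA : A.LiesOverPrime q)
    [FiniteDimensional ℚ K] (hπ : IsUnif (AK A K) π) (hE : FK (M' * q) K ≤ fracField (AK A K))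
    (x : ↥(O1 M' q hπ hE)) :
    ((red1 hq hqM hA hπ hE x : ↥(modularFunctionFieldFullC (IsLocalRing.ResidueField ↥A) M')) :
      LaurentSeries (IsLocalRing.ResidueField ↥A)) = red1S hπ hE x := rfl

theorem red1_eq_zero_iff (hq : q.Prime) (hqM : ¬ q ∣ M') (hA : A.LiesOverPrime q)
    [FiniteDimensional ℚ K] (hπ : IsUnif (AK A K) π) (hE : FK (M' * q) K ≤ fracField (AK A K))
    (x : ↥(O1 M' q hπ hE)) :
    red1 hq hqM hA hπ hE x = 0 ↔ red1S hπ hE x = 0 := by
  rw [← coe_red1 hq hqM hA hπ hE x]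
  exact ⟨fun h => by rw [h]; rfl, fun h => Subtype.ext h⟩

/-- constants of `R` reduce into the constants `k ⊆ κ(M')`. -/
theorem red1_algebraMap (hq : q.Prime) (hqM : ¬ q ∣ M') (hA : A.LiesOverPrime q)
    [FiniteDimensional ℚ K] (hπ : IsUnif (AK A K) π) (hE : FK (M' * q) K ≤ fracField (AK A K))
    (x : ↥(O1 M' q hπ hE)) (r : ↥(AK A K))
    (hx : (x : FK (M' * q) K) = algebraMap ↥(AK A K) ↥(FK (M' * q) K) r) :
    red1 hq hqM hA hπ hE x =
      algebraMap (IsLocalRing.ResidueField ↥A)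
        ↥(modularFunctionFieldFullC (IsLocalRing.ResidueField ↥A) M')
        (resMap A K (IsLocalRing.residue ↥(AK A K) r)) := by
  apply Subtype.ext
  rw [coe_red1, red1S_algebraMap hπ hE x r hx]
  show _ = algebraMap (IsLocalRing.ResidueField ↥A) (LaurentSeries (IsLocalRing.ResidueField ↥A)) _
  rw [algebraMap_eq_C]

end Fermat.Agent.M1.Old.RedMap8
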