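/-
Program M1 (S44), chapter OLD (T4), brick T4-D HI (helper8; assignment #1613/#1622 of helper45).

**(hi) of LINK-CORE at the model level, from (WD).**  `D` a divisor of level `0` on the model of record
over the number field `K`, `p • D = div f`, `f` a unit of both branches `O1`, `O2`.  Then the Gauss
reduction `red1S f ∈ κ(M') = modularFunctionFieldFullC k M'` of `f` along the `∞`-branch has order
divisible by `p` at EVERY place `Q` of `κ(M')`:

  `∀ Q : Place k ↥κ(M'), (p : ℤ) ∣ Q.ord ⟨red1S ⟨f, hf1⟩, _⟩`.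

This is the literal hypothesis `hHI` of `T4Main45.t4_of_bricks` (and `hi` of `Core44.link_core` at the
model level).  Proof: helper18's `WDLoc18.wd_loc` with `κ := κ(M')`, `V := Q.toValuationSubring` gives
`red f = w ^ p * ε`, `ε ∈ O_Qˣ`; the constants `red R ⊆ k` lie in every `O_Q`.

* `hi_of_frame`, `hHI_of_frame` : ABSTRACT in `(R, K, F, π, B0, B1, O1, O2, red)` (any `WildPL43.Frame`,
  any ring homomorphism `red` on `O1` killing `π` and mapping `R` into the constants);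
* `hHI_red1S` : the instance `red := RedMap8.red1S hπ hE` for a `NodalNumData` whose first branch is
  literally `ModelDefs9.O1 M' q hπ hE`.
-/
import Mathlib
import Fermat.Agent.M1.Old.RedMap8
import Fermat.Agent.M1.Car.WDLoc18
import Fermat.Agent.M1.Fib.FrameInst98

set_option autoImplicit false
set_option linter.unusedSectionVars false
set_option linter.style.haveILetI false

noncomputable section

open HahnSeries AlgebraicCurve

namespace Fermat.Agent.M1.Old.HiLevelZero8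

open Fermat.Agent.ES.N34.NodalCore13 Fermat.Agent.ES.N34.NumData13
open Fermat.Agent.M1.Car.Defs43 Fermat.Agent.M1.Mon.WildPL43 Fermat.Agent.M1.Fib.Constants98

/-! ### Orders of `p`-th powers times units -/

section Ord

variable {k κ : Type*} [Field k] [Field κ] [Algebra k κ]

/-- a unit of the valuation ring of a place has order `0`. -/
theorem ord_eq_zero_of_unit (Q : Place k κ) {ε : κ} (h1 : ε ∈ Q.toValuationSubring)
    (h2 : ε⁻¹ ∈ Q.toValuationSubring) : Q.ord ε = 0 := by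
  rcases eq_or_ne ε 0 with rfl | h0
  · exact Q.ord_zero
  · let u : (Q.toValuationSubring)ˣ :=
      ⟨⟨ε, h1⟩, ⟨ε⁻¹, h2⟩, Subtype.ext (mul_inv_cancel₀ h0), Subtype.ext (inv_mul_cancel₀ h0)⟩
    exact Q.ord_coe_unit u

/-- `u = w ^ p * ε` with `ε` a unit at `Q` ⟹ `p ∣ ord_Q u`. -/
theorem dvd_ord_of_eq_pow_mul_unit (Q : Place k κ) {p : ℕ} {u w ε : κ} (h : u = w ^ p * ε)
    (h1 : ε ∈ Q.toValuationSubring) (h2 : ε⁻¹ ∈ Q.toValuationSubring) : (p : ℤ) ∣ Q.ord u := by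
  rcases eq_or_ne u 0 with rfl | hu
  · rw [Q.ord_zero]; exact dvd_zero _
  · have hw : w ^ p ≠ 0 := fun h0 => hu (by rw [h, h0, zero_mul])
    have hε : ε ≠ 0 := fun h0 => hu (by rw [h, h0, mul_zero])
    rw [h, Q.ord_mul hw hε, ord_eq_zero_of_unit Q h1 h2, add_zero, ← zpow_natCast, Q.ord_zpow]
    exact dvd_mul_right _ _

end Ord

/-! ### (hi), abstract form -/

section Abstract

variable {R K F : Type*} [CommRing R] [Field K] [Field F] [Algebra K F] [Algebra R F]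
  {k : Type*} [Field k]
  {π : R} {B0 B1 : Subalgebra R F} {O1 O2 : ValuationSubring F}

/-- **(HI), abstract**: `red : ↥O1 →+* κ` kills `π` and maps `R` into the constants `k ⊆ κ`. -/
theorem hi_of_frame {κ : Type*} [Field κ] [Algebra k κ]
    (M : Frame (K := K) π B0 B1 O1 O2) {t : F} (ht : t ≠ 0) (ht0 : t ∈ B0) (ht1 : t⁻¹ ∈ B1)
    (hint0 : ∀ x ∈ B0, IsIntegral (Algebra.adjoin R {t}) x)
    (hint1 : ∀ x ∈ B1, IsIntegral (Algebra.adjoin R {t⁻¹}) x)
    (red : ↥O1 →+* κ)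
    (hπred : ∀ x : ↥O1, (x : F) = algebraMap R F π → red x = 0)
    (hconst : ∀ (x : ↥O1) (r : R), (x : F) = algebraMap R F r → ∃ c : k, red x = algebraMap k κ c)
    {p : ℕ} (D : Divisor K F) {g : F} (hg : g ≠ 0)
    (hgD : ∀ P : Place K F, (p : ℤ) * D P = P.ord g)
    (hlev0 : HasLevel π B0 B1 O1 O2 0 D)
    (hg1 : g ∈ O1) (hg1' : g⁻¹ ∈ O1) (hg2 : g ∈ O2 ∧ g⁻¹ ∈ O2) (Q : Place k κ) :
    (p : ℤ) ∣ Q.ord (red ⟨g, hg1⟩) := by
  have hRV : ∀ r : R,
      red ⟨algebraMap R F r, M.le1 B0 (Or.inl rfl) _ (algebraMap R B0 r).2⟩ ∈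
        Q.toValuationSubring := by
    intro r
    obtain ⟨c, hc⟩ := hconst ⟨algebraMap R F r, M.le1 B0 (Or.inl rfl) _ (algebraMap R B0 r).2⟩ r rfl
    rw [hc]
    exact Q.algebraMap_mem' c
  obtain ⟨w, ε, h, h1, h2⟩ :=
    Fermat.Agent.M1.Car.WDLoc18.wd_loc M ht ht0 ht1 hint0 hint1 red (hπred _ rfl) D hg hgD hlev0
      hg1 hg1' hg2 Q.toValuationSubring hRV
  exact dvd_ord_of_eq_pow_mul_unit Q h h1 h2

/-- **(HI), abstract, in the literal shape `hHI` of `T4Main45.t4_of_bricks`**: series-valued `red`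
with values in `κ''`. -/
theorem hHI_of_frame (M : Frame (K := K) π B0 B1 O1 O2) {t : F} (ht : t ≠ 0) (ht0 : t ∈ B0)
    (ht1 : t⁻¹ ∈ B1)
    (hint0 : ∀ x ∈ B0, IsIntegral (Algebra.adjoin R {t}) x)
    (hint1 : ∀ x ∈ B1, IsIntegral (Algebra.adjoin R {t⁻¹}) x)
    (κ'' : IntermediateField k (LaurentSeries k))
    (red : ↥O1 →+* LaurentSeries k) (hred_mem : ∀ x : ↥O1, red x ∈ κ'')
    (hπred : ∀ x : ↥O1, (x : F) = algebraMap R F π → red x = 0)
    (hconst : ∀ (x : ↥O1) (r : R), (x : F) = algebraMap R F r → ∃ c : k, red x = HahnSeries.C c)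
    {p : ℕ} (D : Divisor K F) (hlev0 : HasLevel π B0 B1 O1 O2 0 D) (f : F) (hf : f ≠ 0)
    (hfD : ∀ P : Place K F, (p • D) P = P.ord f)
    (hf1 : f ∈ O1) (hf1' : f⁻¹ ∈ O1) (hf2 : f ∈ O2) (hf2' : f⁻¹ ∈ O2) (Q : Place k ↥κ'') :
    (p : ℤ) ∣ Q.ord (⟨red ⟨f, hf1⟩, hred_mem _⟩ : ↥κ'') := by
  have hfD' : ∀ P : Place K F, (p : ℤ) * D P = P.ord f := by
    intro P
    rw [← hfD P, Finsupp.smul_apply, nsmul_eq_mul]
  let red' : ↥O1 →+* ↥κ'' := RingHom.codRestrict red κ'' hred_mem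
  have hπred' : ∀ x : ↥O1, (x : F) = algebraMap R F π → red' x = 0 := fun x hx =>
    Subtype.ext (hπred x hx)
  have hconst' : ∀ (x : ↥O1) (r : R), (x : F) = algebraMap R F r →
      ∃ c : k, red' x = algebraMap k ↥κ'' c := by
    intro x r hx
    obtain ⟨c, hc⟩ := hconst x r hx
    refine ⟨c, Subtype.ext ?_⟩
    show red x = algebraMap k (LaurentSeries k) c
    rw [hc, HahnSeries.C_apply, ← HahnSeries.C_apply]
    exact (Fermat.Agent.RED.PUR.GaussGen8.algebraMap_eq_C c).symm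
  exact hi_of_frame M ht ht0 ht1 hint0 hint1 red' hπred' hconst' D hf hfD' hlev0 hf1 hf1'
    ⟨hf2, hf2'⟩ Q

/-- the same from a `NodalNumData` (the frame is `FrameInst98.frame_of_numData`). -/
theorem hHI_of_numData [Algebra R K] [IsScalarTower R K F] {t : F}
    (N : NodalNumData R K F π t B0 B1 O1 O2)
    (hac1 : ResidueAlgClosed π O1) (hac2 : ResidueAlgClosed π O2)
    (κ'' : IntermediateField k (LaurentSeries k))
    (red : ↥O1 →+* LaurentSeries k) (hred_mem : ∀ x : ↥O1, red x ∈ κ'')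
    (hπred : ∀ x : ↥O1, (x : F) = algebraMap R F π → red x = 0)
    (hconst : ∀ (x : ↥O1) (r : R), (x : F) = algebraMap R F r → ∃ c : k, red x = HahnSeries.C c)
    {p : ℕ} :
    ∀ D : Divisor.degZero (K := K) (F := F),
      HasLevel π B0 B1 O1 O2 0 (D : Divisor K F) → ∀ f : F, f ≠ 0 →
      (∀ P : Place K F, (p • (D : Divisor K F)) P = P.ord f) →
      ∀ hf1 : f ∈ O1, f⁻¹ ∈ O1 → f ∈ O2 → f⁻¹ ∈ O2 →
      ∀ Q : Place k ↥κ'', (p : ℤ) ∣ Q.ord (⟨red ⟨f, hf1⟩, hred_mem _⟩ : ↥κ'') := by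
  intro D hlev0 f hf hfD hf1 hf1' hf2 hf2' Q
  have M : Frame (K := K) π B0 B1 O1 O2 :=
    Fermat.Agent.M1.Fib.FrameInst98.frame_of_numData N hac1 hac2
  exact hHI_of_frame M N.model.t_ne N.model.t_mem N.model.tinv_mem N.model.int0 N.model.int1 κ''
    red hred_mem hπred hconst (D : Divisor K F) hlev0 f hf hfD hf1 hf1' hf2 hf2' Q

end Abstract

/-! ### The instance `red := red1S` on the model of record -/

section Concrete

open ModularCurve IntermediateField
open Fermat.Agent.RED.Interface4 Fermat.Agent.RED.DESC Fermat.Agent.RED.DESC.NumberFieldDVR27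
open Fermat.Agent.RED.PUR.GaussGen8
open Fermat.Agent.ES.N34.ModelDefs9 Fermat.Agent.ES.N34
open Fermat.Agent.M1.Old.RedMap8

set_option synthInstance.maxHeartbeats 400000
set_option maxHeartbeats 1000000

variable {q M' : ℕ} [NeZero M'] [NeZero q] {A : ValuationSubring Qbar}
  {K : IntermediateField ℚ Qbar} {π : ↥(AK A K)}

/-- **T4-D (HI) on the model of record**: the literal `hHI` of `T4Main45.t4_of_bricks` with
`red := red1S hπ hE`, `hred_mem := red1S_mem hq hqM hA hπ hE`,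
`κ'' := modularFunctionFieldFullC (ResidueField A) M'`. -/
theorem hHI_red1S (hq : q.Prime) (hqM : ¬ q ∣ M') (hA : A.LiesOverPrime q)
    [FiniteDimensional ℚ K] (hπ : IsUnif (AK A K) π) (hE : FK (M' * q) K ≤ fracField (AK A K))
    {t : ↥(FK (M' * q) K)} {B0 B1 : Subalgebra ↥(AK A K) ↥(FK (M' * q) K)}
    {O2 : ValuationSubring ↥(FK (M' * q) K)}
    (N : NodalNumData ↥(AK A K) ↥K ↥(FK (M' * q) K) π t B0 B1 (O1 M' q hπ hE) O2)
    (hac1 : ResidueAlgClosed π (O1 M' q hπ hE)) (hac2 : ResidueAlgClosed π O2) {p : ℕ} :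
    ∀ D : Divisor.degZero (K := ↥K) (F := ↥(FK (M' * q) K)),
      HasLevel π B0 B1 (O1 M' q hπ hE) O2 0 (D : Divisor ↥K ↥(FK (M' * q) K)) →
      ∀ f : ↥(FK (M' * q) K), f ≠ 0 →
      (∀ P : Place ↥K ↥(FK (M' * q) K),
        (p • (D : Divisor ↥K ↥(FK (M' * q) K))) P = P.ord f) →
      ∀ hf1 : f ∈ O1 M' q hπ hE, f⁻¹ ∈ O1 M' q hπ hE → f ∈ O2 → f⁻¹ ∈ O2 →
      ∀ Q : Place (IsLocalRing.ResidueField ↥A)
        ↥(modularFunctionFieldFullC (IsLocalRing.ResidueField ↥A) M'),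
        (p : ℤ) ∣ Q.ord (⟨red1S hπ hE ⟨f, hf1⟩, red1S_mem hq hqM hA hπ hE _⟩ :
          ↥(modularFunctionFieldFullC (IsLocalRing.ResidueField ↥A) M')) :=
  hHI_of_numData N hac1 hac2 (modularFunctionFieldFullC (IsLocalRing.ResidueField ↥A) M')
    (red1S hπ hE) (red1S_mem hq hqM hA hπ hE) (fun x hx => red1S_pi hπ hE x hx)
    (fun x r hx => ⟨_, red1S_algebraMap hπ hE x r hx⟩)

end Concrete

end Fermat.Agent.M1.Old.HiLevelZero8
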