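/-
M1 (row 38, S44), chapter OLD (helper45): **OLD-MAIN** in abstract form (plan v2 = report #593 §1).

"The abelian part at depth `0` of a vector that is `p`-new for Hecke reasons vanishes."

Abstract data (Mathlib only; the dictionary is in the docstrings):

* `Dz` : the group of ORD divisors of bidegree `(0,0)` on `X₀(M''p)` over `(ℚ̄, A)`
  (`Car.Defs45.IsOrdZero`), `J = JZero (M''p)`, `cls : Dz →+ J` the class map;
* `sp : Dz →+ Dz` : the `∞`-side part (`Car.Defs45.sidePart S S.O1`);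
* `thD : Dz →+ Dz`, `thJ : J →+ J` : a Hecke expression `Θ` on divisors resp. on classes; side
  preservation (SP b) says `sp ∘ thD = thD ∘ sp`;
* `rr : J →+ Pc` : `red_{M''} ∘ α''_*` (push to the good level `M''`, then `reductionModL`);
* `J' = JZero (M'p)`, `pull : J' →+ J` the `α`-pull along `F(M'p) ⊆ F(M''p)`;
* (WD) : a PRINCIPAL ORD divisor of bidegree `(0,0)` has `rr (cls (sp E)) = 0`;
* `hchain` : `rr (Θ (pull x')) = rr (pull x')`, which follows from the class-level commutations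
  `α''_* ∘ Θ = Θ ∘ α''_*`, `α''_* ∘ pull = pull'' ∘ α'_*`, `Θ ∘ pull'' = pull'' ∘ Θ` and
  `Θ = id` on `JZero M'` (this is where the hypothesis (h7) "not `p`-old" enters): `chain_of_comm`.

Conclusion `old_main`: if `v = cls E₀` is `p`-torsion, killed by `Θ`, and `d • v` (`d` prime to `p`)
has an ORD representative whose `∞`-part is pulled back from level `M'p` (this is (SP a) applied
to `π^* π_*` of an ORD representative of `v`), then `rr (cls (sp E₀)) = 0`, i.e. `ρ_∞(v) = 0`.
-/
import Mathlib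

set_option autoImplicit false

namespace Fermat.Agent.M1.Old.Main45

variable {Dz J J' Pc : Type*} [AddCommGroup Dz] [AddCommGroup J] [AddCommGroup J']
  [AddCommGroup Pc]

/-- The chain of class-level commutations giving `hchain`. -/
theorem chain_of_comm {G' G'' : Type*} [AddCommGroup G'] [AddCommGroup G'']
    (pull : J' →+ J) (pull2 : G' →+ G'') (a1 : J' →+ G') (a2 : J →+ G'') (red : G'' →+ Pc)
    (thJ : J →+ J) (thG1 : G' →+ G') (thG2 : G'' →+ G'')
    (h_a_pull : ∀ x, a2 (pull x) = pull2 (a1 x))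
    (h_a_th : ∀ y, a2 (thJ y) = thG2 (a2 y))
    (h_th_pull2 : ∀ z, thG2 (pull2 z) = pull2 (thG1 z))
    (h_id : ∀ z, thG1 z = z) (x : J') :
    red (a2 (thJ (pull x))) = red (a2 (pull x)) := by
  rw [h_a_th, h_a_pull, h_th_pull2, h_id]

variable (cls : Dz →+ J) (sp thD : Dz →+ Dz) (thJ : J →+ J) (rr : J →+ Pc) (pull : J' →+ J)

/-- **OLD-MAIN**, abstract form. -/
theorem old_main
    (h_sp_th : ∀ E, sp (thD E) = thD (sp E))
    (h_cls_th : ∀ E, cls (thD E) = thJ (cls E))
    (hWD : ∀ E, cls E = 0 → rr (cls (sp E)) = 0)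
    (hchain : ∀ x : J', rr (thJ (pull x)) = rr (pull x))
    {p d : ℕ} (hpd : Nat.Coprime d p)
    (E₀ : Dz) (hp : p • cls E₀ = 0) (hth : thJ (cls E₀) = 0)
    (hrep : ∃ D : Dz, cls D = d • cls E₀ ∧ ∃ x' : J', cls (sp D) = pull x') :
    rr (cls (sp E₀)) = 0 := by
  obtain ⟨D, hD, x', hx'⟩ := hrep
  -- `ρ := rr (cls (sp E₀))` is `p`-torsion
  have hρp : p • rr (cls (sp E₀)) = 0 := by
    have h := hWD (p • E₀) (by rw [map_nsmul, hp])
    rwa [map_nsmul, map_nsmul, map_nsmul] at h
  -- `rr (cls (sp D)) = d • ρ`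
  have hρd : rr (cls (sp D)) = d • rr (cls (sp E₀)) := by
    have h := hWD (D - d • E₀) (by rw [map_sub, map_nsmul, hD, sub_self])
    rw [map_sub, map_sub, map_sub, map_nsmul, map_nsmul, map_nsmul, sub_eq_zero] at h
    exact h
  -- `Θ D` is principal, so its `∞`-part reduces to `0`
  have h1 : rr (cls (sp (thD D))) = 0 := by
    apply hWD
    rw [h_cls_th, hD, map_nsmul, hth, smul_zero]
  -- but its `∞`-part is `Θ` of a pulled-back class
  have h2 : rr (cls (sp (thD D))) = rr (cls (sp D)) := by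
    rw [h_sp_th, h_cls_th, hx', hchain]
  have hρd0 : d • rr (cls (sp E₀)) = 0 := by rw [← hρd, ← h2, h1]
  -- Bezout
  have hgcd : (Nat.gcd d p) • rr (cls (sp E₀)) = 0 := by
    have hb := Nat.gcd_eq_gcd_ab d p
    have hz : ((Nat.gcd d p : ℕ) : ℤ) • rr (cls (sp E₀)) = 0 := by
      rw [hb, add_smul, mul_smul, mul_smul, natCast_zsmul, natCast_zsmul,
        smul_comm d (d.gcdA p), smul_comm p (d.gcdB p), hρd0, hρp, smul_zero, smul_zero, add_zero]
    rwa [natCast_zsmul] at hz
  rw [hpd, one_smul] at hgcd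
  exact hgcd

end Fermat.Agent.M1.Old.Main45
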