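/-
M1 (row 38, S44), chapter OLD, brick T4-K(a) PULLBACK, class/divisor level over `ℚbar` (helper99).

`N' ∣ N`, `π^* = LevelPullback12.levelPullback : JZero N' →+ JZero N` (pull-back along the inclusion
`Fbar N' ⊆ Fbar N`).  If `[D] = π^*[D']`, `p • D' = div g'` and `p • D = div f`, then

  `f = c · g' · H ^ p`   for some constant `c ≠ 0` and some `H ∈ Fbar N`, `H ≠ 0`

(`exists_factor_of_pullback`; `exists_factor_of_pullback_series` is the same statement on
`q`-expansions, in the literal shape consumed by `M1/Old/PullbackRed93.redTo_factor`).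
-/
import Mathlib
import Fermat.Agent.ES.HECKE.LevelPullback12
import Fermat.Agent.RR.LHypGen
import Fermat.Agent.X0.HasCanDivInst

set_option autoImplicit false
set_option synthInstance.maxHeartbeats 400000
set_option linter.unusedSectionVars false

open AlgebraicCurve ModularCurve IntermediateField

namespace Fermat.Agent.M1.Old.PullbackFactor99

open Fermat.Agent.X0 Fermat.Agent.ES.HECKE.LevelPullback12

variable {N' N : ℕ} [NeZero N'] [NeZero N]

/-- A function on `X₀(N)` without zeros and poles is a nonzero constant. -/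
theorem exists_const_of_ord_eq_zero {f : FF N} (hf : f ≠ 0)
    (h : ∀ w : Place Kbar (FF N), w.ord f = 0) :
    ∃ c : Kbar, c ≠ 0 ∧ f = algebraMap Kbar (FF N) c := by
  have HL := Fermat.Agent.RR.LHypGen.lHyp_of_isGen (HasCanDivInst.isGen N)
  obtain ⟨c, hc⟩ := Fermat.Agent.RR.LSpace.eq_algebraMap_of_forall_ord_nonneg HL
    (f := f) (fun w => (h w).ge)
  refine ⟨c, ?_, hc⟩
  rintro rfl
  rw [map_zero] at hc
  exact hf hc

/-- **T4-K(a)**: `[D] = π^*[D']`, `p D' = div g'`, `p D = div f` ⟹ `f = c · g' · H ^ p`. -/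
theorem exists_factor_of_pullback (h : N' ∣ N) (p : ℕ)
    (D' : Divisor.degZero (K := Kbar) (F := FF N')) (D : Divisor.degZero (K := Kbar) (F := FF N))
    (hDD' : Pic0.mk D = levelPullback h (Pic0.mk D'))
    {g' : FF N'} (hg' : g' ≠ 0)
    (hg'D : ∀ v : Place Kbar (FF N'), (p : ℤ) * (D' : Divisor Kbar (FF N')) v = v.ord g')
    {f : FF N} (hf : f ≠ 0)
    (hfD : ∀ w : Place Kbar (FF N), (p : ℤ) * (D : Divisor Kbar (FF N)) w = w.ord f) :
    ∃ (c : Kbar) (H : FF N), c ≠ 0 ∧ H ≠ 0 ∧
      f = algebraMap Kbar (FF N) c * levelIncl h g' * H ^ p := by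
  -- `D - π^* D'` is principal
  rw [levelPullback_mk] at hDD'
  have hmem := QuotientAddGroup.eq.mp hDD'.symm
  rw [AddSubgroup.mem_addSubgroupOf] at hmem
  obtain ⟨H, hH0, hH⟩ := hmem
  have hHw : ∀ w : Place Kbar (FF N),
      (D : Divisor Kbar (FF N)) w = levelPullbackDiv h (D' : Divisor Kbar (FF N')) w + w.ord H := by
    intro w
    have := hH w
    simp only [AddSubgroup.coe_add, NegMemClass.coe_neg, Finsupp.add_apply,
      Finsupp.neg_apply] at this
    linarith
  -- `π^* (p D') = div g'`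
  have hpull : ∀ w : Place Kbar (FF N),
      (p : ℤ) * levelPullbackDiv h (D' : Divisor Kbar (FF N')) w = w.ord (levelIncl h g') := by
    intro w
    have h1 := levelPullbackDiv_apply_eq_ord h (f := g')
      (D := (p : ℤ) • (D' : Divisor Kbar (FF N'))) (fun v => by
        rw [Finsupp.smul_apply, smul_eq_mul]; exact hg'D v) w
    rw [map_zsmul, Finsupp.smul_apply, smul_eq_mul] at h1
    exact h1
  have hg'N : levelIncl h g' ≠ 0 := by
    intro h0
    exact hg' (levelIncl_injective h (by rw [h0, map_zero]))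
  have hHp : H ^ p ≠ 0 := pow_ne_zero p hH0
  -- the quotient has trivial divisor
  set u : FF N := f * (levelIncl h g' * H ^ p)⁻¹ with hu
  have hu0 : u ≠ 0 := mul_ne_zero hf (inv_ne_zero (mul_ne_zero hg'N hHp))
  have hord : ∀ w : Place Kbar (FF N), w.ord u = 0 := by
    intro w
    rw [hu, w.ord_mul hf (inv_ne_zero (mul_ne_zero hg'N hHp)), w.ord_inv,
      w.ord_mul hg'N hHp, FF.ord_pow, ← hfD w, ← hpull w, hHw w]
    ring
  obtain ⟨c, hc0, hc⟩ := exists_const_of_ord_eq_zero hu0 hord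
  refine ⟨c, H, hc0, hH0, ?_⟩
  rw [← hc, hu, mul_assoc, mul_assoc, inv_mul_cancel₀ (mul_ne_zero hg'N hHp), mul_one]

/-- **T4-K(a), on `q`-expansions** (the literal input of `PullbackRed93.redTo_factor`). -/
theorem exists_factor_of_pullback_series (h : N' ∣ N) (p : ℕ)
    (D' : Divisor.degZero (K := Kbar) (F := FF N')) (D : Divisor.degZero (K := Kbar) (F := FF N))
    (hDD' : Pic0.mk D = levelPullback h (Pic0.mk D'))
    {g' : FF N'} (hg' : g' ≠ 0)
    (hg'D : ∀ v : Place Kbar (FF N'), (p : ℤ) * (D' : Divisor Kbar (FF N')) v = v.ord g')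
    {f : FF N} (hf : f ≠ 0)
    (hfD : ∀ w : Place Kbar (FF N), (p : ℤ) * (D : Divisor Kbar (FF N)) w = w.ord f) :
    ∃ (c : Kbar) (H : LaurentSeries Kbar), c ≠ 0 ∧ H ≠ 0 ∧ H ∈ modularFunctionFieldBar N ∧
      (f : LaurentSeries Kbar) = HahnSeries.C c * (g' : LaurentSeries Kbar) * H ^ p := by
  obtain ⟨c, H, hc0, hH0, hfac⟩ := exists_factor_of_pullback h p D' D hDD' hg' hg'D hf hfD
  refine ⟨c, (H : LaurentSeries Kbar), hc0, fun h0 => hH0 (Subtype.ext h0), H.2, ?_⟩
  have := congrArg (fun z : FF N => (z : LaurentSeries Kbar)) hfac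
  simp only [MulMemClass.coe_mul, SubmonoidClass.coe_pow, coe_levelIncl] at this
  rw [this]
  congr 2
  show (modularFunctionFieldBar N).val (algebraMap Kbar (FF N) c) = HahnSeries.C c
  rw [AlgHom.commutes, LaurentSeries.algebraMap_apply]

end Fermat.Agent.M1.Old.PullbackFactor99
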