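/-
M1 (row 38, S44), chapter OLD, brick T4-K(a) PULLBACK, **number-field form** (helper47; ruling
#1749 (4)).  The engine is helper99's `PullbackFactor99.exists_factor_of_pullback_series` (over
`ℚbar`); this file adds the `K`/`ℚbar` dictionary of `Car/RatClass25` so that the statement takes
the `K`-rational data `(D, f)` of the model side directly:

`K ⊂ ℚbar` a number field, `D` a degree-zero divisor of `K·F_N` with `p • D = div f`, `D''` a
degree-zero divisor of `ℚbar·F_{N'}` with `p • D'' = div g'` (`N' ∣ N`), and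
`bcPic0 [D] = π^* [D'']` in `J₀(N)`.  Then `bc f = c · g' · H ^ p` on `q`-expansions, with `c` a
nonzero constant and `H ∈ ℚbar·F_N`, `H ≠ 0`.
-/
import Mathlib
import Fermat.Agent.M1.Old.PullbackFactor99
import Fermat.Agent.M1.Car.RatClass25

set_option autoImplicit false
set_option synthInstance.maxHeartbeats 400000
set_option linter.unusedSectionVars false

open AlgebraicCurve ModularCurve IntermediateField

namespace Fermat.Agent.M1.Old.PullbackClass47

open Fermat.Agent.X0 Fermat.Agent.X0.FF Fermat.Agent.RED.Interface4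
open Fermat.Agent.ES.HECKE.LevelPullback12 Fermat.Agent.M1.Car.RatClass25
open Fermat.Agent.M1.Car.FibreAbs25 Fermat.Agent.M1.Car.Fibre25
open Fermat.Agent.M1.Old.PullbackFactor99

noncomputable section

local instance (priority := 5000) algKFK47 (M : ℕ) (K : IntermediateField ℚ Qbar) :
    Algebra K (FK M K) := SubalgebraClass.toAlgebra (FK M K)

variable {N' N : ℕ} [NeZero N'] [NeZero N]
variable (K : IntermediateField ℚ Qbar) [FiniteDimensional ℚ K]

/-- the divisor of `bc f` is `p • extDiv D` when `p • D = div f`. -/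
theorem natCast_mul_extDiv_eq_ord (p : ℕ) (D : Divisor K (FK N K)) (f : FK N K)
    (hfD : ∀ P : Place K (FK N K), (p • D) P = P.ord f) (w : Place Qbar (Fbar N)) :
    (p : ℤ) * extDiv N K D w = w.ord (bc N K f) := by
  have h1 := extDiv_eq_ord N K hfD w
  rw [map_nsmul, Finsupp.smul_apply, nsmul_eq_mul] at h1
  exact h1

/-- **T4-K(a), number-field form** (literal of ruling #1749 (4), for any `N' ∣ N`). -/
theorem exists_factor_of_pullback (h : N' ∣ N) (p : ℕ)
    (D : Divisor.degZero (K := ↥K) (F := ↥(FK N K))) (f : ↥(FK N K)) (hf : f ≠ 0)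
    (hfD : ∀ P : Place K (FK N K), (p • (D : Divisor ↥K ↥(FK N K))) P = P.ord f)
    (D'' : Divisor.degZero (K := Qbar) (F := Fbar N')) (g' : Fbar N') (hg' : g' ≠ 0)
    (hg'D : ∀ P : Place Qbar (Fbar N'), (p • (D'' : Divisor Qbar (Fbar N'))) P = P.ord g')
    (hcls : bcPic0 N K (Pic0.mk D) = levelPullback h (Pic0.mk D'')) :
    ∃ (c : Qbar) (H : Fbar N), c ≠ 0 ∧ H ≠ 0 ∧
      ((bc N K f : Fbar N) : LaurentSeries Qbar) =
        HahnSeries.C c * (g' : LaurentSeries Qbar) * (H : LaurentSeries Qbar) ^ p := by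
  rw [bcPic0_mk] at hcls
  obtain ⟨c, H, hc0, hH0, hHmem, hfac⟩ :=
    exists_factor_of_pullback_series h p D'' (extDivZero N K D) hcls hg'
      (fun v => by
        have := hg'D v
        rwa [Finsupp.smul_apply, nsmul_eq_mul] at this)
      (bc_ne_zero N K hf)
      (fun w => by
        rw [coe_extDivZero]
        exact natCast_mul_extDiv_eq_ord K p _ f hfD w)
  exact ⟨c, ⟨H, hHmem⟩, hc0, fun h0 => hH0 (congrArg Subtype.val h0), hfac⟩

end

end Fermat.Agent.M1.Old.PullbackClass47
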