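/-
M1 (row 38, S44), chapter OLD (= T4, depth zero), brick **PH-ASSEMBLY** (helper60):
the literal hypothesis `hPH` (PULLBACK + HECKE) of `Old/T4Main45.t4_of_bricks`
(and of `T4MainPush60.t4_of_bricks_push`, `T4MainRep60.t4_of_bricks_rep(_push)`) from the bricks

* `Old/PullbackClass47.exists_factor_of_pullback`  (T4-K(a): `bc f = c · g' · H ^ p`),
* `Link/HeckeDlog88.exists_gauss_fraction_bar` + `hecke_dlog_eigen`  (LINK-HECKE (hii)),
* `NRM/HcombJ18.coeffMap_residue_mem`  (the residue field of the `∞`-branch of level `M q` is `κ(M)`),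
* `Link/HeckeRed41.RedTo`  (Gauss lemma for constants),

for an ABSTRACT reduction map `red : O1 →+* k((q))` which is only required to be compatible with
`RedTo` (helper8's `RedMap8.redTo_red1S`, (a3) of #1682); a ring homomorphism into the field
`k((q))` is automatically nonzero on units.

Setting: `p` prime, `M' ∣ M''` levels prime to `p`, `K ⊂ ℚ̄` a number field, `A ⊂ ℚ̄` a valuation ring
over `p`, `k = κ(A)`; `N' = M' p`, `N = M'' p`.  A class `[D] ∈ Pic⁰(K·F_N)` whose base change is the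
pull-back of a `p`-torsion Hecke eigenclass `v' ∈ J₀(N')[p]`, and `p • D = div f` with `f ∈ O1ˣ`.
Then `red f = c̄ · u · h̄ ^ p` with `u ∈ κ(M')` a `Tform`-eigen-dlog, `h̄ ∈ κ(M'')`, `c̄ ∈ kˣ`.
-/
import Mathlib
import Fermat.Agent.M1.Old.PullbackClass47
import Fermat.Agent.M1.Link.HeckeDlog88
import Fermat.Agent.M1.Link.HeckeRed41
import Fermat.Agent.M1.NRM.HcombJ18

set_option autoImplicit false
set_option synthInstance.maxHeartbeats 400000
set_option linter.unusedSectionVars false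
set_option linter.style.haveILetI false

open AlgebraicCurve ModularCurve IntermediateField

namespace Fermat.Agent.M1.Old.PHAssembly60

open Fermat.Agent.X0 Fermat.Agent.X0.FF Fermat.Agent.RED.Interface4
open Fermat.Agent.ES.HECKE.LevelPullback12 Fermat.Agent.M1.Car.RatClass25
open Fermat.Agent.M1.Car.FibreAbs25 Fermat.Agent.M1.Car.Fibre25
open Fermat.Agent.M1.Link.ThetaLog88 Fermat.Agent.M1.Link.HeckeRed41

noncomputable section

local instance (priority := 5000) algKFK60 (M : ℕ) (K : IntermediateField ℚ Qbar) :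
    Algebra K (FK M K) := SubalgebraClass.toAlgebra (FK M K)

/-! ### Torsion classes give functions -/

/-- `p • [D] = 0` means `p • D = div g`. -/
theorem exists_ord_of_nsmul_mk_eq_zero {K F : Type*} [Field K] [Field F] [Algebra K F]
    (p : ℕ) (D : Divisor.degZero (K := K) (F := F)) (h : p • Pic0.mk D = 0) :
    ∃ g : F, g ≠ 0 ∧ ∀ P : Place K F, (p • (D : Divisor K F)) P = P.ord g := by
  have h1 : Pic0.mk (p • D) = 0 := by
    have : Pic0.mk (p • D) = p • Pic0.mk D := rfl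
    rw [this, h]
  have h2 := (QuotientAddGroup.eq_zero_iff _).mp h1
  rw [AddSubgroup.mem_addSubgroupOf] at h2
  obtain ⟨g, hg0, hgD⟩ := h2
  refine ⟨g, hg0, fun P => ?_⟩
  have h3 := hgD P
  rw [AddSubgroup.coe_nsmul] at h3
  exact h3

/-! ### Gauss fractions of functions of level `M p` reduce into `κ(M)` -/

/-- Every nonzero function of `ℚ̄·F_{M p}` (`p ∤ M`) is, up to a constant, `RedTo` an element of
`κ(M) ⊂ k((q))`. -/
theorem exists_redTo_of_mem {p : ℕ} (hp : p.Prime) (A : ValuationSubring Qbar)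
    (hA : A.LiesOverPrime p) {M : ℕ} [NeZero M] (hpM : ¬ p ∣ M) (H : Fbar (M * p)) (hH : H ≠ 0) :
    ∃ (mu : Qbar) (h : LaurentSeries (IsLocalRing.ResidueField ↥A)), mu ≠ 0 ∧
      h ∈ modularFunctionFieldFullC (IsLocalRing.ResidueField ↥A) M ∧ h ≠ 0 ∧
      RedTo A (HahnSeries.C mu⁻¹ * (H : LaurentSeries Qbar)) h := by
  haveI : NeZero p := ⟨hp.ne_zero⟩
  obtain ⟨mu, a, b, hmu, ha, hb, har, hbr, hrel⟩ :=
    Fermat.Agent.M1.Link.HeckeDlog88.exists_gauss_fraction_bar hp A hA (M * p) H hH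
  have hG : IsGaussFrac A (H : LaurentSeries Qbar) a b mu := ⟨hmu, har, hbr, hrel⟩
  refine ⟨mu, coeffMap (IsLocalRing.residue ↥A) a / coeffMap (IsLocalRing.residue ↥A) b, hmu,
    ?_, div_ne_zero har hbr, hG.redTo⟩
  exact div_mem (Fermat.Agent.M1.NRM.HcombJ18.coeffMap_residue_mem hp hpM hA a ha)
    (Fermat.Agent.M1.NRM.HcombJ18.coeffMap_residue_mem hp hpM hA b hb)

/-! ### PULLBACK + HECKE for one class -/

variable {M' M'' p : ℕ} [NeZero M'] [NeZero M''] [NeZero p]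

/-- **PH for one class.** -/
theorem ph_of_class (hp : p.Prime) (hM : M' ∣ M'') (hpM' : ¬ p ∣ M') (hpM'' : ¬ p ∣ M'')
    (A : ValuationSubring Qbar) (hA : A.LiesOverPrime p)
    (K : IntermediateField ℚ Qbar) [FiniteDimensional ℚ K]
    (O1 : ValuationSubring ↥(FK (M'' * p) K))
    (red : ↥O1 →+* LaurentSeries (IsLocalRing.ResidueField ↥A))
    (hredTo : ∀ x : ↥O1, red x ≠ 0 →
      RedTo A (coeffMap (algebraMap ↥K Qbar) (((x : ↥(FK (M'' * p) K)) : LaurentSeries ↥K)))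
        (red x))
    {σ : Type*} (ℓ : σ → ℕ) [∀ i, NeZero (ℓ i)] (hℓ : ∀ i, (ℓ i).Prime)
    (hℓN : ∀ i, ¬ ℓ i ∣ M' * p) (a : σ → ℤ)
    (D : Divisor.degZero (K := ↥K) (F := ↥(FK (M'' * p) K)))
    (v' : JZero (M' * p))
    (hcls : bcPic0 (M'' * p) K (Pic0.mk D) = levelPullback (mul_dvd_mul_right hM p) v')
    (htors : p • v' = 0)
    (heig : ∀ i, heckeOperatorBar (M' * p) ⟨ℓ i, hℓ i⟩ v' = a i • v')
    (f : ↥(FK (M'' * p) K)) (hf : f ≠ 0)
    (hfD : ∀ P : Place ↥K ↥(FK (M'' * p) K),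
      (p • (D : Divisor ↥K ↥(FK (M'' * p) K))) P = P.ord f)
    (hf1 : f ∈ O1) (hf1' : f⁻¹ ∈ O1) :
    ∃ u ∈ modularFunctionFieldFullC (IsLocalRing.ResidueField ↥A) M', u ≠ 0 ∧
      ∃ c : IsLocalRing.ResidueField ↥A, c ≠ 0 ∧
      ∃ h ∈ modularFunctionFieldFullC (IsLocalRing.ResidueField ↥A) M'', h ≠ 0 ∧
        red ⟨f, hf1⟩ = HahnSeries.C c * u * h ^ p ∧
        ∀ i, Tform (ℓ i) (dlog u) = a i • dlog u := by
  obtain ⟨D'', rfl⟩ := Pic0.mk_surjective v'
  obtain ⟨g', hg', hg'D⟩ := exists_ord_of_nsmul_mk_eq_zero p D'' htors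
  obtain ⟨c, H, hc, hH, hfac⟩ :=
    Fermat.Agent.M1.Old.PullbackClass47.exists_factor_of_pullback K (mul_dvd_mul_right hM p) p D f
      hf hfD D'' g' hg' hg'D hcls
  -- Gauss fraction of `g'`
  obtain ⟨lam, a', b', hlam, ha', hb', har, hbr, hrel⟩ :=
    Fermat.Agent.M1.Link.HeckeDlog88.exists_gauss_fraction_bar hp A hA (M' * p) g' hg'
  set u : LaurentSeries (IsLocalRing.ResidueField ↥A) :=
    coeffMap (IsLocalRing.residue ↥A) a' / coeffMap (IsLocalRing.residue ↥A) b' with hu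
  have hu0 : u ≠ 0 := div_ne_zero har hbr
  have hu_mem : u ∈ modularFunctionFieldFullC (IsLocalRing.ResidueField ↥A) M' :=
    div_mem (Fermat.Agent.M1.NRM.HcombJ18.coeffMap_residue_mem hp hpM' hA a' ha')
      (Fermat.Agent.M1.NRM.HcombJ18.coeffMap_residue_mem hp hpM' hA b' hb')
  -- the normalised function `g = lam⁻¹ g'`
  have hlamF : algebraMap Kbar (FF (M' * p)) lam ≠ 0 := (map_ne_zero _).mpr hlam
  set g : FF (M' * p) := (algebraMap Kbar (FF (M' * p)) lam)⁻¹ * g' with hg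
  have hg0 : g ≠ 0 := mul_ne_zero (inv_ne_zero hlamF) hg'
  have hgD : ∀ v : Place Kbar (FF (M' * p)),
      (p : ℤ) * (D'' : Divisor Kbar (FF (M' * p))) v = v.ord g := by
    intro v
    rw [hg, v.ord_mul (inv_ne_zero hlamF) hg', v.ord_inv, Fermat.Agent.X0.FF.ord_algebraMap v lam,
      neg_zero, zero_add, ← hg'D v, Finsupp.smul_apply, nsmul_eq_mul]
  have hClam : (HahnSeries.C lam : LaurentSeries Qbar) ≠ 0 := by
    intro h0
    exact hlam (HahnSeries.C_injective (by rw [h0, map_zero]))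
  have hgcoe : (g : LaurentSeries Kbar) =
      (HahnSeries.C lam : LaurentSeries Qbar)⁻¹ * (g' : LaurentSeries Kbar) := by
    rw [hg, IntermediateField.coe_mul, IntermediateField.coe_inv,
      Fermat.Agent.M1.Link.HeckeDlog88.coe_algebraMap_FF]
  have hab : (g : LaurentSeries Kbar) * coeffMap A.subtype b' = coeffMap A.subtype a' := by
    rw [hgcoe, mul_assoc, hrel, ← mul_assoc, inv_mul_cancel₀ hClam, one_mul]
  have hTf : ∀ i, Tform (ℓ i) (dlog u) = a i • dlog u := by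
    intro i
    have hlp : ((⟨ℓ i, hℓ i⟩ : Nat.Primes) : ℕ) ≠ p := by
      intro h
      apply hℓN i
      show ℓ i ∣ M' * p
      have h' : ℓ i = p := h
      rw [h']
      exact dvd_mul_left p M'
    exact Fermat.Agent.M1.Link.HeckeDlog88.hecke_dlog_eigen ⟨ℓ i, hℓ i⟩ (hℓN i) hp hlp A hA (a i)
      D'' (heig i) hg0 hgD a' b' ha' hb' har hbr hab
  -- reductions
  have hRg : RedTo A (g : LaurentSeries Qbar) u := ⟨a', b', har, hbr, hab, div_mul_cancel₀ _ hbr⟩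
  obtain ⟨mu, hbar, hmu, hhbar_mem, hhbar0, hRH⟩ := exists_redTo_of_mem hp A hA hpM'' H hH
  have hCmu : (HahnSeries.C mu : LaurentSeries Qbar) ≠ 0 := by
    intro h0
    exact hmu (HahnSeries.C_injective (by rw [h0, map_zero]))
  have hredf : red ⟨f, hf1⟩ ≠ 0 := by
    intro h0
    have h1 : red ⟨f, hf1⟩ * red ⟨f⁻¹, hf1'⟩ = 1 := by
      rw [← map_mul]
      have h2 : (⟨f, hf1⟩ : ↥O1) * ⟨f⁻¹, hf1'⟩ = 1 := Subtype.ext (mul_inv_cancel₀ hf)
      rw [h2, map_one]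
    rw [h0, zero_mul] at h1
    exact zero_ne_one h1
  have hRf : RedTo A (coeffMap (algebraMap ↥K Qbar)
      ((f : ↥(FK (M'' * p) K)) : LaurentSeries ↥K)) (red ⟨f, hf1⟩) := hredTo ⟨f, hf1⟩ hredf
  have hX : coeffMap (algebraMap ↥K Qbar) ((f : ↥(FK (M'' * p) K)) : LaurentSeries ↥K) =
      HahnSeries.C (c * lam * mu ^ p) * ((g : LaurentSeries Qbar) *
        (HahnSeries.C mu⁻¹ * (H : LaurentSeries Qbar)) ^ p) := by
    have h1 : coeffMap (algebraMap ↥K Qbar) ((f : ↥(FK (M'' * p) K)) : LaurentSeries ↥K) =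
        HahnSeries.C c * (g' : LaurentSeries Qbar) * (H : LaurentSeries Qbar) ^ p := hfac
    have e1 : (HahnSeries.C (c * lam * mu ^ p) : LaurentSeries Qbar) =
        HahnSeries.C c * HahnSeries.C lam * HahnSeries.C mu ^ p := by
      rw [map_mul, map_mul, map_pow]
    have e2 : (HahnSeries.C mu⁻¹ : LaurentSeries Qbar) = (HahnSeries.C mu)⁻¹ := map_inv₀ _ _
    rw [h1, hgcoe, e1, e2, mul_pow, inv_pow]
    field_simp
  have hRX : RedTo A ((g : LaurentSeries Qbar) *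
      (HahnSeries.C mu⁻¹ * (H : LaurentSeries Qbar)) ^ p) (u * hbar ^ p) := hRg.mul (hRH.pow p)
  rw [hX] at hRf
  obtain ⟨cA, hcA, -, hr⟩ := hRX.const_mul hRf
  refine ⟨u, hu_mem, hu0, IsLocalRing.residue ↥A cA, ?_, hbar, hhbar_mem, hhbar0, ?_, hTf⟩
  · intro h0
    rw [IsLocalRing.residue_eq_zero_iff] at h0
    exact (IsLocalRing.mem_maximalIdeal cA).mp h0 hcA
  · rw [hr, mul_assoc]

/-- **The literal `hPH` of `T4Main45.t4_of_bricks`** at `K·F_{M'' p}`, for a subgroup `V` whose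
classes become, over `ℚ̄`, pull-backs of `p`-torsion Hecke eigenclasses of level `M' p`. -/
theorem hPH_of_eigen (hp : p.Prime) (hM : M' ∣ M'') (hpM' : ¬ p ∣ M') (hpM'' : ¬ p ∣ M'')
    (A : ValuationSubring Qbar) (hA : A.LiesOverPrime p)
    (K : IntermediateField ℚ Qbar) [FiniteDimensional ℚ K]
    (O1 : ValuationSubring ↥(FK (M'' * p) K))
    (red : ↥O1 →+* LaurentSeries (IsLocalRing.ResidueField ↥A))
    (hredTo : ∀ x : ↥O1, red x ≠ 0 →
      RedTo A (coeffMap (algebraMap ↥K Qbar) (((x : ↥(FK (M'' * p) K)) : LaurentSeries ↥K)))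
        (red x))
    {σ : Type*} (ℓ : σ → ℕ) [∀ i, NeZero (ℓ i)] (hℓ : ∀ i, (ℓ i).Prime)
    (hℓN : ∀ i, ¬ ℓ i ∣ M' * p) (a : σ → ℤ)
    (V : AddSubgroup (Pic0 ↥K ↥(FK (M'' * p) K)))
    (hV : ∀ v ∈ V, ∃ v' : JZero (M' * p),
      bcPic0 (M'' * p) K v = levelPullback (mul_dvd_mul_right hM p) v' ∧ p • v' = 0 ∧
        ∀ i, heckeOperatorBar (M' * p) ⟨ℓ i, hℓ i⟩ v' = a i • v') :
    ∀ D : Divisor.degZero (K := ↥K) (F := ↥(FK (M'' * p) K)), Pic0.mk D ∈ V →
      ∀ f : ↥(FK (M'' * p) K), f ≠ 0 →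
      (∀ P : Place ↥K ↥(FK (M'' * p) K),
        (p • (D : Divisor ↥K ↥(FK (M'' * p) K))) P = P.ord f) →
      ∀ hf1 : f ∈ O1, f⁻¹ ∈ O1 →
      ∃ u ∈ modularFunctionFieldFullC (IsLocalRing.ResidueField ↥A) M', u ≠ 0 ∧
        ∃ c : IsLocalRing.ResidueField ↥A, c ≠ 0 ∧
        ∃ h ∈ modularFunctionFieldFullC (IsLocalRing.ResidueField ↥A) M'', h ≠ 0 ∧
          red ⟨f, hf1⟩ = HahnSeries.C c * u * h ^ p ∧
          ∀ i, Tform (ℓ i) (dlog u) = a i • dlog u := by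
  intro D hDV f hf hfD hf1 hf1'
  obtain ⟨v', hcls, htors, heig⟩ := hV _ hDV
  exact ph_of_class hp hM hpM' hpM'' A hA K O1 red hredTo ℓ hℓ hℓN a D v' hcls htors heig
    f hf hfD hf1 hf1'

end

end Fermat.Agent.M1.Old.PHAssembly60
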