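/-
M1 (row 38, S44), chapter OLD (= T4, depth zero), brick **PH-ASSEMBLY, instance at the glue's
subgroup** (helper60).  `Old/PHAssembly60.hPH_of_eigen` at

  `M'' := auxM M' = lcm(M', 4)`,   `V := Transport53.VL (auxM M' * p) L (AuxLevel47.auxV M' p V')`,

for a `p`-torsion Hecke eigen-subgroup `V' ⊆ J₀(M' p)` (e.g. `EigenTors44.eigenTors p (M' p) S a`,
with `σ := PIdx S`, `ℓ i := i`, `hℓ i := i.2.1`).  The hypothesis `hV` of `hPH_of_eigen` holds by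
the very definitions of `VL` (a comap along `bcPic0`) and `auxV` (a map along `levelPullback`).
-/
import Mathlib
import Fermat.Agent.M1.Old.PHAssembly60
import Fermat.Agent.M1.Glue.AuxLevel47
import Fermat.Agent.M1.Tri.Transport53

set_option autoImplicit false
set_option synthInstance.maxHeartbeats 400000
set_option linter.unusedSectionVars false
set_option linter.style.haveILetI false

open AlgebraicCurve ModularCurve IntermediateField

namespace Fermat.Agent.M1.Old.PHAssemblyAux60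

open Fermat.Agent.X0 Fermat.Agent.X0.FF Fermat.Agent.RED.Interface4
open Fermat.Agent.ES.HECKE.LevelPullback12 Fermat.Agent.M1.Car.RatClass25
open Fermat.Agent.M1.Car.FibreAbs25 Fermat.Agent.M1.Car.Fibre25
open Fermat.Agent.M1.Link.ThetaLog88 Fermat.Agent.M1.Link.HeckeRed41
open Fermat.Agent.M1.Glue.AuxLevel47 Fermat.Agent.M1.Tri.Transport53
open Fermat.Agent.M1.Old.PHAssembly60

noncomputable section

local instance (priority := 5000) algKFKAux60 (M : ℕ) (K : IntermediateField ℚ Qbar) :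
    Algebra K (FK M K) := SubalgebraClass.toAlgebra (FK M K)

variable {M' p : ℕ} [NeZero M'] [NeZero p]

/-- The hypothesis `hV` of `hPH_of_eigen` for `V = VL (auxM M' * p) L (auxV M' p V')`. -/
theorem hV_of_auxV (L : IntermediateField ℚ Qbar) [FiniteDimensional ℚ L]
    {σ : Type*} (ℓ : σ → ℕ) (hℓ : ∀ i, (ℓ i).Prime) (a : σ → ℤ)
    (V' : AddSubgroup (JZero (M' * p))) (htors : ∀ y ∈ V', p • y = 0)
    (heig : ∀ y ∈ V', ∀ i, heckeOperatorBar (M' * p) ⟨ℓ i, hℓ i⟩ y = a i • y) :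
    ∀ v ∈ VL (auxM M' * p) L (auxV M' p V'), ∃ v' : JZero (M' * p),
      bcPic0 (auxM M' * p) L v = levelPullback (mul_dvd_mul_right (dvd_auxM M') p) v' ∧
        p • v' = 0 ∧ ∀ i, heckeOperatorBar (M' * p) ⟨ℓ i, hℓ i⟩ v' = a i • v' := by
  intro v hv
  obtain ⟨y, hy, hyv⟩ := hv
  exact ⟨y, hyv.symm, htors y hy, heig y hy⟩

/-- **The literal `hPH` of `T4Main45.t4_of_bricks` at the glue's subgroup** `V_L` of the model level
`lcm(M', 4) · p`. -/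
theorem hPH_of_auxV (hp : p.Prime) (hp2 : p ≠ 2) (hpM' : ¬ p ∣ M')
    (A : ValuationSubring Qbar) (hA : A.LiesOverPrime p)
    (L : IntermediateField ℚ Qbar) [FiniteDimensional ℚ L]
    (O1 : ValuationSubring ↥(FK (auxM M' * p) L))
    (red : ↥O1 →+* LaurentSeries (IsLocalRing.ResidueField ↥A))
    (hredTo : ∀ x : ↥O1, red x ≠ 0 →
      RedTo A (coeffMap (algebraMap ↥L Qbar) (((x : ↥(FK (auxM M' * p) L)) : LaurentSeries ↥L)))
        (red x))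
    {σ : Type*} (ℓ : σ → ℕ) [∀ i, NeZero (ℓ i)] (hℓ : ∀ i, (ℓ i).Prime)
    (hℓN : ∀ i, ¬ ℓ i ∣ M' * p) (a : σ → ℤ)
    (V' : AddSubgroup (JZero (M' * p))) (htors : ∀ y ∈ V', p • y = 0)
    (heig : ∀ y ∈ V', ∀ i, heckeOperatorBar (M' * p) ⟨ℓ i, hℓ i⟩ y = a i • y) :
    ∀ D : Divisor.degZero (K := ↥L) (F := ↥(FK (auxM M' * p) L)),
      Pic0.mk D ∈ VL (auxM M' * p) L (auxV M' p V') →
      ∀ f : ↥(FK (auxM M' * p) L), f ≠ 0 →
      (∀ P : Place ↥L ↥(FK (auxM M' * p) L),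
        (p • (D : Divisor ↥L ↥(FK (auxM M' * p) L))) P = P.ord f) →
      ∀ hf1 : f ∈ O1, f⁻¹ ∈ O1 →
      ∃ u ∈ modularFunctionFieldFullC (IsLocalRing.ResidueField ↥A) M', u ≠ 0 ∧
        ∃ c : IsLocalRing.ResidueField ↥A, c ≠ 0 ∧
        ∃ h ∈ modularFunctionFieldFullC (IsLocalRing.ResidueField ↥A) (auxM M'), h ≠ 0 ∧
          red ⟨f, hf1⟩ = HahnSeries.C c * u * h ^ p ∧
          ∀ i, Tform (ℓ i) (dlog u) = a i • dlog u :=
  hPH_of_eigen hp (dvd_auxM M') hpM' (not_dvd_auxM hp hp2 hpM') A hA L O1 red hredTo ℓ hℓ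
    hℓN a (VL (auxM M' * p) L (auxV M' p V')) (hV_of_auxV L ℓ hℓ a V' htors heig)

/-- The same for a subgroup `Y ≤ auxV M' p V'` (e.g. `Y = fixedSub H (auxV M' p V')`). -/
theorem hV_of_le (L : IntermediateField ℚ Qbar) [FiniteDimensional ℚ L]
    {σ : Type*} (ℓ : σ → ℕ) (hℓ : ∀ i, (ℓ i).Prime) (a : σ → ℤ)
    (V' : AddSubgroup (JZero (M' * p))) (htors : ∀ y ∈ V', p • y = 0)
    (heig : ∀ y ∈ V', ∀ i, heckeOperatorBar (M' * p) ⟨ℓ i, hℓ i⟩ y = a i • y)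
    (Y : AddSubgroup (JZero (auxM M' * p))) (hY : Y ≤ auxV M' p V') :
    ∀ v ∈ VL (auxM M' * p) L Y, ∃ v' : JZero (M' * p),
      bcPic0 (auxM M' * p) L v = levelPullback (mul_dvd_mul_right (dvd_auxM M') p) v' ∧
        p • v' = 0 ∧ ∀ i, heckeOperatorBar (M' * p) ⟨ℓ i, hℓ i⟩ v' = a i • v' :=
  fun v hv => hV_of_auxV L ℓ hℓ a V' htors heig v (hY hv)

/-- **The literal `hPH` at `V_L(Y)`, `Y ≤ auxV M' p V'`.** -/
theorem hPH_of_le (hp : p.Prime) (hp2 : p ≠ 2) (hpM' : ¬ p ∣ M')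
    (A : ValuationSubring Qbar) (hA : A.LiesOverPrime p)
    (L : IntermediateField ℚ Qbar) [FiniteDimensional ℚ L]
    (O1 : ValuationSubring ↥(FK (auxM M' * p) L))
    (red : ↥O1 →+* LaurentSeries (IsLocalRing.ResidueField ↥A))
    (hredTo : ∀ x : ↥O1, red x ≠ 0 →
      RedTo A (coeffMap (algebraMap ↥L Qbar) (((x : ↥(FK (auxM M' * p) L)) : LaurentSeries ↥L)))
        (red x))
    {σ : Type*} (ℓ : σ → ℕ) [∀ i, NeZero (ℓ i)] (hℓ : ∀ i, (ℓ i).Prime)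
    (hℓN : ∀ i, ¬ ℓ i ∣ M' * p) (a : σ → ℤ)
    (V' : AddSubgroup (JZero (M' * p))) (htors : ∀ y ∈ V', p • y = 0)
    (heig : ∀ y ∈ V', ∀ i, heckeOperatorBar (M' * p) ⟨ℓ i, hℓ i⟩ y = a i • y)
    (Y : AddSubgroup (JZero (auxM M' * p))) (hY : Y ≤ auxV M' p V') :
    ∀ D : Divisor.degZero (K := ↥L) (F := ↥(FK (auxM M' * p) L)),
      Pic0.mk D ∈ VL (auxM M' * p) L Y →
      ∀ f : ↥(FK (auxM M' * p) L), f ≠ 0 →
      (∀ P : Place ↥L ↥(FK (auxM M' * p) L),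
        (p • (D : Divisor ↥L ↥(FK (auxM M' * p) L))) P = P.ord f) →
      ∀ hf1 : f ∈ O1, f⁻¹ ∈ O1 →
      ∃ u ∈ modularFunctionFieldFullC (IsLocalRing.ResidueField ↥A) M', u ≠ 0 ∧
        ∃ c : IsLocalRing.ResidueField ↥A, c ≠ 0 ∧
        ∃ h ∈ modularFunctionFieldFullC (IsLocalRing.ResidueField ↥A) (auxM M'), h ≠ 0 ∧
          red ⟨f, hf1⟩ = HahnSeries.C c * u * h ^ p ∧
          ∀ i, Tform (ℓ i) (dlog u) = a i • dlog u :=
  hPH_of_eigen hp (dvd_auxM M') hpM' (not_dvd_auxM hp hp2 hpM') A hA L O1 red hredTo ℓ hℓ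
    hℓN a (VL (auxM M' * p) L Y) (hV_of_le L ℓ hℓ a V' htors heig Y hY)

end

end Fermat.Agent.M1.Old.PHAssemblyAux60
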