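/-
M1 (row 38, S44), chapter OLD (= T4, depth zero), brick **PH-ASSEMBLY, model instance** (helper60).
`Old/PHAssemblyAux60.hPH_of_le` at the model of record: `O1 := ModelDefs9.O1 (auxM M') p hπ hE`,
`red := RedMap8.red1S hπ hE` (helper8), `hredTo := RedMap8.redTo_red1S hπ hE`.  This is the term
`hPH` of `T4MainRep60.t4_of_bricks_rep_push` for `V := Transport53.VL (auxM M' * p) L Y`,
`Y ≤ AuxLevel47.auxV M' p V'`, with no hypothesis left besides the eigen-data of `V'`.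
-/
import Mathlib
import Fermat.Agent.M1.Old.PHAssemblyAux60
import Fermat.Agent.M1.Old.RedMap8

set_option autoImplicit false
set_option synthInstance.maxHeartbeats 400000
set_option linter.unusedSectionVars false
set_option linter.style.haveILetI false

open AlgebraicCurve ModularCurve IntermediateField

namespace Fermat.Agent.M1.Old.PHAssemblyInst60

open Fermat.Agent.X0 Fermat.Agent.X0.FF Fermat.Agent.RED.Interface4
open Fermat.Agent.ES.HECKE.LevelPullback12 Fermat.Agent.M1.Car.RatClass25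
open Fermat.Agent.M1.Car.FibreAbs25 Fermat.Agent.M1.Car.Fibre25
open Fermat.Agent.M1.Link.ThetaLog88 Fermat.Agent.M1.Link.HeckeRed41
open Fermat.Agent.M1.Glue.AuxLevel47 Fermat.Agent.M1.Tri.Transport53
open Fermat.Agent.M1.Old.PHAssembly60 Fermat.Agent.M1.Old.PHAssemblyAux60
open Fermat.Agent.M1.Old.RedMap8
open Fermat.Agent.RED.PUR.GaussGen8 Fermat.Agent.ES.N34.ModelDefs9 Fermat.Agent.ES.N34

noncomputable section

local instance (priority := 5000) algKFKInst60 (M : ℕ) (K : IntermediateField ℚ Qbar) :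
    Algebra K (FK M K) := SubalgebraClass.toAlgebra (FK M K)

variable {M' p : ℕ} [NeZero M'] [NeZero p]

/-- **The literal `hPH` of `T4MainRep60.t4_of_bricks_rep_push` over the model of record.** -/
theorem hPH_model (hp : p.Prime) (hp2 : p ≠ 2) (hpM' : ¬ p ∣ M')
    (A : ValuationSubring Qbar) (hA : A.LiesOverPrime p)
    (L : IntermediateField ℚ Qbar) [FiniteDimensional ℚ L]
    {π : ↥(AK A L)} (hπ : IsUnif (AK A L) π)
    (hE : FK (auxM M' * p) L ≤ fracField (AK A L))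
    {σ : Type*} (ℓ : σ → ℕ) [∀ i, NeZero (ℓ i)] (hℓ : ∀ i, (ℓ i).Prime)
    (hℓN : ∀ i, ¬ ℓ i ∣ M' * p) (a : σ → ℤ)
    (V' : AddSubgroup (JZero (M' * p))) (htors : ∀ y ∈ V', p • y = 0)
    (heig : ∀ y ∈ V', ∀ i, heckeOperatorBar (M' * p) ⟨ℓ i, hℓ i⟩ y = a i • y)
    (Y : AddSubgroup (JZero (auxM M' * p))) (hY : Y ≤ auxV M' p V') :
    ∀ D : Divisor.degZero (K := ↥L) (F := ↥(FK (auxM M' * p) L)),
      Pic0.mk D ∈ VL (auxM M' * p) L Y →
      ∀ f : ↥(FK (auxM M' * p) L), f ≠ 0 →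
      (∀ P : Place ↥L ↥(FK (auxM M' * p) L),
        (p • (D : Divisor ↥L ↥(FK (auxM M' * p) L))) P = P.ord f) →
      ∀ hf1 : f ∈ O1 (auxM M') p hπ hE, f⁻¹ ∈ O1 (auxM M') p hπ hE →
      ∃ u ∈ modularFunctionFieldFullC (IsLocalRing.ResidueField ↥A) M', u ≠ 0 ∧
        ∃ c : IsLocalRing.ResidueField ↥A, c ≠ 0 ∧
        ∃ h ∈ modularFunctionFieldFullC (IsLocalRing.ResidueField ↥A) (auxM M'), h ≠ 0 ∧
          red1S hπ hE ⟨f, hf1⟩ = HahnSeries.C c * u * h ^ p ∧
          ∀ i, Tform (ℓ i) (dlog u) = a i • dlog u :=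
  hPH_of_le hp hp2 hpM' A hA L (O1 (auxM M') p hπ hE) (red1S hπ hE) (redTo_red1S hπ hE) ℓ hℓ hℓN a
    V' htors heig Y hY

end

end Fermat.Agent.M1.Old.PHAssemblyInst60
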