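/-
M1 (row 38, S44), chapter OLD (= T4, depth zero), brick **PH-ASSEMBLY in the `CoreTors`
vocabulary** (helper60): `Old/PHAssemblyInst60.hPH_model` at

  `V' := EigenTors44.eigenTors p (M' * p) S a`,  `σ := PIdx S`,  `ℓ i := (i : ℕ)`,
  `a i := a (i : ℕ)`

— the same `(σ, ℓ, a)` as `Link/CoreInst44.hCORE_of_not_isResModular`, so that `hCORE` and `hPH` of
`T4Inst98.t4_model` / `T4Final98.t4_core` share them literally.  The subgroup is
`Transport53.VL (auxM M' * p) L Y` for any `Y ≤ AuxLevel47.auxV M' p (eigenTors p (M' * p) S a)`.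
-/
import Mathlib
import Fermat.Agent.M1.Old.PHAssemblyInst60
import Fermat.Agent.M1.Glue.EigenTors44

set_option autoImplicit false
set_option synthInstance.maxHeartbeats 400000
set_option linter.unusedSectionVars false
set_option linter.style.haveILetI false

open AlgebraicCurve ModularCurve IntermediateField

namespace Fermat.Agent.M1.Old.PHAssemblyEigen60

open Fermat.Agent.X0 Fermat.Agent.X0.FF Fermat.Agent.RED.Interface4
open Fermat.Agent.ES.HECKE.LevelPullback12 Fermat.Agent.M1.Car.RatClass25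
open Fermat.Agent.M1.Car.FibreAbs25 Fermat.Agent.M1.Car.Fibre25
open Fermat.Agent.M1.Link.ThetaLog88 Fermat.Agent.M1.Link.HeckeRed41
open Fermat.Agent.M1.Glue.AuxLevel47 Fermat.Agent.M1.Tri.Transport53
open Fermat.Agent.M1.Old.PHAssembly60 Fermat.Agent.M1.Old.PHAssemblyAux60
open Fermat.Agent.M1.Old.PHAssemblyInst60 Fermat.Agent.M1.Old.RedMap8
open Fermat.Agent.RED.PUR.GaussGen8 Fermat.Agent.ES.N34.ModelDefs9 Fermat.Agent.ES.N34
open Fermat.Agent.ES.N35.QNewCore19 Fermat.Agent.M1.Glue.EigenTors44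

noncomputable section

local instance (priority := 5000) algKFKEigen60 (M : ℕ) (K : IntermediateField ℚ Qbar) :
    Algebra K (FK M K) := SubalgebraClass.toAlgebra (FK M K)

variable {M' p : ℕ} [NeZero M'] [NeZero p]

/-- **`hPH` over the model of record for the glue's eigen-subgroup**, `σ := PIdx S`. -/
theorem hPH_eigenTors [Fact p.Prime] (hp2 : p ≠ 2) (hpM' : ¬ p ∣ M')
    (A : ValuationSubring Qbar) (hA : A.LiesOverPrime p)
    (L : IntermediateField ℚ Qbar) [FiniteDimensional ℚ L]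
    {π : ↥(AK A L)} (hπ : IsUnif (AK A L) π)
    (hE : FK (auxM M' * p) L ≤ fracField (AK A L))
    (S : Finset ℕ) (hpS : p ∈ S) (hM'S : ∀ r : ℕ, r.Prime → r ∣ M' → r ∈ S) (a : ℕ → ℤ)
    [∀ i : PIdx S, NeZero (i : ℕ)]
    (Y : AddSubgroup (JZero (auxM M' * p)))
    (hY : Y ≤ auxV M' p (eigenTors p (M' * p) S a)) :
    ∀ D : Divisor.degZero (K := ↥L) (F := ↥(FK (auxM M' * p) L)),
      Pic0.mk D ∈ VL (auxM M' * p) L Y →
      ∀ f : ↥(FK (auxM M' * p) L), f ≠ 0 →
      (∀ P : Place ↥L ↥(FK (auxM M' * p) L),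
        (p • (D : Divisor ↥L ↥(FK (auxM M' * p) L))) P = P.ord f) →
      ∀ hf1 : f ∈ O1 (auxM M') p hπ hE, f⁻¹ ∈ O1 (auxM M') p hπ hE →
      ∃ u ∈ modularFunctionFieldFullC (IsLocalRing.ResidueField ↥A) M', u ≠ 0 ∧
        ∃ c : IsLocalRing.ResidueField ↥A, c ≠ 0 ∧
        ∃ h ∈ modularFunctionFieldFullC (IsLocalRing.ResidueField ↥A) (auxM M'), h ≠ 0 ∧
          red1S hπ hE ⟨f, hf1⟩ = HahnSeries.C c * u * h ^ p ∧
          ∀ i : PIdx S, Tform (i : ℕ) (dlog u) = a (i : ℕ) • dlog u := by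
  have hp : p.Prime := Fact.out
  have hNS : ∀ r : ℕ, r.Prime → r ∣ M' * p → r ∈ S := by
    intro r hr hdvd
    rcases (Nat.Prime.dvd_mul hr).mp hdvd with h | h
    · exact hM'S r hr h
    · rwa [(Nat.prime_dvd_prime_iff_eq hr hp).mp h]
  exact hPH_model hp hp2 hpM' A hA L hπ hE (σ := PIdx S) (fun i => (i : ℕ)) (fun i => i.2.1)
    (fun i => i.not_dvd hNS) (fun i => a (i : ℕ)) (eigenTors p (M' * p) S a)
    (fun y hy => nsmul_eq_zero_of_mem hy) (fun y hy i => hy.2 i) Y hY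

end

end Fermat.Agent.M1.Old.PHAssemblyEigen60
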