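/-
M1 (S44), chapter OLD (T4), brick T4-K(b) — helper93: **the Gauss-reduction level of the pull-back
bookkeeping** (steps (4) and (6) of the T4 chain, report #1572).

`p` prime, `p ∤ M` (`M` = the model level `M''`), `A ≤ ℚ̄` over `p`, `k` its residue field,
`κ(M) = modularFunctionFieldFullC k M ⊆ k((q))`.  Everything is a statement on `q`-expansions:
`F, G, H ∈ ℚ̄((q))` with `F = c · G · H ^ p` (`F` = expansion of `f`, `div f = p D`; `G` = expansion of
`g'`, `div g' = p D'`; `H ∈ Fbar (M p)`; this factorisation is the output of T4-K(a), class level).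

* `redTo_factor`  : `RedTo A F u₁`, `RedTo A (lam · G) u'` ⟹ `u₁ = c̄ · u' · h̄ ^ p` with `c̄ ∈ kˣ`,
                    `h̄ ∈ κ(M)ˣ` (Gauss normalisation of `H` + Gauss lemma for the constant);
* `hPH_of_redTo`  : the (PH) hypothesis of `Old/T4Abs45.hcore1_of_bricks`, literally;
* `hi_of_factor`  : (hi) for `u₁` at level `M` ⟹ (hi) for `u'` at level `M`, literally the `hi`
                    hypothesis of `Link/Core44.link_core`;
* `hi_of_pullback`: both in one;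
* `eq_const_mul_pow_of_factor` : after CORE (`u' = w ^ p`): `u₁ = c̄ · (w · h̄) ^ p`, `w · h̄ ∈ κ(M)`
                    (step (6), the input of T4-G).
-/
import Mathlib
import Fermat.Agent.M1.Link.HeckeRed41
import Fermat.Agent.M1.NRM.GaussFrac18
import Fermat.Agent.X0.FFDict

set_option autoImplicit false
set_option synthInstance.maxHeartbeats 400000
set_option linter.unusedSectionVars false

noncomputable section

open HahnSeries ModularCurve AlgebraicCurve

namespace Fermat.Agent.M1.Old.PullbackRed93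

open Fermat.Agent.RED.Interface4 Fermat.Agent.M1.Link.HeckeRed41 Fermat.Agent.M1.Link.ThetaLog88

variable {p M : ℕ} [NeZero M] [NeZero p] {A : ValuationSubring Qbar}

set_option quotPrecheck false in
local notation "kA" => IsLocalRing.ResidueField ↥A

/-! ### 1. the factorisation of the reductions -/

/-- **Gauss reduction of the pull-back relation** `F = c · G · H ^ p`. -/
theorem redTo_factor (hp : p.Prime) (hpM : ¬ p ∣ M) (hA : A.LiesOverPrime p)
    {F G H : LaurentSeries Qbar} {c : Qbar} (hH : H ∈ Fbar (M * p)) (hH0 : H ≠ 0)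
    (hFGH : F = HahnSeries.C c * G * H ^ p)
    {u1 : LaurentSeries kA} (hu1 : RedTo A F u1)
    {lam : Qbar} {u' : LaurentSeries kA} (hu' : RedTo A (HahnSeries.C lam * G) u') :
    ∃ (cbar : kA) (hbar : LaurentSeries kA), cbar ≠ 0 ∧ hbar ≠ 0 ∧
      hbar ∈ modularFunctionFieldFullC kA M ∧ u1 = HahnSeries.C cbar * u' * hbar ^ p := by
  -- Gauss normalisation of `H`
  obtain ⟨mu, y₁, y₂, hmu, -, -, hr1, hr2, heq, hm1, hm2⟩ :=
    Fermat.Agent.M1.NRM.GaussFrac18.exists_gaussFrac_mem (A := A) hp hpM hA H hH hH0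
  have hGF : IsGaussFrac A H y₁ y₂ mu := ⟨hmu, hr1, hr2, heq⟩
  have hH₀ := hGF.redTo
  -- `lam ≠ 0`
  have hlam : lam ≠ 0 := by
    rintro rfl
    rw [map_zero, zero_mul] at hu'
    exact hu'.ne_zero.1 rfl
  -- the product
  have hX := hu'.mul (hH₀.pow p)
  have hFX : F = HahnSeries.C (c * lam⁻¹ * mu ^ p) *
      (HahnSeries.C lam * G * (HahnSeries.C mu⁻¹ * H) ^ p) := by
    have e1 : (HahnSeries.C (c * lam⁻¹ * mu ^ p) : LaurentSeries Qbar) *
        (HahnSeries.C lam * G * (HahnSeries.C mu⁻¹ * H) ^ p) =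
        HahnSeries.C (c * lam⁻¹ * mu ^ p * lam * (mu⁻¹) ^ p) * G * H ^ p := by
      rw [mul_pow, ← map_pow]
      simp only [map_mul]
      ring
    have e2 : c * lam⁻¹ * mu ^ p * lam * (mu⁻¹) ^ p = c := by
      have h1 : lam⁻¹ * lam = 1 := inv_mul_cancel₀ hlam
      have h2 : mu ^ p * (mu⁻¹) ^ p = 1 := by rw [← mul_pow, mul_inv_cancel₀ hmu, one_pow]
      calc c * lam⁻¹ * mu ^ p * lam * (mu⁻¹) ^ p
          = c * (lam⁻¹ * lam) * (mu ^ p * (mu⁻¹) ^ p) := by ring
        _ = c := by rw [h1, h2, mul_one, mul_one]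
    rw [e1, e2]
    exact hFGH
  rw [hFX] at hu1
  obtain ⟨cA, hcA, -, hr⟩ := hX.const_mul hu1
  refine ⟨IsLocalRing.residue ↥A cA, coeffMap (IsLocalRing.residue ↥A) y₁ /
    coeffMap (IsLocalRing.residue ↥A) y₂, ?_, div_ne_zero hr1 hr2, ?_, ?_⟩
  · intro h0
    rw [IsLocalRing.residue_eq_zero_iff] at h0
    exact (IsLocalRing.mem_maximalIdeal cA).mp h0 hcA
  · exact div_mem hm1 hm2
  · rw [hr, mul_assoc]

/-- **the (PH) hypothesis of `Old/T4Abs45.hcore1_of_bricks`**, literally (with `u1` in place of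
`red ⟨f, hf1⟩`; `κ' := modularFunctionFieldFullC k M'`, `κ'' := modularFunctionFieldFullC k M`):
from the pull-back relation over `ℚ̄` (T4-K(a)), the reduction `u1` of `f` (RED-MAP), and the
Gauss reduction `u'` of `g'` with its Hecke eigen-relations (`hecke_main`). -/
theorem hPH_of_redTo {M' : ℕ} [NeZero M'] (hp : p.Prime) (hpM : ¬ p ∣ M) (hA : A.LiesOverPrime p)
    {F G H : LaurentSeries Qbar} {c : Qbar} (hH : H ∈ Fbar (M * p)) (hH0 : H ≠ 0)
    (hFGH : F = HahnSeries.C c * G * H ^ p)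
    {u1 : LaurentSeries kA} (hu1 : RedTo A F u1)
    {lam : Qbar} {u' : LaurentSeries kA} (hu' : RedTo A (HahnSeries.C lam * G) u')
    (hu'M' : u' ∈ modularFunctionFieldFullC kA M')
    {σ : Type*} (ℓ : σ → ℕ) [∀ i, NeZero (ℓ i)] (a : σ → ℤ)
    (hii : ∀ i, Tform (ℓ i) (dlog u') = a i • dlog u') :
    ∃ u ∈ modularFunctionFieldFullC kA M', u ≠ 0 ∧ ∃ c : kA, c ≠ 0 ∧
      ∃ h ∈ modularFunctionFieldFullC kA M, h ≠ 0 ∧
        u1 = HahnSeries.C c * u * h ^ p ∧ ∀ i, Tform (ℓ i) (dlog u) = a i • dlog u := by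
  obtain ⟨cbar, hbar, hc, hh0, hhM, hfac⟩ := redTo_factor hp hpM hA hH hH0 hFGH hu1 hu'
  exact ⟨u', hu'M', hu'.ne_zero.2, cbar, hc, hbar, hhM, hh0, hfac, hii⟩

/-! ### 2. transfer of (hi) -/

section Hi

variable {k : Type*} [Field k] {M' : ℕ} [NeZero M']

/-- **(hi) for `u₁` ⟹ (hi) for `u'`** at the model level `M`, from `u₁ = c̄ · u' · h̄ ^ p`. -/
theorem hi_of_factor (hM'M : M' ∣ M) {u1 u' hbar : LaurentSeries k} {cbar : k}
    (hc : cbar ≠ 0) (hh0 : hbar ≠ 0) (hhM : hbar ∈ modularFunctionFieldFullC k M)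
    (hu1M : u1 ∈ modularFunctionFieldFullC k M) (hu'M' : u' ∈ modularFunctionFieldFullC k M')
    (hu'0 : u' ≠ 0) (hfac : u1 = HahnSeries.C cbar * u' * hbar ^ p)
    (hi1 : ∀ Q : Place k ↥(modularFunctionFieldFullC k M),
      (p : ℤ) ∣ Q.ord (⟨u1, hu1M⟩ : ↥(modularFunctionFieldFullC k M))) :
    ∀ Q : Place k ↥(modularFunctionFieldFullC k M),
      (p : ℤ) ∣ Q.ord (⟨u', full_degeneracyC_le k hM'M hu'M'⟩ : ↥(modularFunctionFieldFullC k M)) := by
  intro Q
  set U' : ↥(modularFunctionFieldFullC k M) := ⟨u', full_degeneracyC_le k hM'M hu'M'⟩ with hU'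
  set Hb : ↥(modularFunctionFieldFullC k M) := ⟨hbar, hhM⟩ with hHb
  have hU'0 : U' ≠ 0 := fun h => hu'0 (congrArg Subtype.val h)
  have hHb0 : Hb ≠ 0 := fun h => hh0 (congrArg Subtype.val h)
  have hcm : algebraMap k ↥(modularFunctionFieldFullC k M) cbar ≠ 0 := by
    rw [Ne, map_eq_zero]; exact hc
  have heq : (⟨u1, hu1M⟩ : ↥(modularFunctionFieldFullC k M)) =
      algebraMap k ↥(modularFunctionFieldFullC k M) cbar * U' * Hb ^ p := by
    apply Subtype.ext
    show u1 = algebraMap k (LaurentSeries k) cbar * u' * hbar ^ p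
    rw [algebraMap_laurentSeries_eq_single, ← HahnSeries.C_apply]
    exact hfac
  have h1 := hi1 Q
  rw [heq, Q.ord_mul (mul_ne_zero hcm hU'0) (pow_ne_zero p hHb0), Q.ord_mul hcm hU'0,
    Fermat.Agent.X0.FF.ord_algebraMap, zero_add, Fermat.Agent.X0.FF.ord_pow] at h1
  exact (Int.dvd_add_left (Dvd.intro _ rfl)).mp h1

/-- after CORE: `u' = w ^ p` ⟹ `u₁ = c̄ · (w · h̄) ^ p` with `w · h̄ ∈ κ(M)`. -/
theorem eq_const_mul_pow_of_factor (hM'M : M' ∣ M) {u1 u' hbar w : LaurentSeries k} {cbar : k}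
    (hhM : hbar ∈ modularFunctionFieldFullC k M) (hwM' : w ∈ modularFunctionFieldFullC k M')
    (hw : w ^ p = u') (hfac : u1 = HahnSeries.C cbar * u' * hbar ^ p) :
    w * hbar ∈ modularFunctionFieldFullC k M ∧ u1 = HahnSeries.C cbar * (w * hbar) ^ p := by
  refine ⟨mul_mem (full_degeneracyC_le k hM'M hwM') hhM, ?_⟩
  rw [hfac, ← hw, mul_pow, mul_assoc]

end Hi

/-! ### 3. the composite -/

/-- **T4-K(b)**: the `hi` hypothesis of `Core44.link_core` for the Gauss reduction `u'` of `g'`, from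
(hi) for `u₁ = red₁ f` and the pull-back relation `F = c · G · H ^ p` over `ℚ̄`; together with the
factorisation `u₁ = c̄ · u' · h̄ ^ p` itself (to be used again after CORE). -/
theorem hi_of_pullback {M' : ℕ} [NeZero M'] (hM'M : M' ∣ M) (hp : p.Prime) (hpM : ¬ p ∣ M)
    (hA : A.LiesOverPrime p)
    {F G H : LaurentSeries Qbar} {c : Qbar} (hH : H ∈ Fbar (M * p)) (hH0 : H ≠ 0)
    (hFGH : F = HahnSeries.C c * G * H ^ p)
    {u1 : LaurentSeries kA} (hu1 : RedTo A F u1) (hu1M : u1 ∈ modularFunctionFieldFullC kA M)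
    {lam : Qbar} {u' : LaurentSeries kA} (hu' : RedTo A (HahnSeries.C lam * G) u')
    (hu'M' : u' ∈ modularFunctionFieldFullC kA M')
    (hi1 : ∀ Q : Place kA ↥(modularFunctionFieldFullC kA M),
      (p : ℤ) ∣ Q.ord (⟨u1, hu1M⟩ : ↥(modularFunctionFieldFullC kA M))) :
    (∀ Q : Place kA ↥(modularFunctionFieldFullC kA M),
      (p : ℤ) ∣ Q.ord (⟨u', full_degeneracyC_le kA hM'M hu'M'⟩ :
        ↥(modularFunctionFieldFullC kA M))) ∧
    ∃ (cbar : kA) (hbar : LaurentSeries kA), cbar ≠ 0 ∧ hbar ≠ 0 ∧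
      hbar ∈ modularFunctionFieldFullC kA M ∧ u1 = HahnSeries.C cbar * u' * hbar ^ p := by
  obtain ⟨cbar, hbar, hc, hh0, hhM, hfac⟩ := redTo_factor hp hpM hA hH hH0 hFGH hu1 hu'
  exact ⟨hi_of_factor hM'M hc hh0 hhM hu1M hu'M' hu'.ne_zero.2 hfac hi1,
    cbar, hbar, hc, hh0, hhM, hfac⟩

end Fermat.Agent.M1.Old.PullbackRed93
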