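/-
M1 (S44), chapter OLD (T4), brick T4-K = (a) ∘ (b) — helper93: **the (PH) hypothesis of
`Old/T4Abs45.hcore1_of_bricks` from the class-level pull-back relation.**

Composition of helper99's `PullbackFactor99.exists_factor_of_pullback_series` (class/divisor level
over `ℚ̄`: `[D] = π^*[D']`, `p D' = div g'`, `p D = div f` ⟹ `f = c · g' · H ^ p` on `q`-expansions)
with `PullbackRed93.hPH_of_redTo` (Gauss-reduction level).

Remaining inputs, one per neighbour:
* RED-MAP (a): `RedTo A (f : ℚ̄((q))) u1`, `u1 = red ⟨f, hf1⟩`;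
* `hecke_main`: the Gauss reduction `u'` of `g'` (`RedTo A (lam · g') u'`, `u' ∈ κ(M')`) with its Hecke
  eigen-relations `Tform (ℓ i) (dlog u') = a i • dlog u'`.
-/
import Mathlib
import Fermat.Agent.M1.Old.PullbackRed93
import Fermat.Agent.M1.Old.PullbackFactor99

set_option autoImplicit false
set_option synthInstance.maxHeartbeats 400000
set_option linter.unusedSectionVars false

noncomputable section

open HahnSeries ModularCurve AlgebraicCurve

namespace Fermat.Agent.M1.Old.PullbackPH93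

open Fermat.Agent.RED.Interface4 Fermat.Agent.M1.Link.HeckeRed41 Fermat.Agent.M1.Link.ThetaLog88
open Fermat.Agent.ES.HECKE.LevelPullback12

variable {p M M' : ℕ} [NeZero M] [NeZero M'] [NeZero p] {A : ValuationSubring Qbar}

set_option quotPrecheck false in
local notation "kA" => IsLocalRing.ResidueField ↥A

/-- **T4-K**: the (PH) hypothesis of `T4Abs45.hcore1_of_bricks` (with `u1` for `red ⟨f, hf1⟩`,
`κ' := modularFunctionFieldFullC k M'`, `κ'' := modularFunctionFieldFullC k M`), from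
`[D] = π^*[D']` over `ℚ̄`. -/
theorem hPH_of_class (hM'M : M' ∣ M) (hp : p.Prime) (hpM : ¬ p ∣ M) (hA : A.LiesOverPrime p)
    (D' : Divisor.degZero (K := Qbar) (F := ↥(Fbar (M' * p))))
    (D : Divisor.degZero (K := Qbar) (F := ↥(Fbar (M * p))))
    (hDD' : Pic0.mk D = levelPullback (Nat.mul_dvd_mul_right hM'M p) (Pic0.mk D'))
    {g' : ↥(Fbar (M' * p))} (hg' : g' ≠ 0)
    (hg'D : ∀ v : Place Qbar ↥(Fbar (M' * p)),
      (p : ℤ) * (D' : Divisor Qbar ↥(Fbar (M' * p))) v = v.ord g')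
    {f : ↥(Fbar (M * p))} (hf : f ≠ 0)
    (hfD : ∀ w : Place Qbar ↥(Fbar (M * p)),
      (p : ℤ) * (D : Divisor Qbar ↥(Fbar (M * p))) w = w.ord f)
    {u1 : LaurentSeries kA} (hu1 : RedTo A (f : LaurentSeries Qbar) u1)
    {lam : Qbar} {u' : LaurentSeries kA}
    (hu' : RedTo A (HahnSeries.C lam * (g' : LaurentSeries Qbar)) u')
    (hu'M' : u' ∈ modularFunctionFieldFullC kA M')
    {σ : Type*} (ℓ : σ → ℕ) [∀ i, NeZero (ℓ i)] (a : σ → ℤ)
    (hii : ∀ i, Tform (ℓ i) (dlog u') = a i • dlog u') :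
    ∃ u ∈ modularFunctionFieldFullC kA M', u ≠ 0 ∧ ∃ c : kA, c ≠ 0 ∧
      ∃ h ∈ modularFunctionFieldFullC kA M, h ≠ 0 ∧
        u1 = HahnSeries.C c * u * h ^ p ∧ ∀ i, Tform (ℓ i) (dlog u) = a i • dlog u := by
  obtain ⟨c, H, -, hH0, hH, hfac⟩ :=
    Fermat.Agent.M1.Old.PullbackFactor99.exists_factor_of_pullback_series
      (Nat.mul_dvd_mul_right hM'M p) p D' D hDD' hg' hg'D hf hfD
  exact Fermat.Agent.M1.Old.PullbackRed93.hPH_of_redTo hp hpM hA hH hH0 hfac hu1 hu' hu'M' ℓ a hii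

end Fermat.Agent.M1.Old.PullbackPH93
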