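/-
M1 (row 38, S44), chapter OLD (= T4, depth zero), brick T4-J part 1 (helper45):
**the abstract assembly of `hcore1`** (hypothesis of `FrameAssembly58.mem_cart_one_of_pth_powers`)
from the bricks of the T4 table (#1572/#1613):

* (R)   RED-MAP   : a ring hom `red : O1 →+* k((q))` with values in `κ''`, kernel `π O1`;
* (D)   DESCENT   : a `p`-th root in `κ''` of an element of `range red` lies in `range red`;
* (HI)  depth `0` : `p ∣ ord_Q (red f)` at every place `Q` of `κ''`;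
* (PH)  PULLBACK + HECKE : `red f = c · u · h ^ p`, `u ∈ κ'` a Hecke eigen-dlog, `h ∈ κ''`;
* (CORE) `Core44.link_core` : such a `u` is a `p`-th power in `κ'`.

Conclusion: `f = φ1 ^ p + π c` with `φ1` a unit of `O1`.
Everything is abstract: `κ' ≤ κ''` are any two intermediate fields of `k((q)) / k`.
-/
import Mathlib
import Fermat.Agent.X0.FFDict
import Fermat.Agent.M1.Link.ThetaLog88

set_option autoImplicit false

open AlgebraicCurve HahnSeries ModularCurve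

namespace Fermat.Agent.M1.Old.T4Abs45

open Fermat.Agent.X0.FF Fermat.Agent.M1.Link.ThetaLog88

variable {R F : Type*} [CommRing R] [Field F] [Algebra R F]
variable {k : Type*} [Field k]

/-- **Abstract T4 chain, `O1`-side.** -/
theorem hcore1_of_bricks {O1 : ValuationSubring F} {π : R} {p : ℕ} (hp : p.Prime)
    (κ' κ'' : IntermediateField k (LaurentSeries k)) (hle : κ' ≤ κ'')
    (hkp : ∀ c : k, ∃ c0 : k, c0 ^ p = c)
    -- (R) the reduction map on `O1`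
    (red : ↥O1 →+* LaurentSeries k)
    (hred_mem : ∀ x : ↥O1, red x ∈ κ'')
    (hred_ker : ∀ x : ↥O1, red x = 0 → ∃ c ∈ O1, (x : F) = algebraMap R F π * c)
    (hred_unit : ∀ x : ↥O1, red x ≠ 0 → ((x : F))⁻¹ ∈ O1)
    -- (D) DESCENT
    (hdesc : ∀ W ∈ κ'', (∃ x : ↥O1, red x = W ^ p) → ∃ y : ↥O1, red y = W)
    -- (CORE)
    {σ : Type*} (ℓ : σ → ℕ) [∀ i, NeZero (ℓ i)] (a : σ → ℤ)
    (hCORE : ∀ (u : LaurentSeries k) (hu : u ∈ κ'), u ≠ 0 →
      (∀ Q : Place k ↥κ'', (p : ℤ) ∣ Q.ord (⟨u, hle hu⟩ : ↥κ'')) →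
      (∀ i, Tform (ℓ i) (dlog u) = a i • dlog u) → ∃ w ∈ κ', w ^ p = u)
    -- the function
    (f : F) (hf1 : f ∈ O1)
    -- (HI)
    (hi : ∀ Q : Place k ↥κ'', (p : ℤ) ∣ Q.ord (⟨red ⟨f, hf1⟩, hred_mem _⟩ : ↥κ''))
    -- (PH) PULLBACK + HECKE
    (hPH : ∃ u ∈ κ', u ≠ 0 ∧ ∃ c : k, c ≠ 0 ∧ ∃ h ∈ κ'', h ≠ 0 ∧
      red ⟨f, hf1⟩ = HahnSeries.C c * u * h ^ p ∧
      ∀ i, Tform (ℓ i) (dlog u) = a i • dlog u) :
    ∃ φ1 : F, φ1 ∈ O1 ∧ φ1⁻¹ ∈ O1 ∧ ∃ r : R, ∃ c ∈ O1,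
      f - algebraMap R F r * φ1 ^ p = algebraMap R F π * c := by
  obtain ⟨u, hu, hu0, c, hc0, h, hh, hh0, hfact, hii⟩ := hPH
  have hC : (HahnSeries.C c : LaurentSeries k) = algebraMap k (LaurentSeries k) c := by
    rw [HahnSeries.C_apply, algebraMap_laurentSeries_eq_single]
  have hCne : (HahnSeries.C c : LaurentSeries k) ≠ 0 := by
    intro h0
    exact hc0 (HahnSeries.C_injective (by rw [h0, map_zero]))
  -- (hi) for `u`
  have hiu : ∀ Q : Place k ↥κ'', (p : ℤ) ∣ Q.ord (⟨u, hle hu⟩ : ↥κ'') := by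
    intro Q
    have e : (⟨red ⟨f, hf1⟩, hred_mem _⟩ : ↥κ'') =
        algebraMap k ↥κ'' c * ⟨u, hle hu⟩ * (⟨h, hh⟩ : ↥κ'') ^ p := by
      apply Subtype.ext
      show red ⟨f, hf1⟩ = algebraMap k (LaurentSeries k) c * u * h ^ p
      rw [hfact, hC]
    have hu' : (⟨u, hle hu⟩ : ↥κ'') ≠ 0 := fun h0 => hu0 (congrArg Subtype.val h0)
    have hh' : (⟨h, hh⟩ : ↥κ'') ≠ 0 := fun h0 => hh0 (congrArg Subtype.val h0)
    have hc' : algebraMap k ↥κ'' c ≠ 0 := by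
      intro h0
      exact hc0 ((map_eq_zero_iff _ (algebraMap k ↥κ'').injective).mp h0)
    have hd := hi Q
    rw [e, Place.ord_mul Q (mul_ne_zero hc' hu') (pow_ne_zero p hh'), Place.ord_mul Q hc' hu',
      ord_algebraMap, zero_add, ord_pow] at hd
    exact (Int.dvd_add_left (Dvd.intro _ rfl)).mp hd
  -- CORE
  obtain ⟨w, hw, hwp⟩ := hCORE u hu hu0 hiu hii
  -- the `p`-th root of `red f`
  obtain ⟨c0, hc0p⟩ := hkp c
  have hc0mem : (HahnSeries.C c0 : LaurentSeries k) ∈ κ'' := by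
    have : (HahnSeries.C c0 : LaurentSeries k) = algebraMap k (LaurentSeries k) c0 := by
      rw [HahnSeries.C_apply, algebraMap_laurentSeries_eq_single]
    rw [this]
    exact κ''.algebraMap_mem c0
  have hWmem : HahnSeries.C c0 * w * h ∈ κ'' :=
    κ''.mul_mem (κ''.mul_mem hc0mem (hle hw)) hh
  have hWp : red ⟨f, hf1⟩ = (HahnSeries.C c0 * w * h) ^ p := by
    rw [hfact, mul_pow, mul_pow, hwp, ← map_pow, hc0p]
  obtain ⟨y, hy⟩ := hdesc _ hWmem ⟨⟨f, hf1⟩, hWp⟩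
  have hredf_ne : red ⟨f, hf1⟩ ≠ 0 := by
    rw [hfact]
    exact mul_ne_zero (mul_ne_zero hCne hu0) (pow_ne_zero p hh0)
  have hy_ne : red y ≠ 0 := by
    intro h0
    apply hredf_ne
    rw [hWp, ← hy, h0, zero_pow hp.ne_zero]
  refine ⟨(y : F), y.2, hred_unit y hy_ne, 1, ?_⟩
  have hz : red (⟨f, hf1⟩ - y ^ p) = 0 := by
    rw [map_sub, map_pow, hy, hWp, sub_self]
  obtain ⟨c', hc', e⟩ := hred_ker _ hz
  refine ⟨c', hc', ?_⟩
  rw [map_one, one_mul, ← e]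
  rfl

end Fermat.Agent.M1.Old.T4Abs45
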