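/-
M1 (row 38, S44), chapter OLD (= T4, depth zero), brick T4-J part 2 (helper45):
**(T4) `V ∩ Cart 0 ⊆ Cart 1` from the bricks**, in the literal shape consumed by
`Car/ContractInst43.wildContract_of_cart` / `tameContract_of_cart`.

Composition of `Old/FrameAssembly58.mem_cart_one_of_pth_powers_swap` (T4-A) with
`Old/T4Abs45.hcore1_of_bricks` (T4-J part 1).  The inputs are, for a `NodalNumData` over the field
of rationality `K` of `V` with thick rational nodes, (AC) on both Gauss rings and one node: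

* `tors`   : `V` is `p`-torsion;
* `hnode`  : NODE-TERM (`e p ∣ v₂(f)`), for the classes of `V`;
* (R), (D) : the reduction map on `O1` and DESCENT;
* `hHI`    : `p ∣ ord_Q (red f)` at every place of `κ''` for level-`0` data (WD);
* `hPH`    : PULLBACK + HECKE for the classes of `V`;
* `hCORE`  : LINK-CORE;
* `hswap`  : SIDE-TWO (the `O2`-side from the `O1`-side).
-/
import Mathlib
import Fermat.Agent.M1.Old.FrameAssembly58
import Fermat.Agent.M1.Old.T4Abs45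

set_option autoImplicit false
set_option linter.unusedSectionVars false

open AlgebraicCurve HahnSeries

namespace Fermat.Agent.M1.Old.T4Main45

open Fermat.Agent.ES.N34.NodalCore13 Fermat.Agent.ES.N34.NumData13
  Fermat.Agent.M1.Car.Defs43 Fermat.Agent.M1.Mon.WildPL43 Fermat.Agent.M1.Car.NodeFrame58
  Fermat.Agent.M1.Car.DepthZeroInst58 Fermat.Agent.M1.Fib.Constants98
  Fermat.Agent.M1.Link.ThetaLog88 Fermat.Agent.M1.Old.FrameAssembly58 Fermat.Agent.M1.Old.T4Abs45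

variable {R K F : Type*} [CommRing R] [Field K] [Field F] [Algebra R K] [Algebra K F]
  [Algebra R F] [IsScalarTower R K F]
  {π : R} {t : F} {B0 B1 : Subalgebra R F} {O1 O2 : ValuationSubring F} {e : ℕ}
variable {k : Type*} [Field k]

/-- **(T4) from the bricks.** -/
theorem t4_of_bricks [HasPrincipalDivisors K F]
    (N : NodalNumData R K F π t B0 B1 O1 O2)
    (hac1 : ResidueAlgClosed π O1) (hac2 : ResidueAlgClosed π O2)
    (hth : ThickNodes π B0 B1 O1 O2 e)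
    (hnodeEx : ∃ (B : Subalgebra R F) (𝔪 : Ideal B), IsNode π B0 B1 O1 O2 B 𝔪)
    {hπ1 : algebraMap R F π ∈ O1} {hπ2 : algebraMap R F π ∈ O2}
    {p : ℕ} (hp : p.Prime) (hchar : π ∣ (p : R)) (hperf : ∀ r : R, ∃ s : R, π ∣ s ^ p - r)
    (V : AddSubgroup (Pic0 K F)) (tors : ∀ v ∈ V, p • v = 0)
    -- NODE-TERM
    (hnode : ∀ D : Divisor.degZero (K := K) (F := F), Pic0.mk D ∈ V →
      HasLevel π B0 B1 O1 O2 0 (D : Divisor K F) → ∀ f : F, f ≠ 0 →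
      (∀ P : Place K F, (p • (D : Divisor K F)) P = P.ord f) → O1.valuation f = 1 →
      ∃ b' : ℤ, O2.valuation f = O2.valuation (algebraMap R F π) ^ ((e : ℤ) * p * b'))
    -- the residue side
    (κ' κ'' : IntermediateField k (LaurentSeries k)) (hle : κ' ≤ κ'')
    (hkp : ∀ c : k, ∃ c0 : k, c0 ^ p = c)
    -- (R) RED-MAP
    (red : ↥O1 →+* LaurentSeries k)
    (hred_mem : ∀ x : ↥O1, red x ∈ κ'')
    (hred_ker : ∀ x : ↥O1, red x = 0 → ∃ c ∈ O1, (x : F) = algebraMap R F π * c)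
    (hred_unit : ∀ x : ↥O1, red x ≠ 0 → ((x : F))⁻¹ ∈ O1)
    -- (D) DESCENT
    (hdesc : ∀ W ∈ κ'', (∃ x : ↥O1, red x = W ^ p) → ∃ y : ↥O1, red y = W)
    -- (CORE)
    {σ : Type*} (ℓ : σ → ℕ) [∀ i, NeZero (ℓ i)] (a : σ → ℤ)
    (hCORE : ∀ (u : LaurentSeries k) (hu : u ∈ κ'), u ≠ 0 →
      (∀ Q : Place k ↥κ'', (p : ℤ) ∣ Q.ord (⟨u, hle hu⟩ : ↥κ'')) →
      (∀ i, Tform (ℓ i) (dlog u) = a i • dlog u) → ∃ w ∈ κ', w ^ p = u)
    -- (HI)
    (hHI : ∀ D : Divisor.degZero (K := K) (F := F),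
      HasLevel π B0 B1 O1 O2 0 (D : Divisor K F) → ∀ f : F, f ≠ 0 →
      (∀ P : Place K F, (p • (D : Divisor K F)) P = P.ord f) →
      ∀ hf1 : f ∈ O1, f⁻¹ ∈ O1 → f ∈ O2 → f⁻¹ ∈ O2 →
      ∀ Q : Place k ↥κ'', (p : ℤ) ∣ Q.ord (⟨red ⟨f, hf1⟩, hred_mem _⟩ : ↥κ''))
    -- (PH) PULLBACK + HECKE
    (hPH : ∀ D : Divisor.degZero (K := K) (F := F), Pic0.mk D ∈ V → ∀ f : F, f ≠ 0 →
      (∀ P : Place K F, (p • (D : Divisor K F)) P = P.ord f) →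
      ∀ hf1 : f ∈ O1, f⁻¹ ∈ O1 →
      ∃ u ∈ κ', u ≠ 0 ∧ ∃ c : k, c ≠ 0 ∧ ∃ h ∈ κ'', h ≠ 0 ∧
        red ⟨f, hf1⟩ = HahnSeries.C c * u * h ^ p ∧
        ∀ i, Tform (ℓ i) (dlog u) = a i • dlog u)
    -- SIDE-TWO
    (hswap : ∀ D : Divisor.degZero (K := K) (F := F), Pic0.mk D ∈ V →
      HasLevel π B0 B1 O1 O2 0 (D : Divisor K F) → ∀ f : F, f ≠ 0 →
      (∀ P : Place K F, (p • (D : Divisor K F)) P = P.ord f) →
      f ∈ O1 → f⁻¹ ∈ O1 → f ∈ O2 → f⁻¹ ∈ O2 → ∀ φ1 : F, φ1 ∈ O1 → φ1⁻¹ ∈ O1 →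
      (∃ r : R, ∃ c ∈ O1, f - algebraMap R F r * φ1 ^ p = algebraMap R F π * c) →
      ∃ φ2 : F, φ2 ∈ O2 ∧ φ2⁻¹ ∈ O2 ∧
        ∃ r : R, ∃ c ∈ O2, f - algebraMap R F r * φ2 ^ p = algebraMap R F π * c) :
    ∀ v ∈ V, v ∈ Cart π B0 B1 O1 O2 hπ1 hπ2 0 → v ∈ Cart π B0 B1 O1 O2 hπ1 hπ2 1 := by
  intro v hv hv0
  obtain ⟨D, rfl, hlev0⟩ := hv0
  refine mem_cart_one_of_pth_powers_swap N hac1 hac2 hth hnodeEx hp hchar hperf D (tors _ hv) hlev0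
    (hnode D hv hlev0) ?_ ?_
  · intro D' hD' hlev0' f hf0 hdiv hf1 hf1' hf2 hf2'
    have hv' : Pic0.mk D' ∈ V := by rw [hD']; exact hv
    exact hcore1_of_bricks hp κ' κ'' hle hkp red hred_mem hred_ker hred_unit hdesc ℓ a hCORE f hf1
      (hHI D' hlev0' f hf0 hdiv hf1 hf1' hf2 hf2') (hPH D' hv' f hf0 hdiv hf1 hf1')
  · intro D' hD' hlev0' f hf0 hdiv hf1 hf1' hf2 hf2' φ1 hφ1 hφ1' hpow1
    have hv' : Pic0.mk D' ∈ V := by rw [hD']; exact hv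
    exact hswap D' hv' hlev0' f hf0 hdiv hf1 hf1' hf2 hf2' φ1 hφ1 hφ1' hpow1

end Fermat.Agent.M1.Old.T4Main45
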