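/-
M1 (S44), chapter OLD = T4 (helper60): **(T4) from the bricks, with a CHOSEN representative.**

`Old/T4Main45.t4_of_bricks` takes the level-`0` representative `D` handed over by the hypothesis
`v ∈ Cart 0` and therefore needs NODE-TERM (`hnode`) for EVERY level-`0` divisor with class in `V`.
NODE-TERM is only proved for representatives in good position (avoiding the nodes and the closed
points over the cusp values, `Car/NodeFin53.exists_ord_rep_of_ne` and its refinements).  Here the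
representative is first replaced by a good one:

* `Good` : any predicate on degree-zero divisors;
* `hrep` : every class of `V ∩ Cart 0` has a level-`0` representative satisfying `Good`;
* `hnode`: NODE-TERM for the level-`0` divisors with class in `V` satisfying `Good`.

All other hypotheses are those of `t4_of_bricks` (`hswap` form) resp. `t4_of_bricks_push`
(`Old/T4MainPush60`, SIDE-TWO by push-forward along the second degeneracy map).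
-/
import Mathlib
import Fermat.Agent.M1.Old.T4Main45
import Fermat.Agent.M1.Old.FrameAssemblyPush60

set_option autoImplicit false
set_option linter.unusedSectionVars false

open AlgebraicCurve HahnSeries

namespace Fermat.Agent.M1.Old.T4MainRep60

open Module Fermat.Agent.ES.N34.NodalCore13 Fermat.Agent.ES.N34.NumData13
  Fermat.Agent.M1.Car.Defs43 Fermat.Agent.M1.Mon.WildPL43 Fermat.Agent.M1.Car.NodeFrame58
  Fermat.Agent.M1.Car.DepthZeroInst58 Fermat.Agent.M1.Fib.Constants98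
  Fermat.Agent.M1.Link.ThetaLog88 Fermat.Agent.M1.Old.FrameAssembly58 Fermat.Agent.M1.Old.T4Abs45
  Fermat.Agent.M1.NRM.ToricLead88 Fermat.Agent.M1.NRM.PushReg88
  Fermat.Agent.M1.Old.FrameAssemblyPush60

variable {R K F : Type*} [CommRing R] [Field K] [Field F] [Algebra R K] [Algebra K F]
  [Algebra R F] [IsScalarTower R K F]
  {π : R} {t : F} {B0 B1 : Subalgebra R F} {O1 O2 : ValuationSubring F} {e : ℕ}
variable {k : Type*} [Field k]

/-- **(T4) from the bricks, chosen representative, `hswap` form.** -/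
theorem t4_of_bricks_rep [HasPrincipalDivisors K F]
    (N : NodalNumData R K F π t B0 B1 O1 O2)
    (hac1 : ResidueAlgClosed π O1) (hac2 : ResidueAlgClosed π O2)
    (hth : ThickNodes π B0 B1 O1 O2 e)
    (hnodeEx : ∃ (B : Subalgebra R F) (𝔪 : Ideal B), IsNode π B0 B1 O1 O2 B 𝔪)
    {hπ1 : algebraMap R F π ∈ O1} {hπ2 : algebraMap R F π ∈ O2}
    {p : ℕ} (hp : p.Prime) (hchar : π ∣ (p : R)) (hperf : ∀ r : R, ∃ s : R, π ∣ s ^ p - r)
    (V : AddSubgroup (Pic0 K F)) (tors : ∀ v ∈ V, p • v = 0)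
    -- the good representatives
    (Good : Divisor.degZero (K := K) (F := F) → Prop)
    (hrep : ∀ v ∈ V, v ∈ Cart π B0 B1 O1 O2 hπ1 hπ2 0 →
      ∃ D : Divisor.degZero (K := K) (F := F), Pic0.mk D = v ∧
        HasLevel π B0 B1 O1 O2 0 (D : Divisor K F) ∧ Good D)
    -- NODE-TERM, for good representatives only
    (hnode : ∀ D : Divisor.degZero (K := K) (F := F), Pic0.mk D ∈ V →
      HasLevel π B0 B1 O1 O2 0 (D : Divisor K F) → Good D → ∀ f : F, f ≠ 0 →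
      (∀ P : Place K F, (p • (D : Divisor K F)) P = P.ord f) → O1.valuation f = 1 →
      ∃ b' : ℤ, O2.valuation f = O2.valuation (algebraMap R F π) ^ ((e : ℤ) * p * b'))
    -- the residue side
    (κ' κ'' : IntermediateField k (LaurentSeries k)) (hle : κ' ≤ κ'')
    (hkp : ∀ c : k, ∃ c0 : k, c0 ^ p = c)
    (red : ↥O1 →+* LaurentSeries k)
    (hred_mem : ∀ x : ↥O1, red x ∈ κ'')
    (hred_ker : ∀ x : ↥O1, red x = 0 → ∃ c ∈ O1, (x : F) = algebraMap R F π * c)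
    (hred_unit : ∀ x : ↥O1, red x ≠ 0 → ((x : F))⁻¹ ∈ O1)
    (hdesc : ∀ W ∈ κ'', (∃ x : ↥O1, red x = W ^ p) → ∃ y : ↥O1, red y = W)
    {σ : Type*} (ℓ : σ → ℕ) [∀ i, NeZero (ℓ i)] (a : σ → ℤ)
    (hCORE : ∀ (u : LaurentSeries k) (hu : u ∈ κ'), u ≠ 0 →
      (∀ Q : Place k ↥κ'', (p : ℤ) ∣ Q.ord (⟨u, hle hu⟩ : ↥κ'')) →
      (∀ i, Tform (ℓ i) (dlog u) = a i • dlog u) → ∃ w ∈ κ', w ^ p = u)
    (hHI : ∀ D : Divisor.degZero (K := K) (F := F),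
      HasLevel π B0 B1 O1 O2 0 (D : Divisor K F) → ∀ f : F, f ≠ 0 →
      (∀ P : Place K F, (p • (D : Divisor K F)) P = P.ord f) →
      ∀ hf1 : f ∈ O1, f⁻¹ ∈ O1 → f ∈ O2 → f⁻¹ ∈ O2 →
      ∀ Q : Place k ↥κ'', (p : ℤ) ∣ Q.ord (⟨red ⟨f, hf1⟩, hred_mem _⟩ : ↥κ''))
    (hPH : ∀ D : Divisor.degZero (K := K) (F := F), Pic0.mk D ∈ V → ∀ f : F, f ≠ 0 →
      (∀ P : Place K F, (p • (D : Divisor K F)) P = P.ord f) →
      ∀ hf1 : f ∈ O1, f⁻¹ ∈ O1 →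
      ∃ u ∈ κ', u ≠ 0 ∧ ∃ c : k, c ≠ 0 ∧ ∃ h ∈ κ'', h ≠ 0 ∧
        red ⟨f, hf1⟩ = HahnSeries.C c * u * h ^ p ∧
        ∀ i, Tform (ℓ i) (dlog u) = a i • dlog u)
    (hswap : ∀ D : Divisor.degZero (K := K) (F := F), Pic0.mk D ∈ V →
      HasLevel π B0 B1 O1 O2 0 (D : Divisor K F) → ∀ f : F, f ≠ 0 →
      (∀ P : Place K F, (p • (D : Divisor K F)) P = P.ord f) →
      f ∈ O1 → f⁻¹ ∈ O1 → f ∈ O2 → f⁻¹ ∈ O2 → ∀ φ1 : F, φ1 ∈ O1 → φ1⁻¹ ∈ O1 →
      (∃ r : R, ∃ c ∈ O1, f - algebraMap R F r * φ1 ^ p = algebraMap R F π * c) →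
      ∃ φ2 : F, φ2 ∈ O2 ∧ φ2⁻¹ ∈ O2 ∧
        ∃ r : R, ∃ c ∈ O2, f - algebraMap R F r * φ2 ^ p = algebraMap R F π * c) :
    ∀ v ∈ V, v ∈ Cart π B0 B1 O1 O2 hπ1 hπ2 0 → v ∈ Cart π B0 B1 O1 O2 hπ1 hπ2 1 := by
  intro v hv hv0
  obtain ⟨D, rfl, hlev0, hgood⟩ := hrep v hv hv0
  refine mem_cart_one_of_pth_powers_swap N hac1 hac2 hth hnodeEx hp hchar hperf D (tors _ hv) hlev0
    (hnode D hv hlev0 hgood) ?_ ?_
  · intro D' hD' hlev0' f hf0 hdiv hf1 hf1' hf2 hf2'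
    have hv' : Pic0.mk D' ∈ V := by rw [hD']; exact hv
    exact hcore1_of_bricks hp κ' κ'' hle hkp red hred_mem hred_ker hred_unit hdesc ℓ a hCORE f hf1
      (hHI D' hlev0' f hf0 hdiv hf1 hf1' hf2 hf2') (hPH D' hv' f hf0 hdiv hf1 hf1')
  · intro D' hD' hlev0' f hf0 hdiv hf1 hf1' hf2 hf2' φ1 hφ1 hφ1' hpow1
    have hv' : Pic0.mk D' ∈ V := by rw [hD']; exact hv
    exact hswap D' hv' hlev0' f hf0 hdiv hf1 hf1' hf2 hf2' φ1 hφ1 hφ1' hpow1

/-- **(T4) from the bricks, chosen representative, SIDE-TWO by push-forward along `β`.** -/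
theorem t4_of_bricks_rep_push [HasPrincipalDivisors K F]
    (N : NodalNumData R K F π t B0 B1 O1 O2)
    (hac1 : ResidueAlgClosed π O1) (hac2 : ResidueAlgClosed π O2)
    (hth : ThickNodes π B0 B1 O1 O2 e)
    (hnodeEx : ∃ (B : Subalgebra R F) (𝔪 : Ideal B), IsNode π B0 B1 O1 O2 B 𝔪)
    {hπ1 : algebraMap R F π ∈ O1} {hπ2 : algebraMap R F π ∈ O2}
    {p : ℕ} [Fact p.Prime] (hchar : π ∣ (p : R)) (hperf : ∀ r : R, ∃ s : R, π ∣ s ^ p - r)
    (V : AddSubgroup (Pic0 K F)) (tors : ∀ v ∈ V, p • v = 0)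
    (Good : Divisor.degZero (K := K) (F := F) → Prop)
    (hrep : ∀ v ∈ V, v ∈ Cart π B0 B1 O1 O2 hπ1 hπ2 0 →
      ∃ D : Divisor.degZero (K := K) (F := F), Pic0.mk D = v ∧
        HasLevel π B0 B1 O1 O2 0 (D : Divisor K F) ∧ Good D)
    (hnode : ∀ D : Divisor.degZero (K := K) (F := F), Pic0.mk D ∈ V →
      HasLevel π B0 B1 O1 O2 0 (D : Divisor K F) → Good D → ∀ f : F, f ≠ 0 →
      (∀ P : Place K F, (p • (D : Divisor K F)) P = P.ord f) → O1.valuation f = 1 →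
      ∃ b' : ℤ, O2.valuation f = O2.valuation (algebraMap R F π) ^ ((e : ℤ) * p * b'))
    (κ' κ'' : IntermediateField k (LaurentSeries k)) (hle : κ' ≤ κ'')
    (hkp : ∀ c : k, ∃ c0 : k, c0 ^ p = c)
    (red : ↥O1 →+* LaurentSeries k)
    (hred_mem : ∀ x : ↥O1, red x ∈ κ'')
    (hred_ker : ∀ x : ↥O1, red x = 0 → ∃ c ∈ O1, (x : F) = algebraMap R F π * c)
    (hred_unit : ∀ x : ↥O1, red x ≠ 0 → ((x : F))⁻¹ ∈ O1)
    (hdesc : ∀ W ∈ κ'', (∃ x : ↥O1, red x = W ^ p) → ∃ y : ↥O1, red y = W)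
    {σ : Type*} (ℓ : σ → ℕ) [∀ i, NeZero (ℓ i)] (a : σ → ℤ)
    (hCORE : ∀ (u : LaurentSeries k) (hu : u ∈ κ'), u ≠ 0 →
      (∀ Q : Place k ↥κ'', (p : ℤ) ∣ Q.ord (⟨u, hle hu⟩ : ↥κ'')) →
      (∀ i, Tform (ℓ i) (dlog u) = a i • dlog u) → ∃ w ∈ κ', w ^ p = u)
    (hHI : ∀ D : Divisor.degZero (K := K) (F := F),
      HasLevel π B0 B1 O1 O2 0 (D : Divisor K F) → ∀ f : F, f ≠ 0 →
      (∀ P : Place K F, (p • (D : Divisor K F)) P = P.ord f) →
      ∀ hf1 : f ∈ O1, f⁻¹ ∈ O1 → f ∈ O2 → f⁻¹ ∈ O2 →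
      ∀ Q : Place k ↥κ'', (p : ℤ) ∣ Q.ord (⟨red ⟨f, hf1⟩, hred_mem _⟩ : ↥κ''))
    (hPH : ∀ D : Divisor.degZero (K := K) (F := F), Pic0.mk D ∈ V → ∀ f : F, f ≠ 0 →
      (∀ P : Place K F, (p • (D : Divisor K F)) P = P.ord f) →
      ∀ hf1 : f ∈ O1, f⁻¹ ∈ O1 →
      ∃ u ∈ κ', u ≠ 0 ∧ ∃ c : k, c ≠ 0 ∧ ∃ h ∈ κ'', h ≠ 0 ∧
        red ⟨f, hf1⟩ = HahnSeries.C c * u * h ^ p ∧
        ∀ i, Tform (ℓ i) (dlog u) = a i • dlog u)
    {E : Type*} [Field E] [Algebra K E] [Algebra E F] [IsScalarTower K E F]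
    [FiniteDimensional E F] [Algebra.IsSeparable E F] [Algebra R E] [IsScalarTower R E F]
    {C0 C1 C01 : Subalgebra R E} {O' : ValuationSubring E} {B01 : Subalgebra R F}
    (hβ : Branch π p C0 C1 C01 O' O2 O1 B0 B1 B01) (hrank : finrank E F = p + 1)
    (hpush : ∀ D : Divisor.degZero (K := K) (F := F), Pic0.mk D ∈ V →
      HasLevel π B0 B1 O1 O2 0 (D : Divisor K F) →
      ∃ f₂ : E, PushData C0 C1 O' B0 B1 (D : Divisor K F) f₂) :
    ∀ v ∈ V, v ∈ Cart π B0 B1 O1 O2 hπ1 hπ2 0 → v ∈ Cart π B0 B1 O1 O2 hπ1 hπ2 1 := by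
  have hp : p.Prime := Fact.out
  intro v hv hv0
  obtain ⟨D, rfl, hlev0, hgood⟩ := hrep v hv hv0
  refine mem_cart_one_of_core_push N hac1 hac2 hth hnodeEx hchar hperf D (tors _ hv) hlev0
    (hnode D hv hlev0 hgood) ?_ hβ hrank ?_
  · intro D' hD' hlev0' f hf0 hdiv hf1 hf1' hf2 hf2'
    have hv' : Pic0.mk D' ∈ V := by rw [hD']; exact hv
    exact hcore1_of_bricks hp κ' κ'' hle hkp red hred_mem hred_ker hred_unit hdesc ℓ a hCORE f hf1
      (hHI D' hlev0' f hf0 hdiv hf1 hf1' hf2 hf2') (hPH D' hv' f hf0 hdiv hf1 hf1')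
  · intro D' hD' hlev0'
    have hv' : Pic0.mk D' ∈ V := by rw [hD']; exact hv
    exact hpush D' hv' hlev0'

end Fermat.Agent.M1.Old.T4MainRep60
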