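/-
M1 (S44), chapter OLD = T4, brick T4-J part 3 (helper98): **(T4) `V ∩ Cart 0 ⊆ Cart 1` AT THE MODEL OF
RECORD OVER `L`.**

`Old/T4MainRep60.t4_of_bricks_rep_push` instantiated in the frame of `ES/N34/ModelDefs9`:
`R = A ∩ L`, `K = L`, `F = L·F_{M'' p}` (`M''` the model level, `M' ∣ M''` the level of the Hecke
eigen-classes), `O1`, `O2` the two Gauss valuation rings, `B0`, `B1` the two charts,
`V = Transport53.VL (M'' * p) L Y` for a `p`-torsion subgroup `Y ⊆ J₀(M'' p)(ℚ̄)`,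
`k = ResidueField A`, `κ' = κ_k(M') ⊆ κ'' = κ_k(M'')`.

DISCHARGED HERE (from landed files): `hac1`, `hac2` (`Mod/ACModel98`), `hnodeEx` (`Fib/NodeExists61`),
`hchar`, `hperf` (`Mod/BaseFacts73`), `tors` (`Tri/Transport53`), `hle`, `hkp` (`k` algebraically
closed), `hred_ker`/`hred_unit` (from the kernel statement `red x = 0 ↔ x ∈ π O1` and the frame),
`hdesc` (`Old/Descent45` from the range statement), `hrep` (`Car/AvoidCusp53`, with
`Finite (R ⧸ π)` and `O1 ≠ O2` derived here), `Good` (the avoidance predicate of `AvoidCusp53`).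

STILL HYPOTHESES (suppliers not on main when this file was written), each in the posted literal of
its supplier: the nodal model `N` (`ES/P36/ModelQAt4.nodalNumData_four_at`, kept as a hypothesis so
that this file does not import the `ES/P36` closure), `hth` (THICK-NODES), the reduction map `red`
with `hred_mem`, `hred_zero`, `hrange` (`Old/RedMap8`), `hCORE` (`Link/CoreFinal44`), `hHI`
(`Old/HiLevelZero8`), `hPH` (`Old/PHAssembly60`), `hnode` (NODE-TERM), `hβ`, `hrank`, `hpush`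
(BRANCH / PUSH along the second degeneracy map).
-/
import Mathlib
import Fermat.Agent.M1.Old.T4MainRep60
import Fermat.Agent.M1.Old.Descent45
import Fermat.Agent.M1.Car.AvoidCusp53
import Fermat.Agent.M1.Car.TorsInst15
import Fermat.Agent.M1.Fib.NodeExists61
import Fermat.Agent.M1.Mod.ACModel98
import Fermat.Agent.M1.Mod.BaseFacts73
import Fermat.Agent.M1.Tri.Transport53

set_option autoImplicit false
set_option linter.unusedSectionVars false
set_option linter.unusedVariables false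
set_option linter.style.haveILetI false
set_option synthInstance.maxHeartbeats 400000

noncomputable section

open AlgebraicCurve HahnSeries ModularCurve Polynomial

namespace Fermat.Agent.M1.Old.T4Inst98

open Module Fermat.Agent.ES.N34.NodalCore13 Fermat.Agent.ES.N34.NumData13
  Fermat.Agent.M1.Car.Defs43 Fermat.Agent.M1.Mon.WildPL43 Fermat.Agent.M1.Node.Thick25
  Fermat.Agent.M1.Car.NodeFrame58
  Fermat.Agent.M1.Fib.Constants98 Fermat.Agent.M1.Link.ThetaLog88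
  Fermat.Agent.M1.NRM.ToricLead88 Fermat.Agent.M1.NRM.PushReg88

/-! ### Generic part (any `NodalNumData`) -/

section Generic

variable {R K F : Type*} [CommRing R] [Field K] [Field F] [Algebra R K] [Algebra K F]
  [Algebra R F] [IsScalarTower R K F]
  {π : R} {t : F} {B0 B1 : Subalgebra R F} {O1 O2 : ValuationSubring F} {e : ℕ}

/-- The avoidance predicate produced by `Car/AvoidCusp53.exists_ord_rep_avoiding`: the divisor
avoids the nodes and the closed points of the special fibre over the zeros of `G0(t)` (chart `0`)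
and `G1(t⁻¹)` (chart `1`). -/
def Avoids (π : R) (B0 B1 : Subalgebra R F) (O1 O2 : ValuationSubring F) {t : F}
    (ht0 : t ∈ B0) (ht1 : t⁻¹ ∈ B1) (G0 G1 : R[X]) (D : Divisor K F) : Prop :=
  (∀ (B : Subalgebra R F) (𝔪 : Ideal B), IsNode π B0 B1 O1 O2 B 𝔪 →
      ∀ P : Place K F, Through B 𝔪 P → D P = 0) ∧
  (∀ 𝔪 : Ideal B0, 𝔪.IsMaximal → algebraMap R B0 π ∈ 𝔪 → aeval (⟨t, ht0⟩ : B0) G0 ∈ 𝔪 →
      ∀ P : Place K F, Through B0 𝔪 P → D P = 0) ∧
  (∀ 𝔪 : Ideal B1, 𝔪.IsMaximal → algebraMap R B1 π ∈ 𝔪 → aeval (⟨t⁻¹, ht1⟩ : B1) G1 ∈ 𝔪 →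
      ∀ P : Place K F, Through B1 𝔪 P → D P = 0)

/-- The two components of a nodal model with thick nodes are different. -/
theorem O1_ne_O2_of_thickNodes (N : NodalNumData R K F π t B0 B1 O1 O2)
    (hth : ThickNodes π B0 B1 O1 O2 e)
    (hnodeEx : ∃ (B : Subalgebra R F) (𝔪 : Ideal B), IsNode π B0 B1 O1 O2 B 𝔪) : O1 ≠ O2 := by
  obtain ⟨-, ⟨z, -, hz1, hz2⟩⟩ :=
    Fermat.Agent.M1.Fib.BranchVal58.exists_z_of_thickNodes N hth hnodeEx
  intro h
  apply hz2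
  rw [← h]
  exact hz1

/-- `hred_unit` from the kernel statement and the frame: an element of `O1` outside `π O1` is a
unit of `O1`. -/
theorem inv_mem_of_red_ne_zero {S : Type*} [Zero S] (hu : IsUnifOf O1 (algebraMap R F π))
    (red : ↥O1 → S)
    (hker : ∀ x : ↥O1, (∃ c ∈ O1, (x : F) = algebraMap R F π * c) → red x = 0)
    (x : ↥O1) (hx : red x ≠ 0) : ((x : F))⁻¹ ∈ O1 := by
  by_contra h
  exact hx (hker x (hu.unif _ x.2 h))

/-- `(p • D) P = p * D P`. -/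
theorem nsmul_divisor_apply (p : ℕ) (D : Divisor K F) (P : Place K F) :
    (p • D) P = (p : ℤ) * D P := by
  rw [Finsupp.smul_apply, nsmul_eq_mul]

/-- Adapter for (HI): `Old/HiLevelZero8.hi_of_level_zero` is stated for a plain divisor `D` with
`(p : ℤ) * D P = P.ord g` and `g ∈ O2 ∧ g⁻¹ ∈ O2`; this is the `hHI` binder of
`T4MainRep60.t4_of_bricks_rep_push`. -/
theorem hHI_of_mul_form {k : Type*} [Field k] {κ'' : IntermediateField k (LaurentSeries k)}
    {p : ℕ} (red : ↥O1 →+* LaurentSeries k) (hred_mem : ∀ x : ↥O1, red x ∈ κ'')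
    (hi : ∀ (D : Divisor K F) {g : F}, g ≠ 0 → (∀ P : Place K F, (p : ℤ) * D P = P.ord g) →
      HasLevel π B0 B1 O1 O2 0 D → ∀ hg1 : g ∈ O1, g⁻¹ ∈ O1 → (g ∈ O2 ∧ g⁻¹ ∈ O2) →
      ∀ Q : Place k ↥κ'', (p : ℤ) ∣ Q.ord (⟨red ⟨g, hg1⟩, hred_mem _⟩ : ↥κ'')) :
    ∀ D : Divisor.degZero (K := K) (F := F),
      HasLevel π B0 B1 O1 O2 0 (D : Divisor K F) → ∀ f : F, f ≠ 0 →
      (∀ P : Place K F, (p • (D : Divisor K F)) P = P.ord f) →
      ∀ hf1 : f ∈ O1, f⁻¹ ∈ O1 → f ∈ O2 → f⁻¹ ∈ O2 →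
      ∀ Q : Place k ↥κ'', (p : ℤ) ∣ Q.ord (⟨red ⟨f, hf1⟩, hred_mem _⟩ : ↥κ'') :=
  fun D hlev f hf hdiv hf1 hf1' hf2 hf2' Q =>
    hi (D : Divisor K F) hf (fun P => by rw [← hdiv P, nsmul_divisor_apply]) hlev hf1 hf1'
      ⟨hf2, hf2'⟩ Q

/-- Adapter for PUSH: the `hpush` of `Car/HtorWire15.htor_of_pushData` (both degeneracy maps, every
representative) gives the `hpush` of `T4MainRep60.t4_of_bricks_rep_push` (second degeneracy map,
level-`0` representatives). -/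
theorem hpush_of_both {E₁ E₂ : Type*} [Field E₁] [Field E₂]
    [Algebra K E₁] [Algebra K E₂] [Algebra R E₁] [Algebra R E₂]
    [Algebra E₁ F] [IsScalarTower K E₁ F] [IsScalarTower R E₁ F] [FiniteDimensional E₁ F]
    [Algebra.IsSeparable E₁ F]
    [Algebra E₂ F] [IsScalarTower K E₂ F] [IsScalarTower R E₂ F] [FiniteDimensional E₂ F]
    [Algebra.IsSeparable E₂ F]
    {C0 C1 : Subalgebra R E₁} {O' : ValuationSubring E₁}
    {D0 D1 : Subalgebra R E₂} {O'' : ValuationSubring E₂}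
    (V : AddSubgroup (Pic0 K F))
    (hpush : ∀ v ∈ V, ∀ D : Divisor.degZero (K := K) (F := F), Pic0.mk D = v →
      ∃ (f₁ : E₁) (f₂ : E₂), PushData C0 C1 O' B0 B1 (D : Divisor K F) f₁ ∧
        PushData D0 D1 O'' B0 B1 (D : Divisor K F) f₂) :
    ∀ D : Divisor.degZero (K := K) (F := F), Pic0.mk D ∈ V →
      HasLevel π B0 B1 O1 O2 0 (D : Divisor K F) →
      ∃ f₂ : E₂, PushData D0 D1 O'' B0 B1 (D : Divisor K F) f₂ := by
  intro D hD _
  obtain ⟨_, f₂, _, h⟩ := hpush _ hD D rfl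
  exact ⟨f₂, h⟩

end Generic

/-! ### The model of record over `L` -/

section Model

open Fermat.Agent.RED.Interface4 Fermat.Agent.RED.PUR.GaussGen8 Fermat.Agent.RED.BASE.EtaQuot12
  Fermat.Agent.RED.DESC Fermat.Agent.ES.N34.ModelDefs9 Fermat.Agent.M1.Tri.Transport53

/-- Shortcut to the instance found (slowly) by instance search (as in `Car/RatClass25`,
`Tri/Transport53`). -/
local instance (priority := 5000) algKFK (M : ℕ) (K : IntermediateField ℚ Qbar) :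
    Algebra K (FK M K) := SubalgebraClass.toAlgebra (FK M K)

variable {A : ValuationSubring Qbar} {L : IntermediateField ℚ Qbar} [FiniteDimensional ℚ L]

/-- `hunif` (the `PeuRamData.unif` shape used by `Mod/BaseFacts73`) from `IsUnif`. -/
theorem hunif_of_isUnif {ϖ : ↥(AK A L)} (hϖ : IsUnif (AK A L) ϖ) :
    ∀ x : ↥(AK A L), ¬ IsUnit x ↔ ϖ ∣ x := by
  intro x
  rw [← mem_nonunits_iff, ← IsLocalRing.mem_maximalIdeal, hϖ.max_eq, Ideal.mem_span_singleton]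

/-- The residue ring `(A ∩ L) ⧸ (ϖ)` is finite. -/
theorem finite_quotient_span {p : ℕ} (hp : p.Prime) (hA : A.LiesOverPrime p) {ϖ : ↥(AK A L)}
    (hϖ : IsUnif (AK A L) ϖ) : Finite (↥(AK A L) ⧸ (Ideal.span {ϖ} : Ideal ↥(AK A L))) := by
  have h := NumberFieldDVR27.finite_residueField_AK A L hp.ne_zero hA
  rw [← hϖ.max_eq]
  exact h

set_option maxHeartbeats 4000000 in
/-- **(T4) at the model of record over `L`** (general form: any avoidance polynomials `G0`, `G1`,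
any reduction map `red` with the three properties of `Old/RedMap8`). -/
theorem t4_model (M' M'' p : ℕ) [NeZero M'] [NeZero M''] [NeZero p] [Fact p.Prime]
    (hM : M' ∣ M'') (hA : A.LiesOverPrime p)
    {ϖ : ↥(AK A L)} (hϖ : IsUnif (AK A L) ϖ) (hE : FK (M'' * p) L ≤ fracField (AK A L))
    {n₀ e₀ : ℕ} [NeZero n₀] (ht : tq (↥L) n₀ e₀ ∈ FK M'' L)
    -- the nodal model (`ES/P36/ModelQAt4.nodalNumData_four_at`) and THICK-NODES
    (N : NodalNumData ↥(AK A L) ↥L ↥(FK (M'' * p) L) ϖ (tN p ht) (B0 A p ht) (B1 A p ht)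
      (O1 M'' p hϖ hE) (O2 M'' p hϖ hE))
    {e : ℕ} (hth : ThickNodes ϖ (B0 A p ht) (B1 A p ht) (O1 M'' p hϖ hE) (O2 M'' p hϖ hE) e)
    {hπ1 : algebraMap ↥(AK A L) ↥(FK (M'' * p) L) ϖ ∈ O1 M'' p hϖ hE}
    {hπ2 : algebraMap ↥(AK A L) ↥(FK (M'' * p) L) ϖ ∈ O2 M'' p hϖ hE}
    -- the group
    (Y : AddSubgroup (JZero (M'' * p))) (htors : ∀ y ∈ Y, p • y = 0)
    -- the avoidance polynomials (SEP-K) and NODE-TERM for the avoiding representatives
    {G0 G1 : (↥(AK A L))[X]}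
    (hG0 : G0.map (Ideal.Quotient.mk (Ideal.span {ϖ} : Ideal ↥(AK A L))) ≠ 0)
    (hG1 : G1.map (Ideal.Quotient.mk (Ideal.span {ϖ} : Ideal ↥(AK A L))) ≠ 0)
    (hnode : ∀ D : Divisor.degZero (K := ↥L) (F := ↥(FK (M'' * p) L)),
      Pic0.mk D ∈ VL (M'' * p) L Y →
      HasLevel ϖ (B0 A p ht) (B1 A p ht) (O1 M'' p hϖ hE) (O2 M'' p hϖ hE) 0
        (D : Divisor ↥L ↥(FK (M'' * p) L)) →
      Avoids ϖ (B0 A p ht) (B1 A p ht) (O1 M'' p hϖ hE) (O2 M'' p hϖ hE)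
        N.model.t_mem N.model.tinv_mem G0 G1 (D : Divisor ↥L ↥(FK (M'' * p) L)) →
      ∀ f : ↥(FK (M'' * p) L), f ≠ 0 →
      (∀ P : Place ↥L ↥(FK (M'' * p) L),
        (p • (D : Divisor ↥L ↥(FK (M'' * p) L))) P = P.ord f) →
      (O1 M'' p hϖ hE).valuation f = 1 →
      ∃ b' : ℤ, (O2 M'' p hϖ hE).valuation f =
        (O2 M'' p hϖ hE).valuation (algebraMap ↥(AK A L) ↥(FK (M'' * p) L) ϖ) ^
          ((e : ℤ) * p * b'))
    -- (R) RED-MAP (`Old/RedMap8`: `red1S_mem`, `red1S_eq_zero_iff`, `range_red1S`)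
    (red : ↥(O1 M'' p hϖ hE) →+* LaurentSeries (IsLocalRing.ResidueField ↥A))
    (hred_mem : ∀ x : ↥(O1 M'' p hϖ hE),
      red x ∈ modularFunctionFieldFullC (IsLocalRing.ResidueField ↥A) M'')
    (hred_zero : ∀ x : ↥(O1 M'' p hϖ hE), red x = 0 ↔
      ∃ c ∈ O1 M'' p hϖ hE,
        (x : ↥(FK (M'' * p) L)) = algebraMap ↥(AK A L) ↥(FK (M'' * p) L) ϖ * c)
    (hrange : ∀ y : LaurentSeries (IsLocalRing.ResidueField ↥A),
      (∃ x : ↥(O1 M'' p hϖ hE), red x = y) ↔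
        ∃ y₀ ∈ modularFunctionFieldFullC (IsLocalRing.ResidueField ↥(AK A L)) M'',
          coeffMap (NumberFieldDVR27.resMap A L) y₀ = y)
    -- (CORE) (`Link/CoreFinal44.link_core_lcm`)
    {σ : Type*} (ℓ : σ → ℕ) [∀ i, NeZero (ℓ i)] (a : σ → ℤ)
    (hCORE : ∀ (u : LaurentSeries (IsLocalRing.ResidueField ↥A))
      (hu : u ∈ modularFunctionFieldFullC (IsLocalRing.ResidueField ↥A) M'), u ≠ 0 →
      (∀ Q : Place (IsLocalRing.ResidueField ↥A)
          ↥(modularFunctionFieldFullC (IsLocalRing.ResidueField ↥A) M''),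
        (p : ℤ) ∣ Q.ord (⟨u, full_degeneracyC_le (IsLocalRing.ResidueField ↥A) hM hu⟩ :
          ↥(modularFunctionFieldFullC (IsLocalRing.ResidueField ↥A) M''))) →
      (∀ i, Tform (ℓ i) (dlog u) = a i • dlog u) →
      ∃ w ∈ modularFunctionFieldFullC (IsLocalRing.ResidueField ↥A) M', w ^ p = u)
    -- (HI) (`Old/HiLevelZero8.hi_of_level_zero`)
    (hHI : ∀ D : Divisor.degZero (K := ↥L) (F := ↥(FK (M'' * p) L)),
      HasLevel ϖ (B0 A p ht) (B1 A p ht) (O1 M'' p hϖ hE) (O2 M'' p hϖ hE) 0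
        (D : Divisor ↥L ↥(FK (M'' * p) L)) →
      ∀ f : ↥(FK (M'' * p) L), f ≠ 0 →
      (∀ P : Place ↥L ↥(FK (M'' * p) L),
        (p • (D : Divisor ↥L ↥(FK (M'' * p) L))) P = P.ord f) →
      ∀ hf1 : f ∈ O1 M'' p hϖ hE, f⁻¹ ∈ O1 M'' p hϖ hE → f ∈ O2 M'' p hϖ hE →
      f⁻¹ ∈ O2 M'' p hϖ hE →
      ∀ Q : Place (IsLocalRing.ResidueField ↥A)
          ↥(modularFunctionFieldFullC (IsLocalRing.ResidueField ↥A) M''),
        (p : ℤ) ∣ Q.ord (⟨red ⟨f, hf1⟩, hred_mem _⟩ :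
          ↥(modularFunctionFieldFullC (IsLocalRing.ResidueField ↥A) M'')))
    -- (PH) PULLBACK + HECKE (`Old/PHAssembly60.hPH_of_eigen`)
    (hPH : ∀ D : Divisor.degZero (K := ↥L) (F := ↥(FK (M'' * p) L)),
      Pic0.mk D ∈ VL (M'' * p) L Y → ∀ f : ↥(FK (M'' * p) L), f ≠ 0 →
      (∀ P : Place ↥L ↥(FK (M'' * p) L),
        (p • (D : Divisor ↥L ↥(FK (M'' * p) L))) P = P.ord f) →
      ∀ hf1 : f ∈ O1 M'' p hϖ hE, f⁻¹ ∈ O1 M'' p hϖ hE →
      ∃ u ∈ modularFunctionFieldFullC (IsLocalRing.ResidueField ↥A) M', u ≠ 0 ∧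
        ∃ c : IsLocalRing.ResidueField ↥A, c ≠ 0 ∧
        ∃ h ∈ modularFunctionFieldFullC (IsLocalRing.ResidueField ↥A) M'', h ≠ 0 ∧
          red ⟨f, hf1⟩ = HahnSeries.C c * u * h ^ p ∧
          ∀ i, Tform (ℓ i) (dlog u) = a i • dlog u)
    -- SIDE-TWO: BRANCH and PUSH along the second degeneracy map
    {E : Type*} [Field E] [Algebra ↥L E] [Algebra E ↥(FK (M'' * p) L)]
    [IsScalarTower ↥L E ↥(FK (M'' * p) L)] [FiniteDimensional E ↥(FK (M'' * p) L)]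
    [Algebra.IsSeparable E ↥(FK (M'' * p) L)] [Algebra ↥(AK A L) E]
    [IsScalarTower ↥(AK A L) E ↥(FK (M'' * p) L)]
    {C0 C1 C01 : Subalgebra ↥(AK A L) E} {O' : ValuationSubring E}
    {B01 : Subalgebra ↥(AK A L) ↥(FK (M'' * p) L)}
    (hβ : Branch ϖ p C0 C1 C01 O' (O2 M'' p hϖ hE) (O1 M'' p hϖ hE) (B0 A p ht) (B1 A p ht) B01)
    (hrank : finrank E ↥(FK (M'' * p) L) = p + 1)
    (hpush : ∀ D : Divisor.degZero (K := ↥L) (F := ↥(FK (M'' * p) L)),
      Pic0.mk D ∈ VL (M'' * p) L Y →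
      HasLevel ϖ (B0 A p ht) (B1 A p ht) (O1 M'' p hϖ hE) (O2 M'' p hϖ hE) 0
        (D : Divisor ↥L ↥(FK (M'' * p) L)) →
      ∃ f₂ : E, PushData C0 C1 O' (B0 A p ht) (B1 A p ht)
        (D : Divisor ↥L ↥(FK (M'' * p) L)) f₂) :
    ∀ v ∈ VL (M'' * p) L Y,
      v ∈ Cart ϖ (B0 A p ht) (B1 A p ht) (O1 M'' p hϖ hE) (O2 M'' p hϖ hE) hπ1 hπ2 0 →
      v ∈ Cart ϖ (B0 A p ht) (B1 A p ht) (O1 M'' p hϖ hE) (O2 M'' p hϖ hE) hπ1 hπ2 1 := by
  have hp : p.Prime := Fact.out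
  have hunif := hunif_of_isUnif hϖ
  have hac1 := Fermat.Agent.M1.Mod.ACModel98.residueAlgClosed_O1 M'' p hϖ hE
  have hac2 := Fermat.Agent.M1.Mod.ACModel98.residueAlgClosed_O2 M'' p hϖ hE
  have hnodeEx := Fermat.Agent.M1.Car.TorsInst15.node_of_hasNode
    (Fermat.Agent.M1.Fib.NodeExists61.hasNode_of_numData N)
  have hchar : ϖ ∣ ((p : ℕ) : ↥(AK A L)) := Fermat.Agent.M1.Mod.BaseFacts73.hchar_AK hunif hA
  have hperf := Fermat.Agent.M1.Mod.BaseFacts73.hperf_AK hunif hp hA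
  haveI := finite_quotient_span hp hA hϖ
  have hne := O1_ne_O2_of_thickNodes N hth hnodeEx
  have Fr := Fermat.Agent.M1.Fib.FrameInst98.frame_of_numData N hac1 hac2
  haveI : CharP (IsLocalRing.ResidueField ↥A) p :=
    Fermat.Agent.ES.KRON.KronInst10.charP_residueField A hp hA
  haveI : IsAlgClosed (IsLocalRing.ResidueField ↥A) :=
    Fermat.Agent.ES.KRON.KronInst10.isAlgClosed_residueField A
  haveI : CharP (IsLocalRing.ResidueField ↥(AK A L)) p :=
    NumberFieldDVR27.charP_residueField_AK A L hp hA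
  haveI : Finite (IsLocalRing.ResidueField ↥(AK A L)) :=
    NumberFieldDVR27.finite_residueField_AK A L hp.ne_zero hA
  refine Fermat.Agent.M1.Old.T4MainRep60.t4_of_bricks_rep_push N hac1 hac2 hth hnodeEx hchar hperf
    (VL (M'' * p) L Y) (tors_VL htors)
    (fun D => Avoids ϖ (B0 A p ht) (B1 A p ht) (O1 M'' p hϖ hE) (O2 M'' p hϖ hE)
      N.model.t_mem N.model.tinv_mem G0 G1 (D : Divisor ↥L ↥(FK (M'' * p) L)))
    ?_ hnode (modularFunctionFieldFullC (IsLocalRing.ResidueField ↥A) M')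
    (modularFunctionFieldFullC (IsLocalRing.ResidueField ↥A) M'')
    (full_degeneracyC_le (IsLocalRing.ResidueField ↥A) hM) ?_ red hred_mem ?_ ?_ ?_ ℓ a hCORE hHI
    hPH hβ hrank hpush
  · -- hrep
    intro v _ hv0
    obtain ⟨D, hD, hlev, h1, h2, h3⟩ :=
      Fermat.Agent.M1.Car.AvoidCusp53.exists_ord_rep_avoiding N hne hG0 hG1 hv0
    exact ⟨D, hD, hlev, h1, h2, h3⟩
  · -- hkp
    intro c
    exact IsAlgClosed.exists_pow_nat_eq c hp.pos
  · -- hred_ker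
    intro x hx
    exact (hred_zero x).mp hx
  · -- hred_unit
    intro x hx
    exact inv_mem_of_red_ne_zero Fr.unif1 (fun x => red x) (fun x h => (hred_zero x).mpr h) x hx
  · -- hdesc
    intro W _ hW
    exact Fermat.Agent.M1.Old.Descent45.hdesc_of_range (p := p) (NumberFieldDVR27.resMap A L) M''
      (fun x => red x) hrange W hW

end Model

end Fermat.Agent.M1.Old.T4Inst98
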