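/-
M1 (S44), chapter OLD = T4, brick T4-NODE (helper18): **the `hnode` binder of (T4) at the model of
record over `L`** (`Old/T4Inst98.t4_model`, `Old/T4MainRep60.t4_of_bricks_rep_push`).

Frame of `ES/N34/ModelDefs9` at `(n₀, e₀) = (4, 8)`: `R = A ∩ L`, `F = L·F_{M'' p}`, `4 ∣ M''`,
`O1`, `O2` the two Gauss valuation rings, `B0`, `B1` the two charts, `V = Transport53.VL (M'' p) L Y`.
The avoidance polynomials are helper16's `CuspSepR16.denR`, `denInfR` (the denominators of `j` in the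
two charts), the `Good` predicate is `NodeTermGood18.Good` (the same three clauses as the avoidance
predicate of `Car/AvoidCusp53.exists_ord_rep_avoiding`).

* `inv_four_mem` : `4 ∈ Aˣ` for `A` over an odd prime;
* `hG0_model`, `hG1_model` : the two non-vanishing hypotheses `hG0`, `hG1` of (T4);
* `hnode_of_eigenY` : **`hnode`** for any `Y ⊆ J₀(M'' p)` on which `T_l = c`, `p ∤ l + 1 - c`;
* `hnode_auxV_le`, `hnode_auxV` : **`hnode`** at `M'' = lcm(M', 4)`,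
  `Y ≤ auxV M' p (eigenTors p (M' p) S a)`, from the data of `Iface44.CoreTors`.

Everything else (`hac1`, `hac2`, one node, `π ∣ p`, `j ∈ F`, cusp separation, (AV), the eigen-norm)
is discharged inside.
-/
import Mathlib
import Fermat.Agent.M1.NRM.SideAvoidFinal18
import Fermat.Agent.M1.Glue.AuxLevel47
import Fermat.Agent.M1.Glue.EigenTors44
import Fermat.Agent.M1.Tri.Transport53
import Fermat.Agent.M1.Car.TorsInst15
import Fermat.Agent.M1.Fib.NodeExists61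
import Fermat.Agent.M1.Mod.ACModel98
import Fermat.Agent.M1.Mod.BaseFacts73

set_option autoImplicit false
set_option linter.unusedSectionVars false
set_option linter.unusedVariables false
set_option linter.style.haveILetI false
set_option synthInstance.maxHeartbeats 400000
set_option maxHeartbeats 1600000

noncomputable section

namespace Fermat.Agent.M1.Old.T4Node18

open AlgebraicCurve ModularCurve Polynomial
open Fermat.Agent.X0 Fermat.Agent.X0.Analytic Fermat.Agent.X0.FF Fermat.Agent.RED.Interface4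
open Fermat.Agent.RED.PUR.GaussGen8 Fermat.Agent.RED.DESC
open Fermat.Agent.RED.BASE.Hauptmodul12 Fermat.Agent.RED.BASE.EtaQuot12
open Fermat.Agent.ES.N34.NodalCore13 Fermat.Agent.ES.N34.NumData13 Fermat.Agent.ES.N34.ModelDefs9
open Fermat.Agent.M1.Car.Defs43 Fermat.Agent.M1.Mon.WildPL43
open Fermat.Agent.M1.Car.NodeFrame58
open Fermat.Agent.M1.NRM.NodeTermGood18 Fermat.Agent.M1.NRM.SideAvoidFinal18
open Fermat.Agent.M1.NRM.CuspSepR16
open Fermat.Agent.M1.Fib.Constants98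
open Fermat.Agent.M1.Tri.Transport53
open Fermat.Agent.M1.Glue.AuxLevel47 Fermat.Agent.M1.Glue.EigenTors44
open Fermat.Agent.ES.N35.QNewCore19

/-- Shortcut to the instance found (slowly) by instance search. -/
local instance (priority := 5000) algKFK (M : ℕ) (K : IntermediateField ℚ Qbar) :
    Algebra K (FK M K) := SubalgebraClass.toAlgebra (FK M K)

variable {A : ValuationSubring Qbar} {L : IntermediateField ℚ Qbar} [FiniteDimensional ℚ L]

/-! ### Small facts -/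

theorem coprime_four {p : ℕ} (hp : p.Prime) (hp2 : p ≠ 2) : Nat.Coprime 4 p := by
  have h : Nat.Coprime (2 ^ 2) p :=
    Nat.Coprime.pow_left 2 ((Nat.coprime_primes Nat.prime_two hp).mpr (Ne.symm hp2))
  exact h

/-- `4` is a unit of a valuation ring of `ℚbar` over an odd prime. -/
theorem inv_four_mem {p : ℕ} (hp : p.Prime) (hp2 : p ≠ 2) (hA : A.LiesOverPrime p) :
    (((4 : ℕ) : Kbar))⁻¹ ∈ A :=
  inv_natCast_mem A (coprime_four hp hp2) hA

/-- `hunif` (the shape used by `Mod/BaseFacts73`) from `IsUnif`. -/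
theorem hunif_of_isUnif {ϖ : ↥(AK A L)} (hϖ : IsUnif (AK A L) ϖ) :
    ∀ x : ↥(AK A L), ¬ IsUnit x ↔ ϖ ∣ x := by
  intro x
  rw [← mem_nonunits_iff, ← IsLocalRing.mem_maximalIdeal, hϖ.max_eq, Ideal.mem_span_singleton]

/-- `(ϖ) ≠ (1)`. -/
theorem span_ne_top {ϖ : ↥(AK A L)} (hϖ : IsUnif (AK A L) ϖ) :
    (Ideal.span {ϖ} : Ideal ↥(AK A L)) ≠ ⊤ := by
  rw [← hϖ.max_eq]
  exact Ideal.IsPrime.ne_top'

/-- **`hG0` of (T4)** for `G0 = denR` (the denominator of `j` in the chart `0`). -/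
theorem hG0_model {p : ℕ} (hp : p.Prime) (hp2 : p ≠ 2) (hA : A.LiesOverPrime p)
    {ϖ : ↥(AK A L)} (hϖ : IsUnif (AK A L) ϖ) :
    (denR baseHyp_four A (inv_four_mem hp hp2 hA) L).map
      (Ideal.Quotient.mk (Ideal.span {ϖ} : Ideal ↥(AK A L))) ≠ 0 :=
  map_denR_ne_zero baseHyp_four A (inv_four_mem hp hp2 hA) L (span_ne_top hϖ)

/-- **`hG1` of (T4)** for `G1 = denInfR` (the denominator of `j` in the chart `1`). -/
theorem hG1_model {p : ℕ} (hp : p.Prime) (hp2 : p ≠ 2) (hA : A.LiesOverPrime p)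
    {ϖ : ↥(AK A L)} (hϖ : IsUnif (AK A L) ϖ) :
    (denInfR baseHyp_four A (inv_four_mem hp hp2 hA) L).map
      (Ideal.Quotient.mk (Ideal.span {ϖ} : Ideal ↥(AK A L))) ≠ 0 :=
  map_denInfR_ne_zero baseHyp_four A (inv_four_mem hp hp2 hA) L (span_ne_top hϖ)

/-! ### `hnode` for a subgroup on which `T_l` is a scalar -/

section General

variable {p : ℕ} [NeZero p] {M'' : ℕ} [NeZero M'']

/-- **The `hnode` binder of (T4)** (`Old/T4Inst98.t4_model`) for any subgroup `Y ⊆ J₀(M'' p)(ℚbar)` on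
which a Hecke operator `T_l` (`l ∤ M'' p`) acts by a scalar `c` with `p ∤ l + 1 - c`. -/
theorem hnode_of_eigenY (hp : p.Prime) (hp2 : p ≠ 2) (hM4 : 4 ∣ M'') (hA : A.LiesOverPrime p)
    {ϖ : ↥(AK A L)} (hϖ : IsUnif (AK A L) ϖ) (hE : FK (M'' * p) L ≤ fracField (AK A L))
    (ht : tq (↥L) 4 8 ∈ FK M'' L)
    (N : NodalNumData ↥(AK A L) ↥L ↥(FK (M'' * p) L) ϖ (tN p ht) (B0 A p ht) (B1 A p ht)
      (O1 M'' p hϖ hE) (O2 M'' p hϖ hE))
    {e : ℕ} (hth : ThickNodes ϖ (B0 A p ht) (B1 A p ht) (O1 M'' p hϖ hE) (O2 M'' p hϖ hE) e)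
    (Y : AddSubgroup (JZero (M'' * p)))
    (l : Nat.Primes) (hlN : ¬ (l : ℕ) ∣ M'' * p) (hlp : (l : ℕ) ≠ p) (c : ℤ)
    (hc : ¬ (p : ℤ) ∣ ((l : ℕ) : ℤ) + 1 - c)
    (heigY : ∀ y ∈ Y, heckeOperatorBar (M'' * p) l y = c • y) :
    ∀ D : Divisor.degZero (K := ↥L) (F := ↥(FK (M'' * p) L)),
      Pic0.mk D ∈ VL (M'' * p) L Y →
      HasLevel ϖ (B0 A p ht) (B1 A p ht) (O1 M'' p hϖ hE) (O2 M'' p hϖ hE) 0
        (D : Divisor ↥L ↥(FK (M'' * p) L)) →
      Good ϖ (B0 A p ht) (B1 A p ht) (O1 M'' p hϖ hE) (O2 M'' p hϖ hE)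
        N.model.t_mem N.model.tinv_mem (denR baseHyp_four A (inv_four_mem hp hp2 hA) L)
        (denInfR baseHyp_four A (inv_four_mem hp hp2 hA) L)
        (D : Divisor ↥L ↥(FK (M'' * p) L)) →
      ∀ f : ↥(FK (M'' * p) L), f ≠ 0 →
      (∀ P : Place ↥L ↥(FK (M'' * p) L),
        (p • (D : Divisor ↥L ↥(FK (M'' * p) L))) P = P.ord f) →
      (O1 M'' p hϖ hE).valuation f = 1 →
      ∃ b' : ℤ, (O2 M'' p hϖ hE).valuation f =
        (O2 M'' p hϖ hE).valuation (algebraMap ↥(AK A L) ↥(FK (M'' * p) L) ϖ) ^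
          ((e : ℤ) * p * b') := by
  intro D hD _ hG
  have hunif := hunif_of_isUnif hϖ
  have hac1 := Fermat.Agent.M1.Mod.ACModel98.residueAlgClosed_O1 M'' p hϖ hE
  have hac2 := Fermat.Agent.M1.Mod.ACModel98.residueAlgClosed_O2 M'' p hϖ hE
  obtain ⟨Bn, 𝔪₀, hs⟩ := Fermat.Agent.M1.Car.TorsInst15.node_of_hasNode
    (Fermat.Agent.M1.Fib.NodeExists61.hasNode_of_numData N)
  have hchar : ϖ ∣ ((p : ℕ) : ↥(AK A L)) := Fermat.Agent.M1.Mod.BaseFacts73.hchar_AK hunif hA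
  exact hnode_goodModel baseHyp_four (inv_four_mem hp hp2 hA) hM4 (coprime_four hp hp2) N hac1 hac2
    hth hs l hlN hp hlp hA hchar c hc
    (jL := ⟨jqModC ↥L,
      Fermat.Agent.RED.PUR.DegBaseChange25.jqModC_mem_laurentBaseChange (↥L) (M'' * p)⟩) rfl D
    (heigY _ (mem_VL.mp hD)) hG

end General

/-! ### `hnode` at the model level `lcm(M', 4) · p` for the eigen-subgroup -/

section Aux

variable {p : ℕ} [hpF : Fact p.Prime] [NeZero p] {M' : ℕ} [NeZero M']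

/-- `T_l = a l` on `auxV M' p (eigenTors p (M' p) S a)` for a prime `l ∉ S` (`S ∋ p, 2` and the primes
of `M'`). -/
theorem eigen_auxV_eigenTors {S : Finset ℕ} (hpS : p ∈ S) (h2S : 2 ∈ S)
    (hM'S : ∀ r : ℕ, r.Prime → r ∣ M' → r ∈ S) (a : ℕ → ℤ) {l : ℕ} (hl : l.Prime) (hlS : l ∉ S) :
    ¬ l ∣ auxM M' * p ∧
      ∀ y ∈ auxV M' p (eigenTors p (M' * p) S a),
        heckeOperatorBar (auxM M' * p) ⟨l, hl⟩ y = a l • y := by
  have hl2 : l ≠ 2 := fun h => hlS (by rw [h]; exact h2S)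
  have hlp : ¬ l ∣ p := fun h =>
    hlS (by rw [(Nat.prime_dvd_prime_iff_eq hl hpF.out).mp h]; exact hpS)
  have hlN : ¬ l ∣ auxM M' * p :=
    not_dvd_auxM_mul hl hl2 (fun h => hlS (hM'S l hl h)) hlp
  refine ⟨hlN, ?_⟩
  exact eigen_auxV (V' := eigenTors p (M' * p) S a) (⟨l, hl⟩ : Nat.Primes) hlN (a l)
    (fun y hy => (mem_eigenTors.mp hy).2 (⟨l, hl, hlS⟩ : PIdx S))

/-- **The `hnode` binder of (T4) at the model level `lcm(M', 4) · p`**, for `Y` inside the pull-back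
of the eigen-subgroup (data of `Iface44.CoreTors`). -/
theorem hnode_auxV_le (hp2 : p ≠ 2) (hA : A.LiesOverPrime p)
    {ϖ : ↥(AK A L)} (hϖ : IsUnif (AK A L) ϖ) (hE : FK (auxM M' * p) L ≤ fracField (AK A L))
    (ht : tq (↥L) 4 8 ∈ FK (auxM M') L)
    (N : NodalNumData ↥(AK A L) ↥L ↥(FK (auxM M' * p) L) ϖ (tN p ht) (B0 A p ht) (B1 A p ht)
      (O1 (auxM M') p hϖ hE) (O2 (auxM M') p hϖ hE))
    {e : ℕ} (hth : ThickNodes ϖ (B0 A p ht) (B1 A p ht) (O1 (auxM M') p hϖ hE)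
      (O2 (auxM M') p hϖ hE) e)
    {S : Finset ℕ} (hpS : p ∈ S) (h2S : 2 ∈ S) (hM'S : ∀ r : ℕ, r.Prime → r ∣ M' → r ∈ S)
    (a : ℕ → ℤ) {l : ℕ} (hl : l.Prime) (hlS : l ∉ S) (hla : ¬ (p : ℤ) ∣ a l - l - 1)
    (Y : AddSubgroup (JZero (auxM M' * p)))
    (hY : Y ≤ auxV M' p (eigenTors p (M' * p) S a)) :
    ∀ D : Divisor.degZero (K := ↥L) (F := ↥(FK (auxM M' * p) L)),
      Pic0.mk D ∈ VL (auxM M' * p) L Y →
      HasLevel ϖ (B0 A p ht) (B1 A p ht) (O1 (auxM M') p hϖ hE) (O2 (auxM M') p hϖ hE) 0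
        (D : Divisor ↥L ↥(FK (auxM M' * p) L)) →
      Good ϖ (B0 A p ht) (B1 A p ht) (O1 (auxM M') p hϖ hE) (O2 (auxM M') p hϖ hE)
        N.model.t_mem N.model.tinv_mem (denR baseHyp_four A (inv_four_mem hpF.out hp2 hA) L)
        (denInfR baseHyp_four A (inv_four_mem hpF.out hp2 hA) L)
        (D : Divisor ↥L ↥(FK (auxM M' * p) L)) →
      ∀ f : ↥(FK (auxM M' * p) L), f ≠ 0 →
      (∀ P : Place ↥L ↥(FK (auxM M' * p) L),
        (p • (D : Divisor ↥L ↥(FK (auxM M' * p) L))) P = P.ord f) →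
      (O1 (auxM M') p hϖ hE).valuation f = 1 →
      ∃ b' : ℤ, (O2 (auxM M') p hϖ hE).valuation f =
        (O2 (auxM M') p hϖ hE).valuation (algebraMap ↥(AK A L) ↥(FK (auxM M' * p) L) ϖ) ^
          ((e : ℤ) * p * b') := by
  obtain ⟨hlN, heig⟩ := eigen_auxV_eigenTors (p := p) (M' := M') hpS h2S hM'S a hl hlS
  have hlp : l ≠ p := fun h => hlS (by rw [h]; exact hpS)
  have hc : ¬ (p : ℤ) ∣ ((l : ℕ) : ℤ) + 1 - a l := by
    intro h
    apply hla
    have h2 : a l - (l : ℤ) - 1 = -(((l : ℕ) : ℤ) + 1 - a l) := by ring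
    rw [h2]
    exact (dvd_neg).mpr h
  exact hnode_of_eigenY hpF.out hp2 (four_dvd_auxM M') hA hϖ hE ht N hth Y (⟨l, hl⟩ : Nat.Primes)
    hlN hlp (a l) hc (fun y hy => heig y (hY hy))

/-- **The `hnode` binder of (T4) at the model level `lcm(M', 4) · p`**, for
`Y = auxV M' p (eigenTors p (M' p) S a)` (the subgroup of `Iface44.CoreTors`). -/
theorem hnode_auxV (hp2 : p ≠ 2) (hA : A.LiesOverPrime p)
    {ϖ : ↥(AK A L)} (hϖ : IsUnif (AK A L) ϖ) (hE : FK (auxM M' * p) L ≤ fracField (AK A L))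
    (ht : tq (↥L) 4 8 ∈ FK (auxM M') L)
    (N : NodalNumData ↥(AK A L) ↥L ↥(FK (auxM M' * p) L) ϖ (tN p ht) (B0 A p ht) (B1 A p ht)
      (O1 (auxM M') p hϖ hE) (O2 (auxM M') p hϖ hE))
    {e : ℕ} (hth : ThickNodes ϖ (B0 A p ht) (B1 A p ht) (O1 (auxM M') p hϖ hE)
      (O2 (auxM M') p hϖ hE) e)
    {S : Finset ℕ} (hpS : p ∈ S) (h2S : 2 ∈ S) (hM'S : ∀ r : ℕ, r.Prime → r ∣ M' → r ∈ S)
    (a : ℕ → ℤ) {l : ℕ} (hl : l.Prime) (hlS : l ∉ S) (hla : ¬ (p : ℤ) ∣ a l - l - 1) :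
    ∀ D : Divisor.degZero (K := ↥L) (F := ↥(FK (auxM M' * p) L)),
      Pic0.mk D ∈ VL (auxM M' * p) L (auxV M' p (eigenTors p (M' * p) S a)) →
      HasLevel ϖ (B0 A p ht) (B1 A p ht) (O1 (auxM M') p hϖ hE) (O2 (auxM M') p hϖ hE) 0
        (D : Divisor ↥L ↥(FK (auxM M' * p) L)) →
      Good ϖ (B0 A p ht) (B1 A p ht) (O1 (auxM M') p hϖ hE) (O2 (auxM M') p hϖ hE)
        N.model.t_mem N.model.tinv_mem (denR baseHyp_four A (inv_four_mem hpF.out hp2 hA) L)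
        (denInfR baseHyp_four A (inv_four_mem hpF.out hp2 hA) L)
        (D : Divisor ↥L ↥(FK (auxM M' * p) L)) →
      ∀ f : ↥(FK (auxM M' * p) L), f ≠ 0 →
      (∀ P : Place ↥L ↥(FK (auxM M' * p) L),
        (p • (D : Divisor ↥L ↥(FK (auxM M' * p) L))) P = P.ord f) →
      (O1 (auxM M') p hϖ hE).valuation f = 1 →
      ∃ b' : ℤ, (O2 (auxM M') p hϖ hE).valuation f =
        (O2 (auxM M') p hϖ hE).valuation (algebraMap ↥(AK A L) ↥(FK (auxM M' * p) L) ϖ) ^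
          ((e : ℤ) * p * b') :=
  hnode_auxV_le hp2 hA hϖ hE ht N hth hpS h2S hM'S a hl hlS hla _ le_rfl

end Aux

end Fermat.Agent.M1.Old.T4Node18
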