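/-
M1 (S44), chapter OLD = T4, brick T4-J part 3, layer 2 (helper98): **(T4) at the model of record over
`L` at the auxiliary level `M'' = auxM M' = lcm(M', 4)`, with the landed suppliers plugged in.**

`Old/T4Inst98.t4_model` with

* `red := RedMap8.red1S hϖ hE`, `hred_mem`, `hred_zero`, `hrange` := `RedMap8.red1S_mem`,
  `red1S_eq_zero_iff`, `range_red1S` (helper8);
* `hHI := HiLevelZero8.hHI_red1S` (helper8);
* `σ := PIdx S`, `ℓ i := (i : ℕ)`, `a i := a (i : ℕ)`,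
  `hCORE := CoreInst44.hCORE_of_not_isResModular` (helper44; LINK-CORE, unconditional).

`t4_core` leaves exactly the three binders which are supplied by the one-binder adapter files:
`hnode` (NODE-TERM: `Old/T4Node18`), `hPH` (`Old/PHAssemblyInst60`) and the SIDE-TWO data
`hβ`, `hrank`, `hpush` (`NRM/BranchModel88`, `NRM/BranchVal88`, `NRM/PushFinal70`).

`hT4_final` plugs them in at `Y = auxV M' p (eigenTors p (M' p) S a)` and `(n₀, e₀) = (4, 8)`: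
* `hG0`, `hG1`, `hnode` := `T4Node18.hG0_model`, `hG1_model`, `hnode_auxV` (helper18);
* `hPH` := `PHAssemblyInst60.hPH_model` (helper60) at `V' = eigenTors p (M' p) S a`;
* `E := F_L(M'')` with the algebra structure along `beta`, `hβ := BranchModel88.branch_beta_four`
  (`B01 := B0`), `hrank := BranchVal88.finrank_beta` (helper88);
* `hpush` := `PushFinal70.pushDataAlong_beta_of_ker` (helper70) fed with
  `EigenAdapter47.push_auxV_eigenTors_eq_zero` (helper47; (h4): `β_* = 0` on `Y`).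

`t4_seam` is the literal of the (T4) seam of `Tri/MainSeams43` (helper43).
-/
import Mathlib
import Fermat.Agent.M1.Old.T4Inst98
import Fermat.Agent.M1.Old.RedMap8
import Fermat.Agent.M1.Old.HiLevelZero8
import Fermat.Agent.M1.Link.CoreInst44
import Fermat.Agent.M1.Glue.AuxLevel47
import Fermat.Agent.M1.Glue.EigenAdapter47
import Fermat.Agent.M1.Old.T4Node18
import Fermat.Agent.M1.Old.PHAssemblyInst60
import Fermat.Agent.M1.NRM.BranchModel88
import Fermat.Agent.M1.NRM.PushFinal70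
import Fermat.Agent.M1.Ram.PeuRamDef20

set_option autoImplicit false
set_option linter.unusedSectionVars false
set_option linter.unusedVariables false
set_option linter.style.haveILetI false
set_option synthInstance.maxHeartbeats 400000

noncomputable section

open AlgebraicCurve HahnSeries ModularCurve Polynomial

namespace Fermat.Agent.M1.Old.T4Final98

open Module Fermat.Agent.ES.N34.NodalCore13 Fermat.Agent.ES.N34.NumData13
  Fermat.Agent.M1.Car.Defs43 Fermat.Agent.M1.Mon.WildPL43 Fermat.Agent.M1.Node.Thick25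
  Fermat.Agent.M1.Car.NodeFrame58
  Fermat.Agent.M1.Fib.Constants98 Fermat.Agent.M1.Link.ThetaLog88
  Fermat.Agent.M1.NRM.ToricLead88 Fermat.Agent.M1.NRM.PushReg88
  Fermat.Agent.RED.Interface4 Fermat.Agent.RED.PUR.GaussGen8 Fermat.Agent.RED.BASE.EtaQuot12
  Fermat.Agent.RED.DESC Fermat.Agent.ES.N34.ModelDefs9 Fermat.Agent.M1.Tri.Transport53
  Fermat.Agent.ES.N35.QNewCore19 Fermat.Agent.M1.Glue.TorsionEigen44
  Fermat.Agent.M1.Glue.AuxLevel47 Fermat.Agent.M1.Old.T4Inst98 Fermat.Agent.M1.Old.RedMap8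

/-- Shortcut to the instance found (slowly) by instance search. -/
local instance (priority := 5000) algKFK (M : ℕ) (K : IntermediateField ℚ Qbar) :
    Algebra K (FK M K) := SubalgebraClass.toAlgebra (FK M K)

variable {A : ValuationSubring Qbar} {L : IntermediateField ℚ Qbar} [FiniteDimensional ℚ L]

set_option maxHeartbeats 4000000 in
/-- **(T4) at the auxiliary level, with RED-MAP, (HI), DESCENT and LINK-CORE plugged in.** -/
theorem t4_core {p : ℕ} [Fact p.Prime] [NeZero p] (hp5 : 5 ≤ p) {M' : ℕ} [NeZero M']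
    (hpM' : ¬ p ∣ M') (hA : A.LiesOverPrime p)
    (S : Finset ℕ) (hM'S : ∀ r : ℕ, r.Prime → r ∣ M' → r ∈ S) (a : ℕ → ℤ)
    (hnres : ¬ IsResModular p M' S a) [∀ i : PIdx S, NeZero (i : ℕ)]
    {ϖ : ↥(AK A L)} (hϖ : IsUnif (AK A L) ϖ) (hE : FK (auxM M' * p) L ≤ fracField (AK A L))
    {n₀ e₀ : ℕ} [NeZero n₀] (ht : tq (↥L) n₀ e₀ ∈ FK (auxM M') L)
    (N : NodalNumData ↥(AK A L) ↥L ↥(FK (auxM M' * p) L) ϖ (tN p ht) (B0 A p ht) (B1 A p ht)
      (O1 (auxM M') p hϖ hE) (O2 (auxM M') p hϖ hE))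
    {e : ℕ} (hth : ThickNodes ϖ (B0 A p ht) (B1 A p ht) (O1 (auxM M') p hϖ hE)
      (O2 (auxM M') p hϖ hE) e)
    {hπ1 : algebraMap ↥(AK A L) ↥(FK (auxM M' * p) L) ϖ ∈ O1 (auxM M') p hϖ hE}
    {hπ2 : algebraMap ↥(AK A L) ↥(FK (auxM M' * p) L) ϖ ∈ O2 (auxM M') p hϖ hE}
    (Y : AddSubgroup (JZero (auxM M' * p))) (htors : ∀ y ∈ Y, p • y = 0)
    -- NODE-TERM
    {G0 G1 : (↥(AK A L))[X]}
    (hG0 : G0.map (Ideal.Quotient.mk (Ideal.span {ϖ} : Ideal ↥(AK A L))) ≠ 0)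
    (hG1 : G1.map (Ideal.Quotient.mk (Ideal.span {ϖ} : Ideal ↥(AK A L))) ≠ 0)
    (hnode : ∀ D : Divisor.degZero (K := ↥L) (F := ↥(FK (auxM M' * p) L)),
      Pic0.mk D ∈ VL (auxM M' * p) L Y →
      HasLevel ϖ (B0 A p ht) (B1 A p ht) (O1 (auxM M') p hϖ hE) (O2 (auxM M') p hϖ hE) 0
        (D : Divisor ↥L ↥(FK (auxM M' * p) L)) →
      Avoids ϖ (B0 A p ht) (B1 A p ht) (O1 (auxM M') p hϖ hE) (O2 (auxM M') p hϖ hE)
        N.model.t_mem N.model.tinv_mem G0 G1 (D : Divisor ↥L ↥(FK (auxM M' * p) L)) →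
      ∀ f : ↥(FK (auxM M' * p) L), f ≠ 0 →
      (∀ P : Place ↥L ↥(FK (auxM M' * p) L),
        (p • (D : Divisor ↥L ↥(FK (auxM M' * p) L))) P = P.ord f) →
      (O1 (auxM M') p hϖ hE).valuation f = 1 →
      ∃ b' : ℤ, (O2 (auxM M') p hϖ hE).valuation f =
        (O2 (auxM M') p hϖ hE).valuation (algebraMap ↥(AK A L) ↥(FK (auxM M' * p) L) ϖ) ^
          ((e : ℤ) * p * b'))
    -- (PH)
    (hPH : ∀ D : Divisor.degZero (K := ↥L) (F := ↥(FK (auxM M' * p) L)),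
      Pic0.mk D ∈ VL (auxM M' * p) L Y → ∀ f : ↥(FK (auxM M' * p) L), f ≠ 0 →
      (∀ P : Place ↥L ↥(FK (auxM M' * p) L),
        (p • (D : Divisor ↥L ↥(FK (auxM M' * p) L))) P = P.ord f) →
      ∀ hf1 : f ∈ O1 (auxM M') p hϖ hE, f⁻¹ ∈ O1 (auxM M') p hϖ hE →
      ∃ u ∈ modularFunctionFieldFullC (IsLocalRing.ResidueField ↥A) M', u ≠ 0 ∧
        ∃ c : IsLocalRing.ResidueField ↥A, c ≠ 0 ∧
        ∃ h ∈ modularFunctionFieldFullC (IsLocalRing.ResidueField ↥A) (auxM M'), h ≠ 0 ∧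
          red1S hϖ hE ⟨f, hf1⟩ = HahnSeries.C c * u * h ^ p ∧
          ∀ i : PIdx S, Tform (i : ℕ) (dlog u) = a (i : ℕ) • dlog u)
    -- SIDE-TWO
    {E : Type*} [Field E] [Algebra ↥L E] [Algebra E ↥(FK (auxM M' * p) L)]
    [IsScalarTower ↥L E ↥(FK (auxM M' * p) L)] [FiniteDimensional E ↥(FK (auxM M' * p) L)]
    [Algebra.IsSeparable E ↥(FK (auxM M' * p) L)] [Algebra ↥(AK A L) E]
    [IsScalarTower ↥(AK A L) E ↥(FK (auxM M' * p) L)]
    {C0 C1 C01 : Subalgebra ↥(AK A L) E} {O' : ValuationSubring E}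
    {B01 : Subalgebra ↥(AK A L) ↥(FK (auxM M' * p) L)}
    (hβ : Branch ϖ p C0 C1 C01 O' (O2 (auxM M') p hϖ hE) (O1 (auxM M') p hϖ hE) (B0 A p ht)
      (B1 A p ht) B01)
    (hrank : finrank E ↥(FK (auxM M' * p) L) = p + 1)
    (hpush : ∀ D : Divisor.degZero (K := ↥L) (F := ↥(FK (auxM M' * p) L)),
      Pic0.mk D ∈ VL (auxM M' * p) L Y →
      HasLevel ϖ (B0 A p ht) (B1 A p ht) (O1 (auxM M') p hϖ hE) (O2 (auxM M') p hϖ hE) 0
        (D : Divisor ↥L ↥(FK (auxM M' * p) L)) →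
      ∃ f₂ : E, PushData C0 C1 O' (B0 A p ht) (B1 A p ht)
        (D : Divisor ↥L ↥(FK (auxM M' * p) L)) f₂) :
    ∀ v ∈ VL (auxM M' * p) L Y,
      v ∈ Cart ϖ (B0 A p ht) (B1 A p ht) (O1 (auxM M') p hϖ hE) (O2 (auxM M') p hϖ hE)
        hπ1 hπ2 0 →
      v ∈ Cart ϖ (B0 A p ht) (B1 A p ht) (O1 (auxM M') p hϖ hE) (O2 (auxM M') p hϖ hE)
        hπ1 hπ2 1 := by
  have hp : p.Prime := Fact.out
  have hp2 : p ≠ 2 := by omega
  have hpM'' : ¬ p ∣ auxM M' := not_dvd_auxM hp hp2 hpM'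
  have hac1 := Fermat.Agent.M1.Mod.ACModel98.residueAlgClosed_O1 (auxM M') p hϖ hE
  have hac2 := Fermat.Agent.M1.Mod.ACModel98.residueAlgClosed_O2 (auxM M') p hϖ hE
  haveI : NeZero (Nat.lcm M' 4) := neZero_auxM M'
  exact t4_model M' (auxM M') p (dvd_auxM M') hA hϖ hE ht N hth Y htors hG0 hG1 hnode
    (red1S hϖ hE) (red1S_mem hp hpM'' hA hϖ hE) (red1S_eq_zero_iff hϖ hE)
    (range_red1S hp hpM'' hA hϖ hE) (fun i : PIdx S => (i : ℕ)) (fun i : PIdx S => a (i : ℕ))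
    (fun u hu hu0 hi hii =>
      Fermat.Agent.M1.Link.CoreInst44.hCORE_of_not_isResModular hp5 hpM' A hA S hM'S a hnres u hu
        hu0 hi hii)
    (Fermat.Agent.M1.Old.HiLevelZero8.hHI_red1S hp hpM'' hA hϖ hE N hac1 hac2) hPH hβ hrank hpush

/-! ### The suppliers plugged in -/

section Final

open Fermat.Agent.X0 Fermat.Agent.RED.PUR.GaussBridge10 Fermat.Agent.M1.Glue.EigenTors44
  Fermat.Agent.M1.Glue.EigenAdapter47 Fermat.Agent.M1.Ram.PeuRamDef20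
  Fermat.Agent.ES.HECKE.AlongDegree25 Fermat.Agent.M1.NRM.PushInst70

/-- `F_L(M)` has characteristic zero. -/
local instance charZeroFK98 (M : ℕ) : CharZero ↥(FK M L) :=
  Fermat.Agent.ORD.Geo.NormKInst6.charZero_laurentBaseChange (↥L) (modularFunctionFieldFull M)

set_option maxHeartbeats 4000000 in
/-- **(T4) for the glue's subgroup `Y = π^*(eigenTors p (M' p) S a)` at the model of record over
`L`**, every supplier plugged in. -/
theorem hT4_final {p : ℕ} [hpF : Fact p.Prime] [NeZero p] {M' : ℕ} [NeZero M'] (hp5 : 5 ≤ p)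
    (hpM' : ¬ p ∣ M') (hA : A.LiesOverPrime p)
    (S : Finset ℕ) (hpS : p ∈ S) (h2S : 2 ∈ S) (hM'S : ∀ r : ℕ, r.Prime → r ∣ M' → r ∈ S)
    (a : ℕ → ℤ) (hnres : ¬ IsResModular p M' S a)
    (hne : ∃ l : ℕ, l.Prime ∧ l ∉ S ∧ ¬ (p : ℤ) ∣ a l - l - 1)
    [Normal ℚ L] (hζ : zetaK (auxM M') ∈ L)
    {ϖ : ↥(AK A L)} (hπ : IsUnif (AK A L) ϖ) (hE : FK (auxM M' * p) L ≤ fracField (AK A L))
    (ht : tq (↥L) 4 8 ∈ FK (auxM M') L)
    (N : NodalNumData ↥(AK A L) ↥L ↥(FK (auxM M' * p) L) ϖ (tN p ht) (B0 A p ht) (B1 A p ht)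
      (O1 (auxM M') p hπ hE) (O2 (auxM M') p hπ hE))
    {e : ℕ} (hth : ThickNodes ϖ (B0 A p ht) (B1 A p ht) (O1 (auxM M') p hπ hE)
      (O2 (auxM M') p hπ hE) e)
    (hπ1 : algebraMap ↥(AK A L) ↥(FK (auxM M' * p) L) ϖ ∈ O1 (auxM M') p hπ hE)
    (hπ2 : algebraMap ↥(AK A L) ↥(FK (auxM M' * p) L) ϖ ∈ O2 (auxM M') p hπ hE) :
    ∀ v ∈ VL (auxM M' * p) L (auxV M' p (eigenTors p (M' * p) S a)),
      v ∈ Cart ϖ (B0 A p ht) (B1 A p ht) (O1 (auxM M') p hπ hE) (O2 (auxM M') p hπ hE)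
        hπ1 hπ2 0 →
      v ∈ Cart ϖ (B0 A p ht) (B1 A p ht) (O1 (auxM M') p hπ hE) (O2 (auxM M') p hπ hE)
        hπ1 hπ2 1 := by
  have hp : p.Prime := hpF.out
  have hp2 : p ≠ 2 := by omega
  have hpM'' : ¬ p ∣ auxM M' := not_dvd_auxM hp hp2 hpM'
  have hM4 : 4 ∣ auxM M' := four_dvd_auxM M'
  obtain ⟨l, hl, hlS, hla⟩ := hne
  haveI : ∀ i : PIdx S, NeZero (i : ℕ) := fun i => ⟨i.2.1.ne_zero⟩
  have hNS : ∀ r : ℕ, r.Prime → r ∣ M' * p → r ∈ S := fun r hr h =>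
    (hr.dvd_mul.mp h).elim (hM'S r hr)
      (fun h' => ((Nat.prime_dvd_prime_iff_eq hr hp).mp h') ▸ hpS)
  have hac2 := Fermat.Agent.M1.Mod.ACModel98.residueAlgClosed_O2 (auxM M') p hπ hE
  haveI hdvr : IsDiscreteValuationRing ↥(AK A L) :=
    NumberFieldDVR27.isDiscreteValuationRing_AK A L hp.ne_zero hA
  have hirr : Irreducible ϖ :=
    (IsDiscreteValuationRing.irreducible_iff_uniformizer ϖ).mpr hπ.max_eq
  -- the modular-equation memberships `yN ∈ B0`, `yN⁻¹ ∈ B1`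
  obtain ⟨-, -, hS2, -, -⟩ := Fermat.Agent.ES.P36.ModelQAt4.items_four_at (A := A) (K := L)
    hp hp2 hpM'' hM4 hA hζ (Fermat.Agent.ES.P36.ModelQAt4.frobInvAt_of_normal hp hA)
  obtain ⟨hy0, hy1⟩ := hS2 ht
  -- the smooth model of the good level and `arch` for its Gauss ring
  have Mlow := Fermat.Agent.M1.NRM.BranchModel88.lowerModel_four hp hpM'' hM4 hA hζ ht ϖ hπ
  have harch := Fermat.Agent.M1.NRM.PushFinal70.harch_of_gauss (M' := auxM M') hirr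
    (mem_OvK_iff A L (auxM M') hπ)
  -- (h4): `β_* = 0` on `Y`
  have hker := push_auxV_eigenTors_eq_zero (p := p) (M' := M') (S := S) (a := a) hp2 hpM' hpS hM'S
    hnres
  -- SIDE-TWO along `beta`
  letI : Algebra ↥(FK (auxM M') L) ↥(FK (auxM M' * p) L) := algebraAlong (beta L (auxM M') p)
  haveI : IsScalarTower ↥L ↥(FK (auxM M') L) ↥(FK (auxM M' * p) L) :=
    isScalarTower_along (beta L (auxM M') p)
  haveI : IsScalarTower ↥(AK A L) ↥(FK (auxM M') L) ↥(FK (auxM M' * p) L) :=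
    Fermat.Agent.M1.NRM.BranchVal88.towerBeta (auxM M') p
  haveI : Module.Finite ↥(FK (auxM M') L) ↥(FK (auxM M' * p) L) :=
    Fermat.Agent.M1.NRM.BranchVal88.finite_beta (auxM M') p hp hpM''
  haveI : Algebra.IsSeparable ↥(FK (auxM M') L) ↥(FK (auxM M' * p) L) :=
    isSeparable_along (beta L (auxM M') p) (finiteAlong_beta (↥L) (auxM M') p hp hpM'')
  have hβ := Fermat.Agent.M1.NRM.BranchModel88.branch_beta_four hp hp2 hpM'' hM4 hA hζ ht hE ϖ hπ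
    hac2 (B01 := B0 A p ht) (fun x hx => ⟨0, by rwa [pow_zero, one_mul]⟩)
  have hrank : finrank ↥(FK (auxM M') L) ↥(FK (auxM M' * p) L) = p + 1 :=
    Fermat.Agent.M1.NRM.BranchVal88.finrank_beta (K := L) (auxM M') p hp hpM''
  exact t4_core (E := ↥(FK (auxM M') L)) hp5 hpM' hA S hM'S a hnres hπ hE ht N hth
    (auxV M' p (eigenTors p (M' * p) S a)) tors_auxV_eigenTors
    (Fermat.Agent.M1.Old.T4Node18.hG0_model hp hp2 hA hπ)
    (Fermat.Agent.M1.Old.T4Node18.hG1_model hp hp2 hA hπ)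
    (Fermat.Agent.M1.Old.T4Node18.hnode_auxV hp2 hA hπ hE ht N hth hpS h2S hM'S a hl hlS hla)
    (Fermat.Agent.M1.Old.PHAssemblyInst60.hPH_model hp hp2 hpM' A hA L hπ hE
      (fun i : PIdx S => (i : ℕ)) (fun i => i.2.1) (fun i => i.not_dvd hNS)
      (fun i : PIdx S => a (i : ℕ)) (eigenTors p (M' * p) S a)
      (fun _ hy => nsmul_eq_zero_of_mem hy) (fun _ hy i => (mem_eigenTors.mp hy).2 i) _ le_rfl)
    hβ hrank
    (fun D hD _ => Fermat.Agent.M1.NRM.PushFinal70.pushDataAlong_beta_of_ker hp hpM'' ht hy0 hy1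
      Mlow harch D (hker _ hD).2)

set_option maxHeartbeats 4000000 in
/-- **The (T4) seam** in the literal of `Tri/MainSeams43.T4Seam` (helper43). -/
theorem t4_seam (p : ℕ) [hp : Fact p.Prime] (M' : ℕ) [NeZero M'] :
    haveI : NeZero p := ⟨hp.out.ne_zero⟩
    5 ≤ p → ¬ p ∣ M' → Squarefree M' →
    ∀ (A : ValuationSubring Qbar), A.LiesOverPrime p →
    ∀ (S : Finset ℕ), p ∈ S → 2 ∈ S → (∀ r : ℕ, r.Prime → r ∣ M' → r ∈ S) →
    ∀ (a : ℕ → ℤ), ¬ IsResModular p M' S a →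
      (∃ l : ℕ, l.Prime ∧ l ∉ S ∧ ¬ (p : ℤ) ∣ a l - l - 1) →
    ∀ (L : IntermediateField ℚ Qbar) [Normal ℚ L] [FiniteDimensional ℚ L],
      zetaK (auxM M') ∈ L → ∀ (ϖ : ↥(AK A L)), PeuRamData p A L ϖ →
      ∀ (hπ : IsUnif (AK A L) ϖ) (hE : FK (auxM M' * p) L ≤ fracField (AK A L))
        (ht : tq (↥L) 4 8 ∈ FK (auxM M') L)
        (_N : NodalNumData ↥(AK A L) ↥L ↥(FK (auxM M' * p) L) ϖ (tN p ht)
          (B0 A p ht) (B1 A p ht) (O1 (auxM M') p hπ hE)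
          (O2 (auxM M') p hπ hE))
        (_hac1 : ResidueAlgClosed ϖ (O1 (auxM M') p hπ hE))
        (_hac2 : ResidueAlgClosed ϖ (O2 (auxM M') p hπ hE))
        (e : ℕ) (_he : ∃ v : (↥(AK A L))ˣ, ((p : ℕ) : ↥(AK A L)) = v * ϖ ^ e)
        (_hth : ThickNodes ϖ (B0 A p ht) (B1 A p ht)
          (O1 (auxM M') p hπ hE) (O2 (auxM M') p hπ hE) e)
        (hπ1 : algebraMap ↥(AK A L) ↥(FK (auxM M' * p) L) ϖ ∈ O1 (auxM M') p hπ hE)
        (hπ2 : algebraMap ↥(AK A L) ↥(FK (auxM M' * p) L) ϖ ∈ O2 (auxM M') p hπ hE),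
        ∀ v ∈ VL (auxM M' * p) L (auxV M' p (eigenTors p (M' * p) S a)),
          v ∈ Cart ϖ (B0 A p ht) (B1 A p ht)
            (O1 (auxM M') p hπ hE) (O2 (auxM M') p hπ hE) hπ1 hπ2 0 →
          v ∈ Cart ϖ (B0 A p ht) (B1 A p ht)
            (O1 (auxM M') p hπ hE) (O2 (auxM M') p hπ hE) hπ1 hπ2 1 := by
  haveI : NeZero p := ⟨hp.out.ne_zero⟩
  intro hp5 hpM' _ A hA S hpS h2S hM'S a hnres hne L _ _ hζ ϖ _ hπ hE ht N _ _ e _ hth hπ1 hπ2
  exact hT4_final hp5 hpM' hA S hpS h2S hM'S a hnres hne hζ hπ hE ht N hth hπ1 hπ2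

end Final

end Fermat.Agent.M1.Old.T4Final98
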