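/-
M1 (S44), chapter OLD = T4 (helper60): **(T4) `V ∩ Cart 0 ⊆ Cart 1` from the bricks, with the
SIDE-TWO hypothesis `hswap` of `Old/T4Main45.t4_of_bricks` discharged** by
`Car/SideTwoPush60.hswap_of_branch`, i.e. by the push-forward data along the second degeneracy map
`β` (`NRM/ToricLead88.Branch` with `O2` as the étale branch, `[F : E] = p + 1`, and
`NRM/PushReg88.PushData` for every level-`0` divisor whose class lies in `V`).

This is `Old/T4Main45.t4_of_bricks` ∘ `Old/FrameAssemblyPush60`: the literal shape consumed by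
`Car/ContractInst43.wildContract_of_cart` / `tameContract_of_cart`, with mathematical inputs
NODE-TERM, (R), (D), (CORE), (HI), (PH) and `β_* V = 0`.
-/
import Mathlib
import Fermat.Agent.M1.Old.T4Main45
import Fermat.Agent.M1.Car.SideTwoPush60

set_option autoImplicit false
set_option linter.unusedSectionVars false

open AlgebraicCurve HahnSeries

namespace Fermat.Agent.M1.Old.T4MainPush60

open Module Fermat.Agent.ES.N34.NodalCore13 Fermat.Agent.ES.N34.NumData13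
  Fermat.Agent.M1.Car.Defs43 Fermat.Agent.M1.Mon.WildPL43 Fermat.Agent.M1.Car.NodeFrame58
  Fermat.Agent.M1.Car.DepthZero58 Fermat.Agent.M1.Car.DepthZeroInst58
  Fermat.Agent.M1.Fib.BranchVal58 Fermat.Agent.M1.Fib.Constants98
  Fermat.Agent.M1.Node.Thick25 Fermat.Agent.M1.Car.Slope43 Fermat.Agent.M1.Car.RedTrivial58
  Fermat.Agent.M1.Link.ThetaLog88 Fermat.Agent.M1.Old.FrameAssembly58 Fermat.Agent.M1.Old.T4Abs45
  Fermat.Agent.M1.NRM.ToricLead88 Fermat.Agent.M1.NRM.PushReg88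
  Fermat.Agent.M1.Car.SideTwoPush60

variable {R K F : Type*} [CommRing R] [Field K] [Field F] [Algebra R K] [Algebra K F]
  [Algebra R F] [IsScalarTower R K F]
  {π : R} {t : F} {B0 B1 : Subalgebra R F} {O1 O2 : ValuationSubring F} {e : ℕ}
variable {k : Type*} [Field k]

/-- The approximation statement `approx2` of `Car/DepthZero58` for a `NodalNumData` with thick
nodes, (AC) and one node. -/
theorem approx2_of_numData
    (N : NodalNumData R K F π t B0 B1 O1 O2)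
    (hac1 : ResidueAlgClosed π O1) (hac2 : ResidueAlgClosed π O2)
    (hth : ThickNodes π B0 B1 O1 O2 e)
    (hnodeEx : ∃ (B : Subalgebra R F) (𝔪 : Ideal B), IsNode π B0 B1 O1 O2 B 𝔪) :
    ∀ φ1 φ2 : F, φ1 ∈ O1 → φ2 ∈ O2 →
      ∃ φ, (∃ c ∈ O1, φ - φ1 = algebraMap R F π * c) ∧
        (∃ c ∈ O2, φ - φ2 = algebraMap R F π * c) := by
  have M : Frame (K := K) π B0 B1 O1 O2 :=
    Fermat.Agent.M1.Fib.FrameInst98.frame_of_numData N hac1 hac2
  obtain ⟨-, ⟨z, hzB, hz1, hz2⟩⟩ := exists_z_of_thickNodes N hth hnodeEx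
  have hz2' : z⁻¹ ∈ O2 := by
    by_contra h
    exact hz2 (M.unif2.unif _ (N.model.le_O2_0 _ hzB) h)
  have hz0 : z ≠ 0 := by
    rintro rfl
    exact hz2 ⟨0, O2.zero_mem, by simp⟩
  exact fun ψ1 ψ2 _ _ =>
    approx2_of_z M.unif1 M.unif2 M.pi_mem1 M.pi_mem2 M.vals1 M.vals2 hz1 hz2' hz0 ψ1 ψ2

/-- **(T4) from the bricks, SIDE-TWO by push-forward along `β`.** -/
theorem t4_of_bricks_push [HasPrincipalDivisors K F]
    (N : NodalNumData R K F π t B0 B1 O1 O2)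
    (hac1 : ResidueAlgClosed π O1) (hac2 : ResidueAlgClosed π O2)
    (hth : ThickNodes π B0 B1 O1 O2 e)
    (hnodeEx : ∃ (B : Subalgebra R F) (𝔪 : Ideal B), IsNode π B0 B1 O1 O2 B 𝔪)
    {hπ1 : algebraMap R F π ∈ O1} {hπ2 : algebraMap R F π ∈ O2}
    {p : ℕ} [Fact p.Prime] (hchar : π ∣ (p : R)) (hperf : ∀ r : R, ∃ s : R, π ∣ s ^ p - r)
    (V : AddSubgroup (Pic0 K F)) (tors : ∀ v ∈ V, p • v = 0)
    -- NODE-TERM
    (hnode : ∀ D : Divisor.degZero (K := K) (F := F), Pic0.mk D ∈ V →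
      HasLevel π B0 B1 O1 O2 0 (D : Divisor K F) → ∀ f : F, f ≠ 0 →
      (∀ P : Place K F, (p • (D : Divisor K F)) P = P.ord f) → O1.valuation f = 1 →
      ∃ b' : ℤ, O2.valuation f = O2.valuation (algebraMap R F π) ^ ((e : ℤ) * p * b'))
    -- the residue side
    (κ' κ'' : IntermediateField k (LaurentSeries k)) (hle : κ' ≤ κ'')
    (hkp : ∀ c : k, ∃ c0 : k, c0 ^ p = c)
    -- (R) RED-MAP
    (red : ↥O1 →+* LaurentSeries k)
    (hred_mem : ∀ x : ↥O1, red x ∈ κ'')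
    (hred_ker : ∀ x : ↥O1, red x = 0 → ∃ c ∈ O1, (x : F) = algebraMap R F π * c)
    (hred_unit : ∀ x : ↥O1, red x ≠ 0 → ((x : F))⁻¹ ∈ O1)
    -- (D) DESCENT
    (hdesc : ∀ W ∈ κ'', (∃ x : ↥O1, red x = W ^ p) → ∃ y : ↥O1, red y = W)
    -- (CORE)
    {σ : Type*} (ℓ : σ → ℕ) [∀ i, NeZero (ℓ i)] (a : σ → ℤ)
    (hCORE : ∀ (u : LaurentSeries k) (hu : u ∈ κ'), u ≠ 0 →
      (∀ Q : Place k ↥κ'', (p : ℤ) ∣ Q.ord (⟨u, hle hu⟩ : ↥κ'')) →
      (∀ i, Tform (ℓ i) (dlog u) = a i • dlog u) → ∃ w ∈ κ', w ^ p = u)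
    -- (HI)
    (hHI : ∀ D : Divisor.degZero (K := K) (F := F),
      HasLevel π B0 B1 O1 O2 0 (D : Divisor K F) → ∀ f : F, f ≠ 0 →
      (∀ P : Place K F, (p • (D : Divisor K F)) P = P.ord f) →
      ∀ hf1 : f ∈ O1, f⁻¹ ∈ O1 → f ∈ O2 → f⁻¹ ∈ O2 →
      ∀ Q : Place k ↥κ'', (p : ℤ) ∣ Q.ord (⟨red ⟨f, hf1⟩, hred_mem _⟩ : ↥κ''))
    -- (PH) PULLBACK + HECKE
    (hPH : ∀ D : Divisor.degZero (K := K) (F := F), Pic0.mk D ∈ V → ∀ f : F, f ≠ 0 →
      (∀ P : Place K F, (p • (D : Divisor K F)) P = P.ord f) →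
      ∀ hf1 : f ∈ O1, f⁻¹ ∈ O1 →
      ∃ u ∈ κ', u ≠ 0 ∧ ∃ c : k, c ≠ 0 ∧ ∃ h ∈ κ'', h ≠ 0 ∧
        red ⟨f, hf1⟩ = HahnSeries.C c * u * h ^ p ∧
        ∀ i, Tform (ℓ i) (dlog u) = a i • dlog u)
    -- SIDE-TWO by push-forward along the second degeneracy map
    {E : Type*} [Field E] [Algebra K E] [Algebra E F] [IsScalarTower K E F]
    [FiniteDimensional E F] [Algebra.IsSeparable E F] [Algebra R E] [IsScalarTower R E F]
    {C0 C1 C01 : Subalgebra R E} {O' : ValuationSubring E} {B01 : Subalgebra R F}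
    (hβ : Branch π p C0 C1 C01 O' O2 O1 B0 B1 B01) (hrank : finrank E F = p + 1)
    (hpush : ∀ D : Divisor.degZero (K := K) (F := F), Pic0.mk D ∈ V →
      HasLevel π B0 B1 O1 O2 0 (D : Divisor K F) →
      ∃ f₂ : E, PushData C0 C1 O' B0 B1 (D : Divisor K F) f₂) :
    ∀ v ∈ V, v ∈ Cart π B0 B1 O1 O2 hπ1 hπ2 0 → v ∈ Cart π B0 B1 O1 O2 hπ1 hπ2 1 := by
  have hp : p.Prime := Fact.out
  have approx2 := approx2_of_numData N hac1 hac2 hth hnodeEx
  refine Fermat.Agent.M1.Old.T4Main45.t4_of_bricks N hac1 hac2 hth hnodeEx hp hchar hperf V tors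
    hnode κ' κ'' hle hkp red hred_mem hred_ker hred_unit hdesc ℓ a hCORE hHI hPH ?_
  intro D hDV hlev0 f hf0 hdiv hf1 hf1' hf2 _ φ1 hφ1 hφ1' hpow1
  obtain ⟨f₂, hD2⟩ := hpush D hDV hlev0
  exact hswap_of_branch hβ hrank approx2 hD2 hf0 hdiv hf1 hf1' hf2 φ1 hφ1 hφ1' hpow1

end Fermat.Agent.M1.Old.T4MainPush60
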